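/-
S56 / block E (local terms), E-ECp = "LEC" chain (board #2515), leaf of (L8) (helper9):
**the local good field**: for a finite discrete `𝔽_p[Gal(ℚ̄_p/ℚ_p)]`-module `Y` there is a finite
Galois `L/ℚ_p` inside `PadicAlgCl p`, containing a primitive `p`-th root of unity `ζ`, such that
`G_L = L.fixingSubgroup` is a member of the level structure and acts trivially on `Y`; moreover
`g ζ = ζ ^ χ_cyc(g)` for the restriction of the global mod `p` cyclotomic character.
(Local twin of helper13's `GEC/GoodField.exists_level_trivializing`.)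
-/
import Mathlib
import Fermat.Agent.S55.GaloisLevel
import Fermat.Agent.S55.LevelComplex
import Fermat.Agent.S55.Local.LocalInv

set_option autoImplicit false
set_option linter.unusedSectionVars false
set_option linter.style.haveILetI false

namespace Fermat.Agent.S56.Loc.EC.GoodFieldLocal

open IntermediateField ExtCitation Fermat.Agent.S55.Level Fermat.Agent.S55.GaloisLevel
  Fermat.Agent.S55.Local.LocalInv Fermat.Agent.S55.DualTwist

variable {p : ℕ} [Fact p.Prime]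

/-- **The local good field.** -/
theorem exists_goodField (𝒲 : LevelStructure Gal(PadicAlgCl p/ℚ_[p]))
    (h𝒲 : 𝒲 = krullLevel ℚ_[p] (PadicAlgCl p))
    (Y : Rep.{0} (ZMod p) Gal(PadicAlgCl p/ℚ_[p])) [IsDiscrete 𝒲 Y] [Module.Finite (ZMod p) Y] :
    ∃ (L : IntermediateField ℚ_[p] (PadicAlgCl p)) (_ : FiniteDimensional ℚ_[p] L)
      (_ : IsGalois ℚ_[p] L) (ζ : PadicAlgCl p), IsPrimitiveRoot ζ p ∧ ζ ∈ L ∧
      L.fixingSubgroup ∈ 𝒲.sets ∧ (∀ u ∈ L.fixingSubgroup, Y.ρ u = 1) ∧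
      ∀ g : Gal(PadicAlgCl p/ℚ_[p]), g ζ =
        ζ ^ ((cycloChar p (localGaloisToGlobal p g) : (ZMod p)ˣ) : ZMod p).val := by
  classical
  subst h𝒲
  have hp : p.Prime := Fact.out
  -- a member of the level structure acting trivially on `Y`
  haveI : Finite Y := Module.finite_of_finite (ZMod p)
  letI : Fintype Y := Fintype.ofFinite Y
  obtain ⟨U₀, hU₀, hfix⟩ := exists_fix_finset (𝒰 := krullLevel ℚ_[p] (PadicAlgCl p)) (A := Y)
    (Finset.univ : Finset Y)
  obtain ⟨E, hE, _, hEU⟩ := exists_fixingSubgroup_le hU₀.2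
  -- the root of unity
  obtain ⟨ζ₀, hζ₀⟩ := exists_primitiveRoot (p := p)
  set ζ : PadicAlgCl p := padicEmbedding p ζ₀ with hζdef
  have hζ : IsPrimitiveRoot ζ p := hζ₀.map_of_injective (padicEmbedding p).toRingHom.injective
  have hint : IsIntegral ℚ_[p] ζ := (hζ.isIntegral hp.pos).tower_top
  haveI : FiniteDimensional ℚ_[p] ℚ_[p]⟮ζ⟯ := adjoin.finiteDimensional hint
  haveI : FiniteDimensional ℚ_[p] ↥(E ⊔ ℚ_[p]⟮ζ⟯) := finiteDimensional_sup E ℚ_[p]⟮ζ⟯
  set L : IntermediateField ℚ_[p] (PadicAlgCl p) :=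
    normalClosure ℚ_[p] ↥(E ⊔ ℚ_[p]⟮ζ⟯) (PadicAlgCl p) with hL
  have hLfd : FiniteDimensional ℚ_[p] L := normalClosure.is_finiteDimensional ℚ_[p] _ _
  have hLgal : IsGalois ℚ_[p] L := IsGalois.normalClosure ℚ_[p] _ _
  have hle : E ⊔ ℚ_[p]⟮ζ⟯ ≤ L := le_normalClosure _
  have hζL : ζ ∈ L := hle ((le_sup_right : ℚ_[p]⟮ζ⟯ ≤ E ⊔ ℚ_[p]⟮ζ⟯) (mem_adjoin_simple_self _ ζ))
  have hLE : L.fixingSubgroup ≤ E.fixingSubgroup :=
    fixingSubgroup_antitone (le_trans le_sup_left hle)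
  refine ⟨L, hLfd, hLgal, ζ, hζ, hζL, fixingSubgroup_mem_krullLevel L, ?_, ?_⟩
  · intro u hu
    refine LinearMap.ext fun y => ?_
    exact hfix y (Finset.mem_univ y) u (hEU (hLE hu))
  · intro g
    have h1 := congrArg (fun u : (PadicAlgCl p)ˣ => (u : PadicAlgCl p)) (smul_zetaUnit p hζ₀ g)
    simp only [Units.val_pow_eq_pow_val] at h1
    exact h1

end Fermat.Agent.S56.Loc.EC.GoodFieldLocal
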