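/-
S56 / block E (local terms), E-ECp = "LEC" chain (board #2515), leaf (L5), SEAM (helper9):
the abstract hypotheses of **Kummer theory with operators**.

`Ω/K` a field extension, `L` an intermediate field, normal over `K`, containing a primitive `p`-th
root of unity `ζ`; a group `G` acting on `Ω` through `r : G →* Gal(Ω/K)`, with a level structure
`𝒰`, and a normal subgroup `U` ("`= G_L`").  `KummerHyp L r 𝒰 U ζ` collects what Kummer theory
needs:

* `fixL`  : `U` fixes `L` pointwise;
* `fixed` : the elements of `Ω` fixed by `U` lie in `L` (Galois correspondence);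
* `disc`  : every element of `Ω` is fixed by a member of `𝒰` (discreteness);
* `roots` : `Ω` is closed under `p`-th roots;
* `surj`  : every additive `χ : U → 𝔽_p` of finite level is a Kummer character:
  `u α = ζ ^ χ(u) · α` for some `α ∈ Ωˣ` with `α ^ p ∈ L` (Hilbert 90 for `U`).

`KummerEq.lean` deduces the twisted-equivariant isomorphism `Lˣ/p ≃ Hom_lev(U, 𝔽_p)`;
`KummerInst.lean` proves `KummerHyp` for `G = V ≤ Gal(Ω/K)`, `U = G_L ≤ V`.
-/
import Mathlib
import Fermat.Agent.S56.Loc.EC.HomTensorCore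

set_option autoImplicit false

namespace Fermat.Agent.S56.Loc.EC.KummerHyp

open Fermat.Agent.S55.Level Fermat.Agent.S56.Loc.EC.HomTensorCore

/-- The hypotheses of Kummer theory with operators (see the file header). -/
structure KummerHyp {K Ω : Type} [Field K] [Field Ω] [Algebra K Ω] (p : ℕ) [Fact p.Prime]
    (L : IntermediateField K Ω) {G : Type} [Group G] (r : G →* (Ω ≃ₐ[K] Ω))
    (𝒰 : LevelStructure G) (U : Subgroup G) [U.Normal] (ζ : Ω) : Prop where
  /-- `U` fixes `L` pointwise -/
  fixL : ∀ u ∈ U, ∀ x ∈ L, r u x = x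
  /-- the fixed field of `U` is contained in `L` -/
  fixed : ∀ x : Ω, (∀ u ∈ U, r u x = x) → x ∈ L
  /-- `Ω` is a discrete `G`-module -/
  disc : ∀ x : Ω, ∃ W ∈ 𝒰.sets, ∀ w ∈ W, r w x = x
  /-- `Ω` is closed under `p`-th roots -/
  roots : ∀ x : Ω, ∃ y : Ω, y ^ p = x
  /-- every finite-level additive character of `U` is a Kummer character -/
  surj : ∀ χ ∈ HomLev (k := ZMod p) 𝒰 U, ∃ α : Ω, α ≠ 0 ∧ α ^ p ∈ L ∧
    ∀ u : U, r (u : G) α = ζ ^ (χ u).val * α

end Fermat.Agent.S56.Loc.EC.KummerHyp
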