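/-
S56 / block E (local terms), E-ECp = "LEC" chain (board #2515), leaf (L5b) (helper19):
**the hypotheses `KummerHyp` of Kummer theory with operators hold for an open subgroup
`V ≤ Gal(Ω/K)` containing `G_L = L.fixingSubgroup`** (`L/K` finite Galois, `ζ_p ∈ L`, `Ω` closed
under `p`-th roots), with `G := ↥V`, `𝒰 := (krullLevel K Ω).restrict V`, `U := G_L ∩ V ⊲ V`.

* `galEquivSub hLV : Gal(Ω/L) ≃* ↥(L.fixingSubgroup.subgroupOf V)`;
* **`kummerHyp_sub`** : `KummerHyp p L V.subtype ((krullLevel K Ω).restrict V)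
  (L.fixingSubgroup.subgroupOf V) ζ` (Kummer surjectivity from S55 `HilbertCore.exists_kummer` for
  `KummerCount.kummerData ↥L Ω`).
-/
import Mathlib
import Fermat.Agent.S56.Loc.EC.KummerHyp
import Fermat.Agent.S55.GaloisLevelBC
import Fermat.Agent.S55.Local.KummerCount

set_option autoImplicit false
set_option linter.unusedSectionVars false

namespace Fermat.Agent.S56.Loc.EC.KummerInst

open CategoryTheory IntermediateField Fermat.Agent.S55.Level Fermat.Agent.S55.GaloisLevel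
  Fermat.Agent.S55.Local.Hilbert Fermat.Agent.S55.Local.KummerCount
  Fermat.Agent.S56.Loc.EC.HomTensorCore Fermat.Agent.S56.Loc.EC.KummerHyp

noncomputable section

variable {K Ω : Type} [Field K] [Field Ω] [Algebra K Ω] [IsGalois K Ω]
  (L : IntermediateField K Ω) {V : Subgroup (Ω ≃ₐ[K] Ω)} (hLV : L.fixingSubgroup ≤ V)

/-- `Gal(Ω/L) ≃* G_L ∩ V` (as a subgroup of `V ⊇ G_L`) -/
def galEquivSub : (Ω ≃ₐ[L] Ω) ≃* ↥(L.fixingSubgroup.subgroupOf V) :=
  (openEquiv (rfl : L.fixingSubgroup = L.fixingSubgroup)).symm.trans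
    (Subgroup.subgroupOfEquivOfLe hLV).symm

lemma coe_galEquivSub (τ : Ω ≃ₐ[L] Ω) :
    (((galEquivSub L hLV τ : ↥(L.fixingSubgroup.subgroupOf V)) : ↥V) : Ω ≃ₐ[K] Ω) =
      τ.restrictScalars K := rfl

lemma galEquivSub_apply (τ : Ω ≃ₐ[L] Ω) (x : Ω) :
    (((galEquivSub L hLV τ : ↥(L.fixingSubgroup.subgroupOf V)) : ↥V) : Ω ≃ₐ[K] Ω) x = τ x := rfl

variable [FiniteDimensional K L] [IsGalois K L] {p : ℕ} [Fact p.Prime]

/-- `G_L ∩ V` is normal in `V` (`L/K` normal) -/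
instance normal_subgroupOf : (L.fixingSubgroup.subgroupOf V).Normal :=
  haveI : L.fixingSubgroup.Normal := (InfiniteGalois.normal_iff_isGalois L).2 inferInstance
  Subgroup.normal_subgroupOf

include hLV in
/-- Kummer surjectivity for `G_L ∩ V`: every additive character of finite level is a Kummer
character. -/
theorem exists_kummer_sub {ζ : Ω} (hζ : IsPrimitiveRoot ζ p) (hζL : ζ ∈ L)
    (hroots : ∀ x : Ω, ∃ y : Ω, y ^ p = x)
    (χ : ↥(L.fixingSubgroup.subgroupOf V) → ZMod p)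
    (hχ : χ ∈ HomLev (k := ZMod p) ((krullLevel K Ω).restrict V) (L.fixingSubgroup.subgroupOf V)) :
    ∃ α : Ω, α ≠ 0 ∧ α ^ p ∈ L ∧
      ∀ u : ↥(L.fixingSubgroup.subgroupOf V), V.subtype (u : ↥V) α = ζ ^ (χ u).val * α := by
  obtain ⟨hadd, W, ⟨W₀, hW₀, rfl⟩, hlev⟩ := hχ
  -- the primitive root inside `L`
  have hζ' : IsPrimitiveRoot (⟨ζ, hζL⟩ : L) p :=
    IsPrimitiveRoot.coe_submonoidClass_iff.mp hζ
  let D := kummerData L Ω hζ' hroots
  let e := galEquivSub L hLV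
  -- the character of `Gal(Ω/L)`
  let κ : (Ω ≃ₐ[L] Ω) → ZMod p := fun τ => χ (e τ)
  have hκ : ∀ g h, κ (g * h) = κ g + κ h := fun g h => by
    show χ (e (g * h)) = χ (e g) + χ (e h)
    rw [map_mul, hadd]
  have hκlev : IsLevel₁ (krullLevel L Ω) κ := by
    obtain ⟨W', hW', hle⟩ := refines_restrictScalarsHom K L Ω W₀ hW₀
    refine ⟨W', hW', fun g s hs => ?_⟩
    rw [hκ]
    have h0 : χ (e s) = 0 := hlev (e s) (Subgroup.mem_subgroupOf.mpr (hle hs))
    show χ (e g) + χ (e s) = χ (e g)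
    rw [h0, add_zero]
  obtain ⟨a, ha1, ha2⟩ := exists_kummer D κ hκ hκlev
  -- translate to `Ω`
  let α : Ω := ((Additive.toMul a : Ωˣ) : Ω)
  have hαne : α ≠ 0 := (Additive.toMul a : Ωˣ).ne_zero
  have hτα : ∀ τ : Ω ≃ₐ[L] Ω, τ α = ζ ^ (κ τ).val * α := by
    intro τ
    have h := ha2 τ
    have h' : (unitsRep L Ω).ρ τ a = (κ τ).val • D.ζ + a := by
      rw [← h, sub_add_cancel]
    have h'' : τ α = (((zetaUnit L Ω hζ') ^ (κ τ).val * (Additive.toMul a : Ωˣ) : Ωˣ) : Ω) :=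
      congrArg (fun x : Additive Ωˣ => ((Additive.toMul x : Ωˣ) : Ω)) h'
    rw [h'', Units.val_mul, Units.val_pow_eq_pow_val, coe_zetaUnit]
    rfl
  refine ⟨α, hαne, ?_, fun u => ?_⟩
  · -- `α ^ p` is fixed by `G_L`
    rw [← InfiniteGalois.fixedField_fixingSubgroup L, IntermediateField.mem_fixedField_iff]
    intro g hg
    let τ : Ω ≃ₐ[L] Ω := openEquiv (rfl : L.fixingSubgroup = L.fixingSubgroup) ⟨g, hg⟩
    have h1 : g (α ^ p) = τ (α ^ p) := rfl
    rw [h1]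
    have h2 := ha1 τ
    have h3 : τ (((Additive.toMul a : Ωˣ) ^ p : Ωˣ) : Ω) = (((Additive.toMul a : Ωˣ) ^ p : Ωˣ) : Ω) :=
      congrArg (fun x : Additive Ωˣ => ((Additive.toMul x : Ωˣ) : Ω)) h2
    rw [Units.val_pow_eq_pow_val] at h3
    exact h3
  · have h1 : V.subtype (u : ↥V) α = (e.symm u) α := by
      have := galEquivSub_apply L hLV (e.symm u) α
      rw [show galEquivSub L hLV (e.symm u) = u from e.apply_symm_apply u] at this
      exact this
    rw [h1, hτα]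
    show ζ ^ (χ (e (e.symm u))).val * α = _
    rw [e.apply_symm_apply]

include hLV in
/-- **(L5b)** `KummerHyp` for `G = V ≤ Gal(Ω/K)`, `U = G_L ≤ V`. -/
theorem kummerHyp_sub {ζ : Ω} (hζ : IsPrimitiveRoot ζ p) (hζL : ζ ∈ L)
    (hroots : ∀ x : Ω, ∃ y : Ω, y ^ p = x) :
    KummerHyp p L V.subtype ((krullLevel K Ω).restrict V) (L.fixingSubgroup.subgroupOf V) ζ where
  fixL u hu x hx :=
    (IntermediateField.mem_fixingSubgroup_iff L (u : Ω ≃ₐ[K] Ω)).1
      (Subgroup.mem_subgroupOf.mp hu) x hx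
  fixed x hx := by
    rw [← InfiniteGalois.fixedField_fixingSubgroup L, IntermediateField.mem_fixedField_iff]
    intro g hg
    exact hx ⟨g, hLV hg⟩ (Subgroup.mem_subgroupOf.mpr hg)
  disc x := by
    obtain ⟨E, hE, hEG, hxE⟩ := exists_finite_galois_mem (K := K) x
    refine ⟨E.fixingSubgroup.subgroupOf V,
      (krullLevel K Ω).mem_restrict_sets V (fixingSubgroup_mem_krullLevel E), fun w hw => ?_⟩
    exact (IntermediateField.mem_fixingSubgroup_iff E (w : Ω ≃ₐ[K] Ω)).1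
      (Subgroup.mem_subgroupOf.mp hw) x hxE
  roots := hroots
  surj χ hχ := exists_kummer_sub L hLV hζ hζL hroots χ hχ

end

end Fermat.Agent.S56.Loc.EC.KummerInst
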