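/-
S56 / block E (local terms), E-ECp = "LEC" chain (board #2515), leaf (L4) (helper19):
**`EqHom 𝒰 U A ≃ (A ⊗ X)^G`, `X := Hom_lev(U, k)` with the conjugation action**, hence
`h¹(𝒰, A) = mult A X` for `p ∤ [G : U]`, `U` acting trivially on `A` (with `InfRes.finrank_H1_eq`).

* `HomLev 𝒰 U : Submodule k (U → k)` : the additive maps `U → k` of finite level;
  `homLevRep 𝒰 U : Representation k G (HomLev 𝒰 U)`, `(g • χ)(u) = χ(g⁻¹ u g)`;
  `homLevRep_of_mem` : `U` acts trivially;
* `tensorMap 𝒰 U A : A ⊗[k] HomLev 𝒰 U →ₗ[k] (U → A)`, `a ⊗ χ ↦ (u ↦ χ u • a)`: injective,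
  equivariant for `(g ⋆ φ)(u) = g • φ(g⁻¹ u g)`, with range the additive maps of finite level
  (`A` finite dimensional);
* **`invEquiv : (A.ρ.tprod (homLevRep 𝒰 U)).invariants ≃ₗ[k] EqHom 𝒰 U A`**,
  **`finrank_EqHom_eq_mult : finrank k (EqHom 𝒰 U A) = mult A.ρ (homLevRep 𝒰 U)`**;
* `mult_eq_of_surjective` : `mult` does not change when the representations are descended along a
  surjection `π : G →* C`; `finrank_H1_eq_mult` : the combination with (L3).
-/
import Mathlib
import Fermat.Agent.S56.Loc.EC.InfRes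
import Fermat.Agent.S56.GEC.Equivariant.Mult

set_option autoImplicit false
set_option linter.unusedSectionVars false

namespace Fermat.Agent.S56.Loc.EC.HomTensorCore

open CategoryTheory groupCohomology Module TensorProduct Fermat.Agent.S55.Level
  Fermat.Agent.S56.Loc.EC.InfRes Fermat.Agent.S56.GEC.Equivariant.Mult

universe u

noncomputable section

variable {k G : Type u} [Field k] [Group G] (𝒰 : LevelStructure G) (U : Subgroup G) [U.Normal]

/-! ### the module `X = Hom_lev(U, k)` -/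

/-- additive maps `U → k` of finite level -/
def HomLev : Submodule k (U → k) where
  carrier := {χ | (∀ u v, χ (u * v) = χ u + χ v) ∧ ∃ W ∈ 𝒰.sets, ∀ u : U, (u : G) ∈ W → χ u = 0}
  zero_mem' := by
    refine ⟨fun _ _ => by simp, ?_⟩
    obtain ⟨W, hW⟩ := 𝒰.nonempty
    exact ⟨W, hW, fun _ _ => rfl⟩
  add_mem' := by
    rintro φ ψ ⟨h1, W, hW, h2⟩ ⟨h1', W', hW', h2'⟩
    refine ⟨fun u v => ?_, ?_⟩
    · simp only [Pi.add_apply, h1, h1']; ring
    · obtain ⟨W'', hW'', hle⟩ := 𝒰.directed W hW W' hW'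
      refine ⟨W'', hW'', fun u hu => ?_⟩
      simp only [Pi.add_apply, h2 u (hle hu).1, h2' u (hle hu).2, add_zero]
  smul_mem' := by
    rintro c φ ⟨h1, W, hW, h2⟩
    refine ⟨fun u v => ?_, W, hW, fun u hu => ?_⟩
    · simp only [Pi.smul_apply, h1, smul_add]
    · simp only [Pi.smul_apply, h2 u hu, smul_zero]

variable {𝒰 U}

lemma mem_HomLev_iff (χ : U → k) : χ ∈ HomLev (k := k) 𝒰 U ↔
    (∀ u v, χ (u * v) = χ u + χ v) ∧ ∃ W ∈ 𝒰.sets, ∀ u : U, (u : G) ∈ W → χ u = 0 := Iff.rfl

lemma HomLev.map_mul (χ : HomLev (k := k) 𝒰 U) (u v : U) :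
    (χ : U → k) (u * v) = (χ : U → k) u + (χ : U → k) v := χ.2.1 u v

lemma HomLev.map_one (χ : HomLev (k := k) 𝒰 U) : (χ : U → k) 1 = 0 := by
  have h := χ.2.1 1 1
  rw [mul_one] at h
  exact left_eq_add.mp h

lemma HomLev.map_inv (χ : HomLev (k := k) 𝒰 U) (u : U) :
    (χ : U → k) u⁻¹ = - (χ : U → k) u := by
  have h := χ.2.1 u u⁻¹
  rw [mul_inv_cancel, HomLev.map_one] at h
  exact eq_neg_of_add_eq_zero_right h.symm

/-- the values of an additive map are conjugation invariant inside `U` -/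
lemma HomLev.map_conj_of_mem (χ : HomLev (k := k) 𝒰 U) {v : G} (hv : v ∈ U) (u : U) :
    (χ : U → k) (conjU U v u) = (χ : U → k) u := by
  have h : conjU U v u = ⟨v, hv⟩ * u * (⟨v, hv⟩ : U)⁻¹ := Subtype.ext rfl
  rw [h, HomLev.map_mul, HomLev.map_mul, HomLev.map_inv]
  ring

variable (𝒰 U)

lemma conjU_one (u : U) : conjU U 1 u = u := Subtype.ext (by simp)

lemma conjU_mul (g h : G) (u : U) : conjU U (g * h) u = conjU U g (conjU U h u) :=
  Subtype.ext (by simp [mul_assoc])

lemma conjU_mul_apply (g : G) (u v : U) : conjU U g (u * v) = conjU U g u * conjU U g v :=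
  Subtype.ext (by simp [mul_assoc])

/-- the conjugation action of `G` on `Hom_lev(U, k)`: `(g • χ)(u) = χ(g⁻¹ u g)` -/
def homLevRep : Representation k G (HomLev (k := k) 𝒰 U) where
  toFun g :=
    { toFun := fun χ => ⟨fun u => (χ : U → k) (conjU U g⁻¹ u), by
        obtain ⟨h1, W, hW, h2⟩ := χ.2
        refine ⟨fun u v => ?_, W, hW, fun u hu => h2 _ ?_⟩
        · show (χ : U → k) (conjU U g⁻¹ (u * v)) = _
          rw [conjU_mul_apply, h1]
        · have := (𝒰.normal W hW).conj_mem (u : G) hu g⁻¹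
          simpa using this⟩
      map_add' := fun _ _ => rfl
      map_smul' := fun _ _ => rfl }
  map_one' := by
    refine LinearMap.ext fun χ => Subtype.ext (funext fun u => ?_)
    show (χ : U → k) (conjU U (1 : G)⁻¹ u) = (χ : U → k) u
    rw [inv_one, conjU_one]
  map_mul' g h := by
    refine LinearMap.ext fun χ => Subtype.ext (funext fun u => ?_)
    show (χ : U → k) (conjU U (g * h)⁻¹ u) = (χ : U → k) (conjU U h⁻¹ (conjU U g⁻¹ u))
    rw [mul_inv_rev, conjU_mul]

@[simp] lemma homLevRep_apply (g : G) (χ : HomLev (k := k) 𝒰 U) (u : U) :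
    ((homLevRep 𝒰 U g χ : HomLev (k := k) 𝒰 U) : U → k) u = (χ : U → k) (conjU U g⁻¹ u) := rfl

/-- `U` acts trivially on `Hom_lev(U, k)` -/
lemma homLevRep_of_mem {v : G} (hv : v ∈ U) : homLevRep (k := k) 𝒰 U v = 1 := by
  refine LinearMap.ext fun χ => Subtype.ext (funext fun u => ?_)
  show (χ : U → k) (conjU U v⁻¹ u) = (χ : U → k) u
  exact HomLev.map_conj_of_mem χ (U.inv_mem hv) u

/-! ### the tensor map -/

variable (A : Rep.{u} k G)

/-- `a ⊗ χ ↦ (u ↦ χ u • a)` -/
def tensorMap : A ⊗[k] HomLev (k := k) 𝒰 U →ₗ[k] (U → A) :=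
  TensorProduct.lift
    { toFun := fun a =>
        { toFun := fun χ u => (χ : U → k) u • a
          map_add' := fun χ ψ => funext fun u => add_smul _ _ _
          map_smul' := fun c χ => funext fun u => by
            show (c • (χ : U → k) u) • a = c • ((χ : U → k) u • a)
            rw [smul_assoc] }
      map_add' := fun a a' => LinearMap.ext fun χ => funext fun u => smul_add _ _ _
      map_smul' := fun c a => LinearMap.ext fun χ => funext fun u => smul_comm _ _ _ }

@[simp] lemma tensorMap_tmul (a : A) (χ : HomLev (k := k) 𝒰 U) (u : U) :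
    tensorMap 𝒰 U A (a ⊗ₜ χ) u = (χ : U → k) u • a := rfl

/-- the twisted conjugation action of `G` on functions `U → A` -/
def starAct (g : G) : (U → A) →ₗ[k] (U → A) where
  toFun φ u := A.ρ g (φ (conjU U g⁻¹ u))
  map_add' _ _ := funext fun _ => map_add _ _ _
  map_smul' _ _ := funext fun _ => map_smul _ _ _

@[simp] lemma starAct_apply (g : G) (φ : U → A) (u : U) :
    starAct U A g φ u = A.ρ g (φ (conjU U g⁻¹ u)) := rfl

/-- the tensor map is equivariant -/
lemma tensorMap_equivariant (g : G) (t : A ⊗[k] HomLev (k := k) 𝒰 U) :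
    tensorMap 𝒰 U A ((A.ρ.tprod (homLevRep 𝒰 U)) g t) = starAct U A g (tensorMap 𝒰 U A t) := by
  induction t using TensorProduct.induction_on with
  | zero => simp
  | tmul a χ =>
    funext u
    rw [Representation.tprod_apply, TensorProduct.map_tmul, tensorMap_tmul, starAct_apply,
      tensorMap_tmul, homLevRep_apply, map_smul]
  | add x y hx hy => simp only [map_add, hx, hy]

/-- the tensor map is injective -/
lemma tensorMap_injective : Function.Injective (tensorMap 𝒰 U A) := by
  rw [injective_iff_map_eq_zero]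
  intro t ht
  let b := Basis.ofVectorSpace k A
  obtain ⟨c, rfl⟩ := TensorProduct.eq_repr_basis_left b t
  have hc : c = 0 := by
    ext i : 1
    refine Subtype.ext (funext fun u => ?_)
    have h1 : (c.sum fun j χ => (χ : U → k) u • b j) = 0 := by
      have := congrFun ht u
      rw [Finsupp.sum, map_sum, Finset.sum_apply] at this
      exact this
    have h2 : (Finsupp.linearCombination k b)
        (c.mapRange (fun χ : HomLev (k := k) 𝒰 U => (χ : U → k) u) rfl) = 0 := by
      rw [Finsupp.linearCombination_apply, Finsupp.sum_mapRange_index (by simp)]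
      exact h1
    have h3 : c.mapRange (fun χ : HomLev (k := k) 𝒰 U => (χ : U → k) u) rfl = 0 :=
      b.linearIndependent (by rw [h2, map_zero])
    have := DFunLike.congr_fun h3 i
    simpa using this
  rw [hc, Finsupp.sum_zero_index]

/-- additive maps `U → A` of finite level (no equivariance) -/
def HomLevA : Submodule k (U → A) where
  carrier := {φ | (∀ u v, φ (u * v) = φ u + φ v) ∧ ∃ W ∈ 𝒰.sets, ∀ u : U, (u : G) ∈ W → φ u = 0}
  zero_mem' := by
    refine ⟨fun _ _ => by simp, ?_⟩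
    obtain ⟨W, hW⟩ := 𝒰.nonempty
    exact ⟨W, hW, fun _ _ => rfl⟩
  add_mem' := by
    rintro φ ψ ⟨h1, W, hW, h2⟩ ⟨h1', W', hW', h2'⟩
    refine ⟨fun u v => ?_, ?_⟩
    · simp only [Pi.add_apply, h1, h1']; abel
    · obtain ⟨W'', hW'', hle⟩ := 𝒰.directed W hW W' hW'
      refine ⟨W'', hW'', fun u hu => ?_⟩
      simp only [Pi.add_apply, h2 u (hle hu).1, h2' u (hle hu).2, add_zero]
  smul_mem' := by
    rintro c φ ⟨h1, W, hW, h2⟩
    refine ⟨fun u v => ?_, W, hW, fun u hu => ?_⟩
    · simp only [Pi.smul_apply, h1, smul_add]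
    · simp only [Pi.smul_apply, h2 u hu, smul_zero]

lemma EqHom_le_HomLevA : EqHom 𝒰 U A ≤ HomLevA 𝒰 U A := fun _ hφ => ⟨hφ.1, hφ.2.1⟩

/-- the tensor map takes values in the additive maps of finite level -/
lemma tensorMap_mem_HomLevA (t : A ⊗[k] HomLev (k := k) 𝒰 U) :
    tensorMap 𝒰 U A t ∈ HomLevA 𝒰 U A := by
  induction t using TensorProduct.induction_on with
  | zero => rw [map_zero]; exact Submodule.zero_mem _
  | tmul a χ =>
    obtain ⟨h1, W, hW, h2⟩ := χ.2
    refine ⟨fun u v => ?_, W, hW, fun u hu => ?_⟩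
    · rw [tensorMap_tmul, tensorMap_tmul, tensorMap_tmul, h1, add_smul]
    · rw [tensorMap_tmul, h2 u hu, zero_smul]
  | add x y hx hy => rw [map_add]; exact Submodule.add_mem _ hx hy

/-- every additive map `U → A` of finite level is in the range of the tensor map
(`A` finite dimensional) -/
lemma exists_tensorMap_eq [Module.Finite k A] {φ : U → A} (hφ : φ ∈ HomLevA 𝒰 U A) :
    ∃ t, tensorMap 𝒰 U A t = φ := by
  obtain ⟨hadd, W, hW, hlev⟩ := hφ
  let b := Module.finBasis k A
  have hmem : ∀ i, (fun u => b.coord i (φ u)) ∈ HomLev (k := k) 𝒰 U := fun i =>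
    ⟨fun u v => by simp only [hadd, map_add], W, hW, fun u hu => by simp only [hlev u hu, map_zero]⟩
  refine ⟨∑ i, b i ⊗ₜ[k] (⟨fun u => b.coord i (φ u), hmem i⟩ : HomLev (k := k) 𝒰 U), ?_⟩
  funext u
  rw [map_sum, Finset.sum_apply]
  simp only [tensorMap_tmul]
  exact b.sum_repr (φ u)

variable {𝒰 U A}

/-- invariant tensors go to equivariant homomorphisms -/
lemma tensorMap_mem_EqHom {t : A ⊗[k] HomLev (k := k) 𝒰 U}
    (ht : t ∈ (A.ρ.tprod (homLevRep 𝒰 U)).invariants) : tensorMap 𝒰 U A t ∈ EqHom 𝒰 U A := by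
  obtain ⟨h1, h2⟩ := tensorMap_mem_HomLevA 𝒰 U A t
  refine ⟨h1, h2, fun g u => ?_⟩
  have h := congrFun (tensorMap_equivariant 𝒰 U A g t) (conjU U g u)
  rw [ht g, starAct_apply, ← conjU_mul, inv_mul_cancel, conjU_one] at h
  exact h

/-- equivariant homomorphisms come from invariant tensors -/
lemma mem_invariants_of_tensorMap_mem_EqHom {t : A ⊗[k] HomLev (k := k) 𝒰 U}
    (ht : tensorMap 𝒰 U A t ∈ EqHom 𝒰 U A) : t ∈ (A.ρ.tprod (homLevRep 𝒰 U)).invariants := by
  intro g
  apply tensorMap_injective 𝒰 U A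
  rw [tensorMap_equivariant]
  funext u
  rw [starAct_apply, ← ht.2.2 g, ← conjU_mul, mul_inv_cancel, conjU_one]

variable (𝒰 U A)

/-- **(L4)** `(A ⊗ Hom_lev(U, k))^G ≃ EqHom 𝒰 U A` -/
def invEquiv [Module.Finite k A] :
    (A.ρ.tprod (homLevRep 𝒰 U)).invariants ≃ₗ[k] EqHom 𝒰 U A :=
  LinearEquiv.ofBijective
    (LinearMap.codRestrict (EqHom 𝒰 U A)
      ((tensorMap 𝒰 U A).comp (Submodule.subtype _)) (fun t => tensorMap_mem_EqHom t.2))
    ⟨fun t t' h => Subtype.ext (tensorMap_injective 𝒰 U A (congrArg Subtype.val h)),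
      fun φ => by
        obtain ⟨t, ht⟩ := exists_tensorMap_eq 𝒰 U A (EqHom_le_HomLevA 𝒰 U A φ.2)
        exact ⟨⟨t, mem_invariants_of_tensorMap_mem_EqHom (ht ▸ φ.2)⟩, Subtype.ext ht⟩⟩

@[simp] lemma invEquiv_apply [Module.Finite k A]
    (t : (A.ρ.tprod (homLevRep 𝒰 U)).invariants) :
    ((invEquiv 𝒰 U A t : EqHom 𝒰 U A) : U → A) = tensorMap 𝒰 U A t.1 := rfl

/-- **(L4)** `dim EqHom 𝒰 U A = mult A Hom_lev(U, k)` (multiplicity over the group `G`) -/
theorem finrank_EqHom_eq_mult [Module.Finite k A] :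
    finrank k (EqHom 𝒰 U A) = mult A.ρ (homLevRep (k := k) 𝒰 U) :=
  (invEquiv 𝒰 U A).finrank_eq.symm

/-! ### descent to a quotient of `G` and the combination with (L3) -/

section Descent

variable {N X : Type*} [AddCommGroup N] [Module k N] [AddCommGroup X] [Module k X]
  {C : Type*} [Group C]

/-- `mult` does not change when both representations are descended along a surjection -/
theorem mult_eq_of_surjective (π : G →* C) (hπ : Function.Surjective π)
    (ρN : Representation k G N) (ρX : Representation k G X)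
    (σN : Representation k C N) (σX : Representation k C X)
    (hN : ∀ g, σN (π g) = ρN g) (hX : ∀ g, σX (π g) = ρX g) :
    mult ρN ρX = mult σN σX := by
  have h : (ρN.tprod ρX).invariants = (σN.tprod σX).invariants := by
    ext t
    constructor
    · intro ht c
      obtain ⟨g, rfl⟩ := hπ c
      have := ht g
      rwa [Representation.tprod_apply, ← hN, ← hX] at this
    · intro ht g
      have := ht (π g)
      rwa [Representation.tprod_apply, hN, hX] at this
  unfold mult
  rw [h]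

/-- the descent of a representation trivial on the normal subgroup `U` to `G ⧸ U` -/
def quotRep (ρ : Representation k G N) (h : ∀ u ∈ U, ρ u = 1) : Representation k (G ⧸ U) N :=
  QuotientGroup.lift U ρ h

@[simp] lemma quotRep_mk (ρ : Representation k G N) (h : ∀ u ∈ U, ρ u = 1) (g : G) :
    quotRep U ρ h (g : G ⧸ U) = ρ g := rfl

theorem mult_quotRep (ρN : Representation k G N) (ρX : Representation k G X)
    (hN : ∀ u ∈ U, ρN u = 1) (hX : ∀ u ∈ U, ρX u = 1) :
    mult (quotRep U ρN hN) (quotRep U ρX hX) = mult ρN ρX :=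
  (mult_eq_of_surjective (QuotientGroup.mk' U) (QuotientGroup.mk'_surjective U) ρN ρX _ _
    (fun _ => rfl) (fun _ => rfl)).symm

end Descent

section H1

variable {p : ℕ} [Fact p.Prime] [CharP k p] [IsDiscrete 𝒰 A] [U.FiniteIndex] [Module.Finite k A]

/-- **(L3) + (L4)**: `h¹(𝒰, A) = mult A Hom_lev(U, k)` for `U ⊲ G` open of index prime to `p`
acting trivially on `A` (multiplicity over `G`). -/
theorem finrank_H1_eq_mult (hUA : ∀ u ∈ U, A.ρ u = 1) (hUo : ∃ W ∈ 𝒰.sets, W ≤ U)
    (hcop : Nat.Coprime p U.index) :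
    finrank k (levelCohomology 𝒰 A 1) = mult A.ρ (homLevRep (k := k) 𝒰 U) := by
  rw [finrank_H1_eq hUA hUo hcop, finrank_EqHom_eq_mult]

/-- the same, as a multiplicity over the finite group `G ⧸ U` -/
theorem finrank_H1_eq_mult_quot (hUA : ∀ u ∈ U, A.ρ u = 1) (hUo : ∃ W ∈ 𝒰.sets, W ≤ U)
    (hcop : Nat.Coprime p U.index) :
    finrank k (levelCohomology 𝒰 A 1) =
      mult (quotRep U A.ρ hUA)
        (quotRep U (homLevRep (k := k) 𝒰 U) (fun _ hu => homLevRep_of_mem 𝒰 U hu)) := by
  rw [mult_quotRep, finrank_H1_eq_mult 𝒰 U A hUA hUo hcop]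

end H1

end

end Fermat.Agent.S56.Loc.EC.HomTensorCore
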