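/-
S56 / block E (local terms), E-ECp = "LEC" chain (board #2515), leaf (L7) (helper15):
**the Euler characteristic formula over a group `G` with an open normal subgroup `U` of index prime
to `p` ("(LEC-T)") from the Kummer–units formula for `X = Hom_lev(U, k)`**.

Setting = `InfRes` / `HomTensorCore` VERBATIM: a group `G` with a level structure `𝒰`, `U ⊲ G`
containing a member of `𝒰`, of index prime to `p = char k`, acting trivially on the finite
dimensional discrete `A : Rep k G`; `χ : G →* kˣ` trivial on `U`; `T := G ⧸ U`, `ω := χ mod U`.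

* `invariants_quotRep` : `(quotRep U ρ h).invariants = ρ.invariants`;
* **`finrank_H0_eq`** : `h⁰(𝒰, A) = dim A^T`;
* `quotChar U χ hχ : G ⧸ U →* kˣ` (`ω`), `invariants_dualTwist_eq` : the invariants of
  `A.dualTwist χ` are the invariants of the contragredient of `A ⊗ ω⁻¹` over `T`;
* **`finrank_H0_dualTwist_eq`** : `h⁰(𝒰, A.dualTwist χ) = dim (A ⊗ ω⁻¹)^T` (`p ∤ |T|`, (m3'));
* `mult_homLev_of_kummer_units` : (L5) + (L6) ⇒ the Kummer–units formula
  `mult N X = dim N^T + dim (N ⊗ ω⁻¹)^T + m · dim N`;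
* **`finrank_H1_eq_of_kummer_units`** = (LEC-T): `h¹(𝒰, A) = h⁰(𝒰, A) + h⁰(𝒰, A.dualTwist χ) +
  m · dim A` from the Kummer–units formula at `N = A` ((L3) + (L4) of `HomTensorCore`).
-/
import Mathlib
import Fermat.Agent.S55.CF.LowDegree
import Fermat.Agent.S55.LevelDuality
import Fermat.Agent.S56.Loc.EC.HomTensorCore

set_option autoImplicit false
set_option linter.unusedSectionVars false
set_option linter.style.haveILetI false

namespace Fermat.Agent.S56.Loc.EC.LecT

open CategoryTheory groupCohomology Rep Module Fermat.Agent.S55.Level Fermat.Agent.S55.DualTwist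
  Fermat.Agent.S55.LevelDuality Fermat.Agent.S56.Loc.EC.InfRes
  Fermat.Agent.S56.Loc.EC.HomTensorCore Fermat.Agent.S56.GEC.Equivariant.Mult

universe u

section

variable {k G : Type u} [Field k] [Group G] (𝒰 : LevelStructure G) (U : Subgroup G) [U.Normal]

/-! ### Invariants over the quotient -/

/-- Descending a representation to `G ⧸ U` does not change the invariants. -/
theorem invariants_quotRep {N : Type*} [AddCommGroup N] [Module k N] (ρ : Representation k G N)
    (h : ∀ u ∈ U, ρ u = 1) : (quotRep U ρ h).invariants = ρ.invariants := by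
  ext v
  constructor
  · intro hv g
    exact hv (g : G ⧸ U)
  · intro hv c
    obtain ⟨g, rfl⟩ := QuotientGroup.mk_surjective c
    exact hv g

/-- **`h⁰(𝒰, A) = dim A^{G/U}`.** -/
theorem finrank_H0_eq (A : Rep.{u} k G) [IsDiscrete 𝒰 A] (hUA : ∀ u ∈ U, A.ρ u = 1) :
    finrank k (levelCohomology 𝒰 A 0) = finrank k (quotRep U A.ρ hUA).invariants := by
  rw [invariants_quotRep]
  exact (LinearEquiv.finrank_eq (Fermat.Agent.S55.CF.levelH0Equiv 𝒰 A)).symm

/-! ### The twisted dual -/

/-- the character `ω = χ mod U` of `G ⧸ U` -/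
def quotChar (χ : G →* kˣ) (hχ : ∀ u ∈ U, χ u = 1) : G ⧸ U →* kˣ := QuotientGroup.lift U χ hχ

@[simp] lemma quotChar_mk (χ : G →* kˣ) (hχ : ∀ u ∈ U, χ u = 1) (g : G) :
    quotChar U χ hχ (g : G ⧸ U) = χ g := rfl

/-- The invariants of the twisted dual `A.dualTwist χ` are the invariants of the contragredient of
`A ⊗ ω⁻¹` over `G ⧸ U`. -/
theorem invariants_dualTwist_eq (A : Rep.{u} k G) (hUA : ∀ u ∈ U, A.ρ u = 1) (χ : G →* kˣ)
    (hχ : ∀ u ∈ U, χ u = 1) (φ : Module.Dual k A) :
    (∀ g : G, (A.dualTwist χ).ρ g φ = φ) ↔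
      φ ∈ (twist (quotRep U A.ρ hUA) (quotChar U χ hχ)⁻¹).dual.invariants := by
  have key : ∀ g : G, (twist (quotRep U A.ρ hUA) (quotChar U χ hχ)⁻¹).dual (g : G ⧸ U) φ =
      (A.dualTwist χ).ρ g φ := by
    intro g
    refine LinearMap.ext fun a => ?_
    rw [dual_apply_apply]
    show φ (twist (quotRep U A.ρ hUA) (quotChar U χ hχ)⁻¹ ((g : G ⧸ U))⁻¹ a) = _
    rw [← QuotientGroup.mk_inv, twist_apply, quotRep_mk, MonoidHom.inv_apply, quotChar_mk,
      map_inv, inv_inv, map_smul, smul_eq_mul]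
    exact (dualTwist_ρ_apply_apply χ A g φ a).symm
  constructor
  · intro h c
    obtain ⟨g, rfl⟩ := QuotientGroup.mk_surjective c
    rw [key, h]
  · intro h g
    rw [← key]
    exact h (g : G ⧸ U)

variable {p : ℕ} [Fact p.Prime] [CharP k p]

/-- **`h⁰(𝒰, A.dualTwist χ) = dim (A ⊗ ω⁻¹)^{G/U}`** for `p ∤ [G : U]`. -/
theorem finrank_H0_dualTwist_eq [U.FiniteIndex] (A : Rep.{u} k G) [FiniteDimensional k A]
    (hUA : ∀ u ∈ U, A.ρ u = 1) (χ : G →* kˣ) (hχ : ∀ u ∈ U, χ u = 1)
    [IsDiscrete 𝒰 (A.dualTwist χ)] (hcop : Nat.Coprime p U.index) :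
    finrank k (levelCohomology 𝒰 (A.dualTwist χ) 0) =
      finrank k (twist (quotRep U A.ρ hUA) (quotChar U χ hχ)⁻¹).invariants := by
  classical
  letI : Fintype (G ⧸ U) := Fintype.ofFinite _
  have hC : ((Fintype.card (G ⧸ U) : ℕ) : k) ≠ 0 := by
    have := index_ne_zero_of_coprime (k := k) (U := U) hcop
    rwa [Subgroup.index, Nat.card_eq_fintype_card] at this
  rw [← finrank_invariants_dual hC,
    ← LinearEquiv.finrank_eq (Fermat.Agent.S55.CF.levelH0Equiv 𝒰 (A.dualTwist χ))]
  have hsub : (A.dualTwist χ).ρ.invariants =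
      (twist (quotRep U A.ρ hUA) (quotChar U χ hχ)⁻¹).dual.invariants := by
    ext φ
    exact invariants_dualTwist_eq U A hUA χ hχ φ
  rw [hsub]

end

/-! ### (L5) + (L6) ⇒ the Kummer–units formula -/

section KummerUnits

variable {k : Type*} [Field k] {T : Type*} [Group T]
  {X VV : Type*} [AddCommGroup X] [Module k X] [AddCommGroup VV] [Module k VV]

/-- **(L5) + (L6) ⇒ the Kummer–units formula.**  If `X ≅ V ⊗ ω⁻¹`-equivariantly in the `mult` form
`mult N X = mult (N ⊗ ω⁻¹) V` (L5) and `mult N V = dim N^T + mult N ω + m · dim N` (L6), then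
`mult N X = dim N^T + dim (N ⊗ ω⁻¹)^T + m · dim N`. -/
theorem mult_homLev_of_kummer_units (ρX : Representation k T X) (ρV : Representation k T VV)
    (ω : T →* kˣ) (m : ℕ) {N : Type*} [AddCommGroup N] [Module k N]
    (ρN : Representation k T N)
    (h5 : mult ρN ρX = mult (twist ρN ω⁻¹) ρV)
    (h6 : mult (twist ρN ω⁻¹) ρV = finrank k (twist ρN ω⁻¹).invariants +
      mult (twist ρN ω⁻¹) (charRep ω) + m * finrank k N) :
    mult ρN ρX = finrank k ρN.invariants + finrank k (twist ρN ω⁻¹).invariants +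
      m * finrank k N := by
  have hω : ω⁻¹ * ω = 1 := by
    ext t
    simp
  rw [h5, h6, mult_charRep, twist_twist, hω, twist_one]
  ring

end KummerUnits

/-! ### (LEC-T) -/

section LecT

variable {k G : Type u} [Field k] [Group G] (𝒰 : LevelStructure G) (U : Subgroup G) [U.Normal]
  {p : ℕ} [Fact p.Prime] [CharP k p]

/-- **(LEC-T)**: the Euler characteristic formula `h¹ = h⁰ + h⁰(dual) + m · dim` for a finite
dimensional discrete `A` on which the open normal subgroup `U` of index prime to `p` acts trivially,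
from the Kummer–units formula for `X = Hom_lev(U, k)` at `N = A`. -/
theorem finrank_H1_eq_of_kummer_units [U.FiniteIndex] (A : Rep.{u} k G) [IsDiscrete 𝒰 A]
    [Module.Finite k A] (hUA : ∀ u ∈ U, A.ρ u = 1) (hUo : ∃ W ∈ 𝒰.sets, W ≤ U)
    (hcop : Nat.Coprime p U.index) (χ : G →* kˣ) (hχ : ∀ u ∈ U, χ u = 1)
    [IsDiscrete 𝒰 (A.dualTwist χ)] (m : ℕ)
    (hKU : mult (quotRep U A.ρ hUA)
        (quotRep U (homLevRep (k := k) 𝒰 U) (fun _ hu => homLevRep_of_mem 𝒰 U hu)) =
      finrank k (quotRep U A.ρ hUA).invariants +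
        finrank k (twist (quotRep U A.ρ hUA) (quotChar U χ hχ)⁻¹).invariants + m * finrank k A) :
    finrank k (levelCohomology 𝒰 A 1) =
      finrank k (levelCohomology 𝒰 A 0) + finrank k (levelCohomology 𝒰 (A.dualTwist χ) 0) +
        m * finrank k A := by
  rw [finrank_H1_eq_mult_quot 𝒰 U A hUA hUo hcop, hKU, finrank_H0_eq 𝒰 U A hUA,
    finrank_H0_dualTwist_eq 𝒰 U A hUA χ hχ hcop]

end LecT

end Fermat.Agent.S56.Loc.EC.LecT
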