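/-
S56 / block E (local terms), E-ECp = "LEC" chain (board #2515), leaf (L2) (helper15):
**the local Euler characteristic formula for ALL finite discrete modules from the cyclic case.**

Setting: a group `G` with a level structure `𝒰`, a character `χ : G →* (ZMod p)ˣ` with one-sided
local duality (`LocalDuality.MonoDuality 𝒰 χ t`) and finiteness of `H¹`
(`LocalDuality.FiniteH1 𝒰`), so that helper25's `eulerL = h⁰ − h¹ + h² + dim` is additive and
iso-invariant (`EulerP.Additive`).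

* `eulerL_eq_zero_of_cyclic_level` : for `U ∈ 𝒰.sets` acting trivially on `Y`: `eulerL Y = 0` as soon
  as `eulerL (coindRes V Z) = 0` for all `U ≤ V` with `V/U` cyclic of order prime to `p` and all
  `Z` trivial on `U` (helper1's induction theorem `rep_eq_zero_of_cyclic` on `G ⧸ U` for
  `fQuotL`, helper11's `inflCoindIso`);
* `eulerL_eq_zero_of_cyclic` : the same for every `Y`, the level `U` ranging over the members of
  `𝒰` inside a given member `U₀`;
* `eulerL_coindRes_eq_zero_of_kummer_units` : the cyclic case from the Kummer–units formula over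
  `T = V/U` (`ShapiroEuler.eulerL_coindRes_eq_zero` + `LecT.finrank_H1_eq_of_kummer_units` at
  `(↥V, 𝒰.restrict V, U.subgroupOf V)`);
* **`eulerL_eq_zero_of_kummer_units`**, **`finrank_H1_eq_of_eulerL`** : LEC in the export shape
  `h¹ = dim + h⁰ + h²`;
* **`hLEC_of_kummer_units`** : the instance at the local Galois group `G_q` (`p` odd).
-/
import Mathlib
import Fermat.Agent.S56.GEC.Induction.RepFormImplicit
import Fermat.Agent.S56.GEC.InflCoind
import Fermat.Agent.S56.Loc.EC.ShapiroEuler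
import Fermat.Agent.S56.Loc.EC.LecT

set_option autoImplicit false
set_option linter.unusedSectionVars false
set_option linter.style.haveILetI false

namespace Fermat.Agent.S56.Loc.EC.Reduce

open CategoryTheory groupCohomology Rep Module Fermat.Agent.S55.Level Fermat.Agent.S55.DualTwist
  Fermat.Agent.S55.Devissage
  Fermat.Agent.S55.LevelDuality Fermat.Agent.S56.PT.LocalDuality
  Fermat.Agent.S56.GEC.Additive Fermat.Agent.S56.GEC.Induction Fermat.Agent.S56.GEC.InflCoind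
  Fermat.Agent.S56.Loc.EulerP.Additive Fermat.Agent.S56.Loc.EC.ShapiroEuler
  Fermat.Agent.S56.Loc.EC.InfRes Fermat.Agent.S56.Loc.EC.HomTensorCore
  Fermat.Agent.S56.Loc.EC.LecT Fermat.Agent.S56.GEC.Equivariant.Mult

variable {G : Type} [Group G] {𝒰 : LevelStructure G} {p : ℕ} [Fact p.Prime]
  {χ : G →* (ZMod p)ˣ} [IsDiscrete 𝒰 (ofChar χ)]
  {t : levelCohomology 𝒰 (ofChar χ) 2 →ₗ[ZMod p] ZMod p}

/-! ### The reduction to the cyclic case -/

/-- The hypothesis "the cyclic case at level `U`": `eulerL (coindRes V Z) = 0` for all `U ≤ V` with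
`V/U` cyclic of order prime to `p` and all finite discrete `Z` on which `U` acts trivially. -/
def CyclicCase (𝒰 : LevelStructure G) (p : ℕ) [Fact p.Prime] (U : Subgroup G) [U.Normal] : Prop :=
  ∀ V : Subgroup G, U ≤ V → IsCyclic (↥V ⧸ U.subgroupOf V) →
    Nat.Coprime p (U.subgroupOf V).index →
    ∀ (Z : Rep (ZMod p) G) [IsDiscrete 𝒰 Z] [FiniteDimensional (ZMod p) Z],
      (∀ u ∈ U, Z.ρ u = 1) →
      ∀ [IsDiscrete 𝒰 (Rep.coind V.subtype (Rep.res V.subtype Z))],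
        eulerL 𝒰 (Rep.coind V.subtype (Rep.res V.subtype Z)) = 0

/-- **(L2) at a fixed level**: the cyclic case at level `U` kills `eulerL` on every finite discrete
module on which `U` acts trivially. -/
theorem eulerL_eq_zero_of_cyclic_level (hΨ : MonoDuality 𝒰 χ t) (hfin : FiniteH1 (k := ZMod p) 𝒰)
    {U : Subgroup G} [U.Normal] (hU : U ∈ 𝒰.sets) (hcyc : CyclicCase 𝒰 p U)
    (Y : Rep (ZMod p) G) [IsDiscrete 𝒰 Y] [FiniteDimensional (ZMod p) Y]
    (hY : ∀ u ∈ U, Y.ρ u = 1) : eulerL 𝒰 Y = 0 := by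
  haveI : U.FiniteIndex := 𝒰.finiteIndex U hU
  haveI : Finite (G ⧸ U) := Subgroup.finite_quotient_of_finiteIndex
  rw [eulerL_eq_fQuotL 𝒰 hU Y hY]
  refine rep_eq_zero_of_cyclic_implicit (fQuotL 𝒰 hU) (fun e => fQuotL_iso 𝒰 hU e)
    (fun hX => fQuotL_add hU hΨ hfin hX) ?_ (deflate U Y hY)
  intro τ hτ Z' _
  set C : Subgroup (G ⧸ U) := Subgroup.zpowers τ with hC
  set V : Subgroup G := C.comap (QuotientGroup.mk' U) with hV
  have hUV : U ≤ V := le_comap U C
  haveI : IsDiscrete 𝒰 (infl U Z') := isDiscrete_infl hU Z'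
  haveI : IsDiscrete 𝒰 (infl U (Rep.coind C.subtype (Rep.res C.subtype Z'))) :=
    isDiscrete_infl hU _
  haveI : IsDiscrete 𝒰 (Rep.coind V.subtype (Rep.res V.subtype (infl U Z'))) :=
    isDiscrete_of_iso (inflCoindIso U C Z')
  show eulerL 𝒰 (infl U (Rep.coind C.subtype (Rep.res C.subtype Z'))) = 0
  rw [eulerL_iso 𝒰 (inflCoindIso U C Z')]
  have e := quotComapEquiv U C
  have hcycV : IsCyclic (↥V ⧸ U.subgroupOf V) :=
    isCyclic_of_surjective e.symm.toMonoidHom e.symm.surjective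
  have hcard : (U.subgroupOf V).index = orderOf τ := by
    rw [Subgroup.index, Nat.card_congr e.toEquiv, hC, Nat.card_zpowers]
  have hcop : Nat.Coprime p (U.subgroupOf V).index := by
    rw [hcard]
    exact (Nat.Prime.coprime_iff_not_dvd (Fact.out : p.Prime)).2 hτ
  refine hcyc V hUV hcycV hcop (infl U Z') (fun u hu => ?_)
  refine LinearMap.ext fun x => ?_
  rw [infl_ρ_apply, (QuotientGroup.eq_one_iff u).2 hu, map_one]

/-- **(L2)**: the cyclic case at all small levels kills `eulerL` on every finite discrete module. -/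
theorem eulerL_eq_zero_of_cyclic (hΨ : MonoDuality 𝒰 χ t) (hfin : FiniteH1 (k := ZMod p) 𝒰)
    {U₀ : Subgroup G} (hU₀ : U₀ ∈ 𝒰.sets)
    (hcyc : ∀ (U : Subgroup G) [U.Normal], U ∈ 𝒰.sets → U ≤ U₀ → CyclicCase 𝒰 p U)
    (Y : Rep (ZMod p) G) [IsDiscrete 𝒰 Y] [FiniteDimensional (ZMod p) Y] : eulerL 𝒰 Y = 0 := by
  obtain ⟨U, hU, hUU₀, htriv⟩ := exists_trivializing_level (𝒰 := 𝒰) Y hU₀
  haveI : U.Normal := 𝒰.normal U hU
  exact eulerL_eq_zero_of_cyclic_level hΨ hfin hU (hcyc U hU hUU₀) Y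
    (fun u hu => LinearMap.ext fun y => htriv u hu y)

/-- The export shape of LEC: `h¹ = dim + h⁰ + h²`. -/
theorem finrank_H1_eq_of_eulerL (Y : Rep (ZMod p) G) [IsDiscrete 𝒰 Y] [FiniteDimensional (ZMod p) Y]
    (h : eulerL 𝒰 Y = 0) :
    finrank (ZMod p) (levelCohomology 𝒰 Y 1) =
      finrank (ZMod p) Y + finrank (ZMod p) (levelCohomology 𝒰 Y 0) +
        finrank (ZMod p) (levelCohomology 𝒰 Y 2) := by
  unfold eulerL at h
  omega

/-! ### The cyclic case from the Kummer–units formula -/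

/-- The Kummer–units formula at `(U, V, Z)`: over `T = V/U`,
`mult Z Hom_lev(U, 𝔽_p) = dim Z^T + dim (Z ⊗ ω⁻¹)^T + [G : V] · dim Z`. -/
def KummerUnits (𝒰 : LevelStructure G) (χ : G →* (ZMod p)ˣ) (U V : Subgroup G) [U.Normal]
    (Z : Rep (ZMod p) G) (hZ : ∀ u ∈ U, Z.ρ u = 1) (hχ : ∀ u ∈ U, χ u = 1) : Prop :=
  have hUA : ∀ u ∈ U.subgroupOf V, (Rep.res V.subtype Z).ρ u = 1 := fun _ hu => hZ _ hu
  have hχ' : ∀ u ∈ U.subgroupOf V, (χ.comp V.subtype) u = 1 := fun _ hu => hχ _ hu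
  mult (quotRep (U.subgroupOf V) (Rep.res V.subtype Z).ρ hUA)
      (quotRep (U.subgroupOf V) (homLevRep (k := ZMod p) (𝒰.restrict V) (U.subgroupOf V))
        (fun _ hu => homLevRep_of_mem (𝒰.restrict V) (U.subgroupOf V) hu)) =
    finrank (ZMod p) (quotRep (U.subgroupOf V) (Rep.res V.subtype Z).ρ hUA).invariants +
      finrank (ZMod p) (twist (quotRep (U.subgroupOf V) (Rep.res V.subtype Z).ρ hUA)
        (quotChar (U.subgroupOf V) (χ.comp V.subtype) hχ')⁻¹).invariants +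
      V.index * finrank (ZMod p) Z

/-- **The cyclic case from the Kummer–units formula** (no cyclicity needed: only `p ∤ [V : U]`). -/
theorem eulerL_coindRes_eq_zero_of_kummer_units (hΨ : MonoDuality 𝒰 χ t)
    {U : Subgroup G} [U.Normal] (hU : U ∈ 𝒰.sets) (hχ : ∀ u ∈ U, χ u = 1)
    (V : Subgroup G) (hUV : U ≤ V) (hcop : Nat.Coprime p (U.subgroupOf V).index)
    (Z : Rep (ZMod p) G) [IsDiscrete 𝒰 Z] [FiniteDimensional (ZMod p) Z]
    (hZ : ∀ u ∈ U, Z.ρ u = 1) (hKU : KummerUnits 𝒰 χ U V Z hZ hχ)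
    [IsDiscrete 𝒰 (Rep.coind V.subtype (Rep.res V.subtype Z))] :
    eulerL 𝒰 (Rep.coind V.subtype (Rep.res V.subtype Z)) = 0 := by
  haveI : IsOpenSub 𝒰 V := ⟨⟨U, hU, hUV⟩⟩
  haveI : U.FiniteIndex := 𝒰.finiteIndex U hU
  haveI : (U.subgroupOf V).FiniteIndex := Subgroup.instFiniteIndex_subgroupOf U V
  haveI := isDiscrete_res_restrict (𝒰 := 𝒰) V Z
  haveI := isDiscrete_res_dualTwist_restrict (𝒰 := 𝒰) (χ := χ) V Z
  haveI : FiniteDimensional (ZMod p) (Rep.res V.subtype Z) := ‹FiniteDimensional (ZMod p) Z›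
  have hUA : ∀ u ∈ U.subgroupOf V, (Rep.res V.subtype Z).ρ u = 1 := fun u hu => hZ _ hu
  have hχ' : ∀ u ∈ U.subgroupOf V, (χ.comp V.subtype) u = 1 := fun u hu => hχ _ hu
  have hUo : ∃ W ∈ (𝒰.restrict V).sets, W ≤ U.subgroupOf V :=
    ⟨_, 𝒰.mem_restrict_sets V hU, le_rfl⟩
  refine eulerL_coindRes_eq_zero V Z hΨ ?_
  exact finrank_H1_eq_of_kummer_units (𝒰.restrict V) (U.subgroupOf V) (Rep.res V.subtype Z) hUA hUo
    hcop (χ.comp V.subtype) hχ' V.index hKU

/-- **LEC from the Kummer–units formula**, generic form: if the Kummer–units formula holds for all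
`U ≤ V` (`U ∈ 𝒰`, `U ≤ U₀`, `χ|_U = 1`, `p ∤ [V:U]`, `V/U` cyclic) then `eulerL = 0`. -/
theorem eulerL_eq_zero_of_kummer_units (hΨ : MonoDuality 𝒰 χ t)
    (hfin : FiniteH1 (k := ZMod p) 𝒰) {U₀ : Subgroup G} (hU₀ : U₀ ∈ 𝒰.sets)
    (hχ₀ : ∀ u ∈ U₀, χ u = 1)
    (hKU : ∀ (U : Subgroup G) [U.Normal] (_ : U ∈ 𝒰.sets) (hUU₀ : U ≤ U₀) (V : Subgroup G),
      U ≤ V → IsCyclic (↥V ⧸ U.subgroupOf V) → Nat.Coprime p (U.subgroupOf V).index →
      ∀ (Z : Rep (ZMod p) G) [IsDiscrete 𝒰 Z] [FiniteDimensional (ZMod p) Z]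
        (hZ : ∀ u ∈ U, Z.ρ u = 1), KummerUnits 𝒰 χ U V Z hZ (fun u hu => hχ₀ u (hUU₀ hu)))
    (Y : Rep (ZMod p) G) [IsDiscrete 𝒰 Y] [FiniteDimensional (ZMod p) Y] : eulerL 𝒰 Y = 0 := by
  refine eulerL_eq_zero_of_cyclic hΨ hfin hU₀ (fun U _ hU hUU₀ => ?_) Y
  intro V hUV hcycV hcop Z _ _ hZ _
  exact eulerL_coindRes_eq_zero_of_kummer_units hΨ hU (fun u hu => hχ₀ u (hUU₀ hu)) V hUV hcop Z hZ
    (hKU U hU hUU₀ V hUV hcycV hcop Z hZ)

/-- A member of the level structure on which the character `χ` is trivial. -/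
theorem exists_level_char_trivial (𝒰 : LevelStructure G) (χ : G →* (ZMod p)ˣ)
    [IsDiscrete 𝒰 (ofChar χ)] : ∃ U₀ ∈ 𝒰.sets, ∀ u ∈ U₀, χ u = 1 := by
  obtain ⟨W, hW⟩ := 𝒰.nonempty
  haveI : Module.Finite (ZMod p) (ofChar (k := ZMod p) χ) :=
    inferInstanceAs (Module.Finite (ZMod p) (ZMod p))
  obtain ⟨U, hU, -, h⟩ := exists_trivializing_level (𝒰 := 𝒰) (ofChar (k := ZMod p) χ) hW
  refine ⟨U, hU, fun u hu => ?_⟩
  have h1 := h u hu (1 : ZMod p)
  rw [ofChar_ρ_apply] at h1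
  exact Units.ext (by simpa using h1)

/-- **LEC from the Kummer–units formula**, with the auxiliary level chosen inside: if the
Kummer–units formula holds for all `U ≤ V` with `U ∈ 𝒰` normal, `χ|_U = 1`, `V/U` cyclic of order
prime to `p`, then `h¹ = dim + h⁰ + h²` for every finite discrete module. -/
theorem finrank_H1_eq_of_kummer_units' (hΨ : MonoDuality 𝒰 χ t)
    (hfin : FiniteH1 (k := ZMod p) 𝒰)
    (hKU : ∀ (U : Subgroup G) [U.Normal] (_ : U ∈ 𝒰.sets) (hχ : ∀ u ∈ U, χ u = 1)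
      (V : Subgroup G), U ≤ V → IsCyclic (↥V ⧸ U.subgroupOf V) →
      Nat.Coprime p (U.subgroupOf V).index →
      ∀ (Z : Rep (ZMod p) G) [IsDiscrete 𝒰 Z] [FiniteDimensional (ZMod p) Z]
        (hZ : ∀ u ∈ U, Z.ρ u = 1), KummerUnits 𝒰 χ U V Z hZ hχ)
    (Y : Rep (ZMod p) G) [IsDiscrete 𝒰 Y] [FiniteDimensional (ZMod p) Y] :
    finrank (ZMod p) (levelCohomology 𝒰 Y 1) =
      finrank (ZMod p) Y + finrank (ZMod p) (levelCohomology 𝒰 Y 0) +
        finrank (ZMod p) (levelCohomology 𝒰 Y 2) := by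
  obtain ⟨U₀, hU₀, hχ₀⟩ := exists_level_char_trivial 𝒰 χ
  refine finrank_H1_eq_of_eulerL Y (eulerL_eq_zero_of_kummer_units hΨ hfin hU₀ hχ₀
    (fun U _ hU hUU₀ V hUV hcyc hcop Z _ _ hZ => ?_) Y)
  exact hKU U hU (fun u hu => hχ₀ u (hUU₀ hu)) V hUV hcyc hcop Z hZ

/-! ### The instance: the local Galois groups -/

section Local

open ExtCitation Fermat.Agent.S55.Assembly

/-- **`hLEC` at the local group `G_q` (`p` odd) from the Kummer–units formula**: the export of
record of the LEC chain (consumed by E-SO `finrank_soCond_add_le_local` and FL-EF), reduced to the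
Kummer–units formula over the quotients `T = V/U`, `U ⊲ G_q` open with `χ̄|_U = 1`, `U ≤ V`,
`V/U` cyclic of order prime to `p`. -/
theorem hLEC_of_kummer_units (hp2 : p ≠ 2) (q : Nat.Primes)
    (hKU : ∀ (U : Subgroup (primeLocalGaloisGroup q)) [U.Normal]
      (_ : U ∈ (localLevel (primeLocalToGlobal q)).sets)
      (hχ : ∀ u ∈ U, ((cycloChar p).comp (primeLocalToGlobal q)) u = 1)
      (V : Subgroup (primeLocalGaloisGroup q)), U ≤ V → IsCyclic (↥V ⧸ U.subgroupOf V) →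
      Nat.Coprime p (U.subgroupOf V).index →
      ∀ (Z : Rep (ZMod p) (primeLocalGaloisGroup q))
        [IsDiscrete (localLevel (primeLocalToGlobal q)) Z] [FiniteDimensional (ZMod p) Z]
        (hZ : ∀ u ∈ U, Z.ρ u = 1),
        KummerUnits (localLevel (primeLocalToGlobal q))
          ((cycloChar p).comp (primeLocalToGlobal q)) U V Z hZ hχ)
    (Y : Rep (ZMod p) (primeLocalGaloisGroup q))
    [IsDiscrete (localLevel (primeLocalToGlobal q)) Y] [FiniteDimensional (ZMod p) Y] :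
    finrank (ZMod p) (levelCohomology (localLevel (primeLocalToGlobal q)) Y 1) =
      finrank (ZMod p) Y +
        finrank (ZMod p) (levelCohomology (localLevel (primeLocalToGlobal q)) Y 0) +
        finrank (ZMod p) (levelCohomology (localLevel (primeLocalToGlobal q)) Y 2) := by
  obtain ⟨_, t, hΨ, hfin⟩ := exists_monoDuality_local (p := p) hp2 q
  exact finrank_H1_eq_of_kummer_units' hΨ hfin hKU Y

end Local

end Fermat.Agent.S56.Loc.EC.Reduce
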