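/-
S56 / block E (local terms), E-ECp = "LEC" (board #2515), (L8) (helper9): **THE LOCAL EULER
CHARACTERISTIC FORMULA AT `p`**.

For `p` odd and every finite dimensional discrete `𝔽_p`-representation `Y` of
`G_p = Gal(ℚ̄_p/ℚ_p)`:   `h¹(G_p, Y) = dim Y + h⁰(G_p, Y) + h²(G_p, Y)`.

Assembly of the LEC chain: (L1) additivity (helper25 `EulerP/Additive`), (L2) reduction to the cyclic
case (helper15 `Reduce`, on helper1's induction theorem), (L3) `InfRes`, (L4) helper19
`HomTensorCore`, (L5) `KummerHyp`/`KummerEq`/helper19 `KummerInst`, (L6) helper5 `Units/*` + helper26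
`UnitsCount`, (L7) helper15 `ShapiroEuler`/`LecT`, `CharGlue`/`CharCase`, `GoodFieldLocal`.

* `eulerL_eq_zero_krull` : the formula on `Gal(PadicAlgCl p/ℚ_[p])` for a level structure equal to the
  Krull one and a duality character equal to the mod `p` cyclotomic character;
* ★ `hLEC` : the export of record, in the frozen types (`primeLocalGaloisGroup (pPrime p)`,
  `localLevel (primeLocalToGlobal (pPrime p))`);  `eulerL_eq_zero` : the same as `eulerL = 0`.
-/
import Mathlib
import Fermat.Agent.S56.Loc.EC.CharCase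
import Fermat.Agent.S56.Loc.EC.KummerInst
import Fermat.Agent.S56.Loc.EC.GoodFieldLocal
import Fermat.Agent.S56.Loc.EC.Reduce
import Fermat.Agent.S55.Local.KrullLocal

set_option autoImplicit false
set_option linter.unusedSectionVars false
set_option linter.style.haveILetI false

namespace Fermat.Agent.S56.Loc.EC.Main

open groupCohomology Module ExtCitation Fermat.Agent.S55.Level Fermat.Agent.S55.GaloisLevel
  Fermat.Agent.S55.Assembly Fermat.Agent.S56.PT.LocalDuality
  Fermat.Agent.S56.Loc.EulerP.Additive Fermat.Agent.S56.Loc.EC.KummerHyp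
  Fermat.Agent.S56.Loc.EC.KummerInst Fermat.Agent.S56.Loc.EC.CharCase
  Fermat.Agent.S56.Loc.EC.GoodFieldLocal Fermat.Agent.S56.Loc.EC.Reduce

variable {p : ℕ} [Fact p.Prime]

/-- **LEC, Krull form.** -/
theorem eulerL_eq_zero_krull (𝒲 : LevelStructure Gal(PadicAlgCl p/ℚ_[p]))
    (h𝒲 : 𝒲 = krullLevel ℚ_[p] (PadicAlgCl p))
    (χ : Gal(PadicAlgCl p/ℚ_[p]) →* (ZMod p)ˣ)
    (hχ : ∀ g, χ g = cycloChar p (localGaloisToGlobal p g))
    [IsDiscrete 𝒲 (ofChar (k := ZMod p) χ)]
    {t : levelCohomology 𝒲 (ofChar (k := ZMod p) χ) 2 →ₗ[ZMod p] ZMod p}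
    (hΨ : MonoDuality 𝒲 χ t) (hfin : FiniteH1 (k := ZMod p) 𝒲)
    (Y : Rep.{0} (ZMod p) Gal(PadicAlgCl p/ℚ_[p])) [IsDiscrete 𝒲 Y]
    [FiniteDimensional (ZMod p) Y] : eulerL 𝒲 Y = 0 := by
  have hp : p.Prime := Fact.out
  obtain ⟨L, hLfd, hLgal, ζ, hζ, hζL, hmem, htriv, hcyc⟩ := exists_goodField 𝒲 h𝒲 Y
  haveI := hLfd
  haveI := hLgal
  refine eulerL_eq_zero_of_cyclic_level hΨ hfin hmem ?_ Y htriv
  intro V hUV _ hcop Z _ _ hZ _
  have hK : KummerHyp p L V.subtype (𝒲.restrict V) (L.fixingSubgroup.subgroupOf V) ζ := by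
    subst h𝒲
    exact kummerHyp_sub L hUV hζ hζL
      (Fermat.Agent.S55.Local.KummerCount.hroots_of_isAlgClosed (PadicAlgCl p) p hp.pos)
  exact eulerL_coindRes_eq_zero L hζ hζL V 𝒲 h𝒲 χ hΨ (fun g => by rw [hχ]; exact hcyc g)
    hUV hK hcop Z hZ

/-- ★ **LEC in the frozen types**: `eulerL = 0` for the local Galois group at `p`. -/
theorem eulerL_eq_zero (hp2 : p ≠ 2) (Y : Rep.{0} (ZMod p) (primeLocalGaloisGroup (pPrime p)))
    [hY : IsDiscrete (localLevel (primeLocalToGlobal (pPrime p))) Y]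
    [hfd : FiniteDimensional (ZMod p) Y] :
    eulerL (localLevel (primeLocalToGlobal (pPrime p))) Y = 0 := by
  obtain ⟨hd, t, hΨ, hfin⟩ := exists_monoDuality_local (p := p) hp2 (pPrime p)
  exact @eulerL_eq_zero_krull p _ (localLevel (primeLocalToGlobal (pPrime p)))
    (Fermat.Agent.S55.Local.KrullLocal.localLevel_primeLocalToGlobal_eq (pPrime p))
    ((cycloChar p).comp (primeLocalToGlobal (pPrime p))) (fun _ => rfl) hd t hΨ hfin Y hY hfd

/-- ★★ **THE LOCAL EULER CHARACTERISTIC FORMULA AT `p`** (export of record `hLEC`):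
`h¹(G_p, Y) = dim Y + h⁰(G_p, Y) + h²(G_p, Y)` for `p` odd. -/
theorem hLEC (hp2 : p ≠ 2) (Y : Rep.{0} (ZMod p) (primeLocalGaloisGroup (pPrime p)))
    [IsDiscrete (localLevel (primeLocalToGlobal (pPrime p))) Y]
    [FiniteDimensional (ZMod p) Y] :
    finrank (ZMod p) (levelCohomology (localLevel (primeLocalToGlobal (pPrime p))) Y 1) =
      finrank (ZMod p) Y +
        finrank (ZMod p) (levelCohomology (localLevel (primeLocalToGlobal (pPrime p))) Y 0) +
        finrank (ZMod p) (levelCohomology (localLevel (primeLocalToGlobal (pPrime p))) Y 2) := by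
  exact finrank_H1_eq_of_eulerL Y (eulerL_eq_zero hp2 Y)

end Fermat.Agent.S56.Loc.EC.Main
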