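/-
S56 / block E (local terms), E-ECp = "LEC" chain (board #2515), leaf (L1) (helper9):
LOCAL `H²` IS RIGHT EXACT and `h⁰ − h¹ + h²` IS ADDITIVE, for ONE group with a level structure
satisfying local duality in mono form (`LocalDuality.MonoDuality`) and finiteness of `H¹`
(`LocalDuality.FiniteH1`) — the single-group analogue of helper25's `EulerAdd` (C9).

* `lmap_two_surjective` : `H²(X₂) → H²(X₃)` is surjective for a short exact sequence of finite
  dimensional discrete representations (`Ψ(0,2) : H²(X) ≃ H⁰(X')^*` natural, `H⁰` left exact);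
* `euler_additive` : `h⁰(X₂) + h²(X₂) + h¹(X₁) + h¹(X₃) = h⁰(X₁) + h²(X₁) + h⁰(X₃) + h²(X₃) + h¹(X₂)`;
* `eulerL`, `eulerL_add`, `eulerL_iso` : the `ℤ`-valued invariant
  `f_loc(Y) = h⁰(Y) − h¹(Y) + h²(Y) + c · dim Y` (any constant `c`) is additive and iso-invariant.
-/
import Mathlib
import Fermat.Agent.S55.LevelDuality
import Fermat.Agent.S56.PT.LocalDuality
import Fermat.Agent.S56.PT.EulerAdd

set_option autoImplicit false
set_option linter.unusedSectionVars false

namespace Fermat.Agent.S56.Loc.EC.Additive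

open CategoryTheory groupCohomology Rep Module Fermat.Agent.S55.Level
  Fermat.Agent.S55.DualTwist Fermat.Agent.S55.LevelDuality Fermat.Agent.S56.PT.LocalDuality
  Fermat.Agent.S56.PT.EulerAdd

universe u

section RightExact

open ShortComplex

variable {k G : Type u} [Field k] [Group G] {𝒰 : LevelStructure G} {χ : G →* kˣ}
  [IsDiscrete 𝒰 (ofChar χ)] {t : levelCohomology 𝒰 (ofChar χ) 2 →ₗ[k] k}
  {S : ShortComplex (Rep.{u} k G)} [IsDiscrete 𝒰 S.X₁] [IsDiscrete 𝒰 S.X₂] [IsDiscrete 𝒰 S.X₃]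
  [FiniteDimensional k S.X₁] [FiniteDimensional k S.X₂] [FiniteDimensional k S.X₃]
  (hΨ : MonoDuality 𝒰 χ t) (hfin : FiniteH1 (k := k) 𝒰) (hS : S.ShortExact)

include hΨ hfin hS

/-- **Local `H²` is right exact**: `H²(X₂) → H²(X₃)` is surjective. -/
theorem lmap_two_surjective : Function.Surjective (lmap 𝒰 S.g 2) := by
  have hd2 : IsDiscrete 𝒰 (S.X₂.dualTwist χ) := isDiscrete_dualTwist 𝒰 χ _
  have hd3 : IsDiscrete 𝒰 (S.X₃.dualTwist χ) := isDiscrete_dualTwist 𝒰 χ _
  have hΨ3 := (Ψ_bijective hΨ S.X₃ hfin).2.2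
  have hΨ2 := (Ψ_bijective hΨ S.X₂ hfin).2.2
  have h23 : FiniteDimensional k (levelCohomology 𝒰 S.X₃ 2) := finiteDimensional_two hΨ S.X₃
  have h22 : FiniteDimensional k (levelCohomology 𝒰 S.X₂ 2) := finiteDimensional_two hΨ S.X₂
  have h03' : FiniteDimensional k (levelCohomology 𝒰 (S.X₃.dualTwist χ) 0) :=
    finiteDimensional_levelCohomology_zero 𝒰 _
  have h02' : FiniteDimensional k (levelCohomology 𝒰 (S.X₂.dualTwist χ) 0) :=
    finiteDimensional_levelCohomology_zero 𝒰 _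
  -- `H⁰(X₃') → H⁰(X₂')` is injective
  have hg' : Function.Injective (dualTwistMap χ S.g).hom :=
    (Rep.mono_iff_injective _).1 (dualSeq_shortExact χ hS).mono_f
  have hinj : Function.Injective (lmap 𝒰 (dualTwistMap χ S.g) 0) :=
    homologyMap_levelMap_zero_injective 𝒰 _ hg'
  -- every functional on `H²(X₃)` is `y ↦ Ψ y w`
  have hrep : ∀ e : Module.Dual k (levelCohomology 𝒰 S.X₃ 2),
      ∃ w : levelCohomology 𝒰 (S.X₃.dualTwist χ) 0, ∀ y, e y = Ψ 𝒰 χ t S.X₃ 0 2 rfl y w := by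
    intro e
    let E := LinearEquiv.ofBijective (Ψ 𝒰 χ t S.X₃ 0 2 rfl) hΨ3
    obtain ⟨w, hw⟩ := (Module.evalEquiv k (levelCohomology 𝒰 (S.X₃.dualTwist χ) 0)).surjective
      (e ∘ₗ E.symm.toLinearMap)
    refine ⟨w, fun y => ?_⟩
    have := LinearMap.congr_fun hw (E y)
    simp only [LinearMap.coe_comp, LinearEquiv.coe_coe, Function.comp_apply,
      LinearEquiv.symm_apply_apply] at this
    rw [← this]
    rfl
  -- `Ψ(X₂)` separates the points of `H⁰(X₂')`
  have hsep : ∀ v : levelCohomology 𝒰 (S.X₂.dualTwist χ) 0,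
      (∀ y, Ψ 𝒰 χ t S.X₂ 0 2 rfl y v = 0) → v = 0 := by
    intro v hv
    refine (Module.forall_dual_apply_eq_zero_iff k v).1 (fun φ => ?_)
    obtain ⟨y, rfl⟩ := hΨ2.2 φ
    exact hv y
  rw [← LinearMap.dualMap_injective_iff]
  intro e e' hee'
  obtain ⟨w, hw⟩ := hrep e
  obtain ⟨w', hw'⟩ := hrep e'
  have hww' : w = w' := by
    apply hinj
    rw [← sub_eq_zero, ← map_sub]
    apply hsep
    intro y
    rw [map_sub, map_sub, sub_eq_zero, ← Ψ_natural, ← Ψ_natural, ← hw, ← hw']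
    exact LinearMap.congr_fun hee' y
  ext y
  rw [hw, hw', hww']

/-- **The local Euler characteristic `h⁰ − h¹ + h²` is additive** on short exact sequences of
finite dimensional discrete representations (stated in `ℕ`). -/
theorem euler_additive :
    finrank k (levelCohomology 𝒰 S.X₂ 0) + finrank k (levelCohomology 𝒰 S.X₂ 2) +
        finrank k (levelCohomology 𝒰 S.X₁ 1) + finrank k (levelCohomology 𝒰 S.X₃ 1) =
      finrank k (levelCohomology 𝒰 S.X₁ 0) + finrank k (levelCohomology 𝒰 S.X₁ 2) +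
        finrank k (levelCohomology 𝒰 S.X₃ 0) + finrank k (levelCohomology 𝒰 S.X₃ 2) +
        finrank k (levelCohomology 𝒰 S.X₂ 1) := by
  have h01 := finiteDimensional_levelCohomology_zero 𝒰 S.X₁
  have h02 := finiteDimensional_levelCohomology_zero 𝒰 S.X₂
  have h03 := finiteDimensional_levelCohomology_zero 𝒰 S.X₃
  have h11 := hfin S.X₁
  have h12 := hfin S.X₂
  have h13 := hfin S.X₃
  have h21 : FiniteDimensional k (levelCohomology 𝒰 S.X₁ 2) := finiteDimensional_two hΨ S.X₁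
  have h22 : FiniteDimensional k (levelCohomology 𝒰 S.X₂ 2) := finiteDimensional_two hΨ S.X₂
  have h23 : FiniteDimensional k (levelCohomology 𝒰 S.X₃ 2) := finiteDimensional_two hΨ S.X₃
  have hf : Function.Injective S.f.hom := (Rep.mono_iff_injective S.f).1 hS.mono_f
  have key := finrank_nine (lmap 𝒰 S.f 0) (lmap 𝒰 S.g 0) (levelδ 𝒰 hS 0 1 rfl).hom
    (lmap 𝒰 S.f 1) (lmap 𝒰 S.g 1) (levelδ 𝒰 hS 1 2 rfl).hom (lmap 𝒰 S.f 2) (lmap 𝒰 S.g 2)
    (homologyMap_levelMap_zero_injective 𝒰 S.f hf)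
    ((ShortComplex.moduleCat_exact_iff_range_eq_ker _).1 (level_exact₂ 𝒰 hS 0))
    ((ShortComplex.moduleCat_exact_iff_range_eq_ker _).1 (level_exact₃ 𝒰 hS 0 1 rfl))
    ((ShortComplex.moduleCat_exact_iff_range_eq_ker _).1 (level_exact₁ 𝒰 hS 0 1 rfl))
    ((ShortComplex.moduleCat_exact_iff_range_eq_ker _).1 (level_exact₂ 𝒰 hS 1))
    ((ShortComplex.moduleCat_exact_iff_range_eq_ker _).1 (level_exact₃ 𝒰 hS 1 2 rfl))
    ((ShortComplex.moduleCat_exact_iff_range_eq_ker _).1 (level_exact₁ 𝒰 hS 1 2 rfl))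
    ((ShortComplex.moduleCat_exact_iff_range_eq_ker _).1 (level_exact₂ 𝒰 hS 2))
    (lmap_two_surjective hΨ hfin hS)
  omega

end RightExact

/-! ### The function `f_loc = h⁰ − h¹ + h² + c · dim` -/

section EulerL

variable {k G : Type u} [Field k] [Group G] (𝒰 : LevelStructure G) (c : ℤ)

/-- `f_loc(Y) = h⁰(Y) − h¹(Y) + h²(Y) + c · dim Y`. -/
noncomputable def eulerL (Y : Rep.{u} k G) [IsDiscrete 𝒰 Y] : ℤ :=
  (finrank k (levelCohomology 𝒰 Y 0) : ℤ) - finrank k (levelCohomology 𝒰 Y 1) +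
    finrank k (levelCohomology 𝒰 Y 2) + c * finrank k Y

/-- `f_loc` is isomorphism invariant. -/
theorem eulerL_iso {Y Z : Rep.{u} k G} [IsDiscrete 𝒰 Y] [IsDiscrete 𝒰 Z] (e : Y ≅ Z) :
    eulerL 𝒰 c Y = eulerL 𝒰 c Z := by
  have h (n : ℕ) : finrank k (levelCohomology 𝒰 Y n) = finrank k (levelCohomology 𝒰 Z n) :=
    LinearEquiv.finrank_eq (LinearEquiv.ofBijective _ (lmap_bijective_of_iso 𝒰 e n))
  have h' : finrank k Y = finrank k Z :=
    LinearEquiv.finrank_eq (LinearEquiv.ofBijective e.hom.hom.toLinearMap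
      (ConcreteCategory.bijective_of_isIso e.hom))
  unfold eulerL
  rw [h 0, h 1, h 2, h']

variable {𝒰 c}

open ShortComplex in
/-- **`f_loc` is additive on short exact sequences.** -/
theorem eulerL_add {χ : G →* kˣ} [IsDiscrete 𝒰 (ofChar χ)]
    {t : levelCohomology 𝒰 (ofChar χ) 2 →ₗ[k] k}
    (hΨ : MonoDuality 𝒰 χ t) (hfin : FiniteH1 (k := k) 𝒰)
    {X : ShortComplex (Rep.{u} k G)} [IsDiscrete 𝒰 X.X₁] [IsDiscrete 𝒰 X.X₂] [IsDiscrete 𝒰 X.X₃]
    [FiniteDimensional k X.X₁] [FiniteDimensional k X.X₂] [FiniteDimensional k X.X₃]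
    (hX : X.ShortExact) :
    eulerL 𝒰 c X.X₂ = eulerL 𝒰 c X.X₁ + eulerL 𝒰 c X.X₃ := by
  have e1 := euler_additive hΨ hfin hX
  have hf : Function.Injective X.f.hom := (Rep.mono_iff_injective X.f).1 hX.mono_f
  have hg : Function.Surjective X.g.hom := (Rep.epi_iff_surjective X.g).1 hX.epi_g
  have hex : LinearMap.range X.f.hom.toLinearMap = LinearMap.ker X.g.hom.toLinearMap :=
    (hX.exact.map (forget₂ (Rep k G) (ModuleCat k))).moduleCat_range_eq_ker
  have e2 : finrank k X.X₂ = finrank k X.X₁ + finrank k X.X₃ := by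
    have r1 := LinearMap.finrank_range_add_finrank_ker X.g.hom.toLinearMap
    have r2 : finrank k (LinearMap.range X.g.hom.toLinearMap) = finrank k X.X₃ := by
      rw [LinearMap.range_eq_top.2 hg]; exact finrank_top k _
    have r3 : finrank k (LinearMap.range X.f.hom.toLinearMap) = finrank k X.X₁ :=
      LinearMap.finrank_range_of_inj hf
    rw [← hex, r2, r3] at r1
    omega
  unfold eulerL
  rw [e2]
  push_cast
  have e1' : (finrank k (levelCohomology 𝒰 X.X₂ 0) : ℤ) + finrank k (levelCohomology 𝒰 X.X₂ 2) +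
        finrank k (levelCohomology 𝒰 X.X₁ 1) + finrank k (levelCohomology 𝒰 X.X₃ 1) =
      finrank k (levelCohomology 𝒰 X.X₁ 0) + finrank k (levelCohomology 𝒰 X.X₁ 2) +
        finrank k (levelCohomology 𝒰 X.X₃ 0) + finrank k (levelCohomology 𝒰 X.X₃ 2) +
        finrank k (levelCohomology 𝒰 X.X₂ 1) := by exact_mod_cast e1
  linarith

end EulerL

end Fermat.Agent.S56.Loc.EC.Additive
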