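/-
S56 / E-ECp / (L6-inst), definitions (helper26): the `𝔽_p`-representation on `Lˣ / (Lˣ)^p`.

* `pthPowers L p : AddSubgroup (Additive Lˣ)`, `VL L p := Additive Lˣ ⧸ pthPowers L p` with its
  `ZMod p`-module structure, `VL.mk`, `VL.mk_surjective`, `VL.mk_eq_zero_iff`.
* `rhoV L p G : Representation (ZMod p) G (VL L p)` for any group `G` with a `MulSemiringAction G L`
  (`rhoV_mk : rhoV g (mk x) = mk (g • x)`).
* `zetaHom ζ hζ : ZMod p →+ Additive Lˣ`, `a ↦ ζ ^ a`, injective with range the `p`-torsion, and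
  `smul_zetaHom` : `g • ζ ^ a = ζ ^ (ω g * a)` when `g • ζ = ζ ^ ω g`.
-/
import Mathlib

set_option autoImplicit false
set_option linter.unusedSectionVars false
set_option linter.style.haveILetI false

namespace Fermat.Agent.S56.Loc.EC.UnitsRep

attribute [local instance] Units.mulDistribMulActionRight

section Defs

variable (L : Type*) [Field L] (p : ℕ)

/-- The subgroup of `p`-th powers of `Lˣ`, additively. -/
def pthPowers : AddSubgroup (Additive Lˣ) :=
  (nsmulAddMonoidHom p : Additive Lˣ →+ Additive Lˣ).range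

theorem mem_pthPowers {x : Additive Lˣ} :
    x ∈ pthPowers L p ↔ ∃ y : Lˣ, y ^ p = Additive.toMul x := by
  constructor
  · rintro ⟨y, rfl⟩
    exact ⟨Additive.toMul y, rfl⟩
  · rintro ⟨y, hy⟩
    exact ⟨Additive.ofMul y, congrArg Additive.ofMul hy⟩

/-- `Lˣ / (Lˣ)^p`, additively. -/
def VL : Type _ := Additive Lˣ ⧸ pthPowers L p

instance : AddCommGroup (VL L p) :=
  inferInstanceAs (AddCommGroup (Additive Lˣ ⧸ pthPowers L p))

/-- The projection `Lˣ → Lˣ / (Lˣ)^p`. -/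
def VL.mk : Additive Lˣ →+ VL L p := QuotientAddGroup.mk' (pthPowers L p)

theorem VL.mk_surjective : Function.Surjective (VL.mk L p) :=
  QuotientAddGroup.mk'_surjective _

variable {L p}

theorem VL.mk_eq_zero_iff {x : Additive Lˣ} :
    VL.mk L p x = 0 ↔ ∃ y : Lˣ, y ^ p = Additive.toMul x := by
  rw [← mem_pthPowers]
  exact QuotientAddGroup.eq_zero_iff x

theorem VL.mk_eq_mk_iff {x y : Additive Lˣ} :
    VL.mk L p x = VL.mk L p y ↔ ∃ z : Lˣ, z ^ p = Additive.toMul x / Additive.toMul y := by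
  rw [← sub_eq_zero, ← map_sub, VL.mk_eq_zero_iff]
  rfl

theorem VL.nsmul_eq_zero (v : VL L p) : p • v = 0 := by
  obtain ⟨x, rfl⟩ := VL.mk_surjective L p v
  rw [← map_nsmul, VL.mk_eq_zero_iff]
  exact ⟨Additive.toMul x, rfl⟩

variable (L p)

instance [Fact p.Prime] : Module (ZMod p) (VL L p) :=
  AddCommGroup.zmodModule VL.nsmul_eq_zero

end Defs

section Rep

variable (L : Type*) [Field L] (p : ℕ) [Fact p.Prime] (G : Type*) [Group G] [MulSemiringAction G L]

theorem smul_mem_pthPowers (g : G) {x : Additive Lˣ} (hx : x ∈ pthPowers L p) :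
    Additive.ofMul (g • Additive.toMul x) ∈ pthPowers L p := by
  obtain ⟨y, hy⟩ := (mem_pthPowers L p).1 hx
  refine (mem_pthPowers L p).2 ⟨g • y, ?_⟩
  rw [← smul_pow', hy]
  rfl

/-- The action of `g` on `Additive Lˣ`. -/
def unitsAct (g : G) : Additive Lˣ →+ Additive Lˣ :=
  MonoidHom.toAdditive (MulDistribMulAction.toMonoidHom Lˣ g)

@[simp] theorem unitsAct_apply (g : G) (x : Additive Lˣ) :
    unitsAct L G g x = Additive.ofMul (g • Additive.toMul x) := rfl

/-- The action of `g` on `Lˣ / (Lˣ)^p`. -/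
def vlAct (g : G) : VL L p →+ VL L p :=
  QuotientAddGroup.map (pthPowers L p) (pthPowers L p) (unitsAct L G g)
    (fun _ hx => smul_mem_pthPowers L p G g hx)

@[simp] theorem vlAct_mk (g : G) (x : Additive Lˣ) :
    vlAct L p G g (VL.mk L p x) = VL.mk L p (Additive.ofMul (g • Additive.toMul x)) := rfl

/-- **The `𝔽_p`-representation of `G` on `Lˣ / (Lˣ)^p`.** -/
def rhoV : Representation (ZMod p) G (VL L p) where
  toFun g := (vlAct L p G g).toZModLinearMap p
  map_one' := by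
    apply LinearMap.ext
    intro v
    obtain ⟨x, rfl⟩ := VL.mk_surjective L p v
    show vlAct L p G 1 (VL.mk L p x) = VL.mk L p x
    rw [vlAct_mk, one_smul]
    rfl
  map_mul' g h := by
    apply LinearMap.ext
    intro v
    obtain ⟨x, rfl⟩ := VL.mk_surjective L p v
    show vlAct L p G (g * h) (VL.mk L p x) = vlAct L p G g (vlAct L p G h (VL.mk L p x))
    rw [vlAct_mk, vlAct_mk, vlAct_mk, mul_smul]
    rfl

@[simp] theorem rhoV_mk (g : G) (x : Additive Lˣ) :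
    rhoV L p G g (VL.mk L p x) = VL.mk L p (Additive.ofMul (g • Additive.toMul x)) := rfl

theorem rhoV_mk_ofMul (g : G) (u : Lˣ) :
    rhoV L p G g (VL.mk L p (Additive.ofMul u)) = VL.mk L p (Additive.ofMul (g • u)) := rfl

end Rep

section Zeta

variable {L : Type*} [Field L] {p : ℕ} [Fact p.Prime]

/-- `a ↦ ζ ^ a`, `ZMod p → Lˣ` (additively), for `ζ ^ p = 1`. -/
def zetaHom (ζ : Lˣ) (hζ : ζ ^ p = 1) : ZMod p →+ Additive Lˣ :=
  ZMod.lift p ⟨zmultiplesHom (Additive Lˣ) (Additive.ofMul ζ), by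
    show (p : ℤ) • Additive.ofMul ζ = 0
    rw [natCast_zsmul]
    exact congrArg Additive.ofMul hζ⟩

theorem zetaHom_intCast (ζ : Lˣ) (hζ : ζ ^ p = 1) (n : ℤ) :
    zetaHom ζ hζ (n : ZMod p) = Additive.ofMul (ζ ^ n) := by
  rw [zetaHom, ZMod.lift_coe]
  rfl

theorem zetaHom_natCast (ζ : Lˣ) (hζ : ζ ^ p = 1) (n : ℕ) :
    zetaHom ζ hζ (n : ZMod p) = Additive.ofMul (ζ ^ n) := by
  have := zetaHom_intCast ζ hζ (n : ℤ)
  rwa [Int.cast_natCast, zpow_natCast] at this

theorem zetaHom_apply (ζ : Lˣ) (hζ : ζ ^ p = 1) (a : ZMod p) :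
    zetaHom ζ hζ a = Additive.ofMul (ζ ^ a.val) := by
  conv_lhs => rw [← ZMod.natCast_zmod_val a]
  exact zetaHom_natCast ζ hζ a.val

theorem nsmul_zetaHom (ζ : Lˣ) (hζ : ζ ^ p = 1) (a : ZMod p) : p • zetaHom ζ hζ a = 0 := by
  rw [← map_nsmul]
  have : p • a = 0 := by
    rw [nsmul_eq_mul, ZMod.natCast_self, zero_mul]
  rw [this, map_zero]

theorem zetaHom_injective {ζ : Lˣ} (hζ : IsPrimitiveRoot ζ p) :
    Function.Injective (zetaHom ζ hζ.pow_eq_one) := by
  rw [injective_iff_map_eq_zero]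
  intro a ha
  rw [zetaHom_apply] at ha
  have h1 : ζ ^ a.val = 1 := ha
  have h2 : p ∣ a.val := (hζ.pow_eq_one_iff_dvd _).1 h1
  have h3 : a.val = 0 := Nat.eq_zero_of_dvd_of_lt h2 (ZMod.val_lt a)
  exact (ZMod.val_eq_zero a).1 h3

theorem exists_zetaHom_eq {ζ : Lˣ} (hζ : IsPrimitiveRoot ζ p) {x : Additive Lˣ} (hx : p • x = 0) :
    ∃ a : ZMod p, zetaHom ζ hζ.pow_eq_one a = x := by
  have hp : 0 < p := (Fact.out : p.Prime).pos
  haveI : NeZero p := ⟨hp.ne'⟩
  have h1 : Additive.toMul x ^ p = 1 := hx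
  have h2 : ((Additive.toMul x : Lˣ) : L) ^ p = 1 := by
    rw [← Units.val_pow_eq_pow_val, h1, Units.val_one]
  have hζ' : IsPrimitiveRoot (ζ : L) p := IsPrimitiveRoot.coe_units_iff.2 hζ
  obtain ⟨i, _, hi⟩ := hζ'.eq_pow_of_pow_eq_one h2
  refine ⟨(i : ZMod p), ?_⟩
  rw [zetaHom_natCast]
  apply congrArg Additive.ofMul
  apply Units.ext
  rw [Units.val_pow_eq_pow_val, hi]
  rfl

variable {G : Type*} [Group G] [MulSemiringAction G L]

/-- If `g • ζ = ζ ^ ω`, then `g • ζ ^ a = ζ ^ (ω a)`. -/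
theorem smul_zetaHom (ζ : Lˣ) (hζ : ζ ^ p = 1) (g : G) (w : ZMod p)
    (hg : g • ζ = ζ ^ w.val) (a : ZMod p) :
    Additive.ofMul (g • Additive.toMul (zetaHom ζ hζ a)) = zetaHom ζ hζ (w * a) := by
  have h1 : (w * a : ZMod p) = ((w.val * a.val : ℕ) : ZMod p) := by
    rw [Nat.cast_mul, ZMod.natCast_zmod_val, ZMod.natCast_zmod_val]
  rw [h1, zetaHom_natCast, zetaHom_apply]
  show Additive.ofMul (g • (ζ ^ a.val)) = Additive.ofMul (ζ ^ (w.val * a.val))
  rw [smul_pow', hg, ← pow_mul]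

end Zeta

end Fermat.Agent.S56.Loc.EC.UnitsRep
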