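/-
S56 / block E (local terms), E-ECp = "LEC" chain (board #2515), leaf (L5a) (helper9):
**Kummer theory with operators**, abstract form.

Setting of `KummerHyp`: `Ω/K`, `L` an intermediate field normal over `K`, `ζ ∈ L` a primitive `p`-th
root of unity, `r : G →* Gal(Ω/K)`, `𝒰` a level structure on `G`, `U ⊴ G`, `h : KummerHyp p L r 𝒰 U ζ`.

* `cyc r hζ : G →* (ZMod p)ˣ`, `r g ζ = ζ ^ (cyc g).val` (`cyc_spec`);
* `actL L r : MulSemiringAction G ↥L` (through `AlgEquiv.restrictNormalHom L ∘ r`), `rhoL L r` :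
  the representation of `G` on `Lˣ/p = UnitsRep.VL ↥L p` (helper26's `rhoV`);
* `kumChar` : the Kummer character `u ↦ log_ζ (u α / α)` of `α ∈ Ωˣ` with `α ^ p ∈ L`;
* `kummerEquiv h : VL ↥L p ≃ₗ[ZMod p] HomLev 𝒰 U`, `kummerEquiv_mk_spec`;
* `homLevRep_kummerEquiv : homLevRep 𝒰 U g (κ v) = (cyc g)⁻¹ • κ (rhoL g v)`, `kummerEquiv_twist`;
* ★ `mult_homLevRep : mult ρN (homLevRep 𝒰 U) = mult (twist ρN (cyc r hζ)⁻¹) (rhoL L r)`.
-/
import Mathlib
import Fermat.Agent.S56.Loc.EC.KummerHyp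
import Fermat.Agent.S56.Loc.EC.UnitsRep

set_option autoImplicit false
set_option linter.unusedSectionVars false
set_option linter.style.haveILetI false

namespace Fermat.Agent.S56.Loc.EC.KummerEq

open Fermat.Agent.S55.Level Fermat.Agent.S56.Loc.EC.InfRes Fermat.Agent.S56.Loc.EC.HomTensorCore
  Fermat.Agent.S56.Loc.EC.UnitsRep Fermat.Agent.S56.GEC.Equivariant.Mult
  Fermat.Agent.S56.Loc.EC.KummerHyp

noncomputable section

attribute [local instance] Units.mulDistribMulActionRight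

/-! ### powers of `ζ` indexed by `ZMod p` -/

section Log

variable {Ω : Type} [Field Ω] {p : ℕ} [Fact p.Prime] {ζ : Ω} (hζ : IsPrimitiveRoot ζ p)

include hζ in
lemma pow_val_add (a b : ZMod p) : ζ ^ (a + b).val = ζ ^ a.val * ζ ^ b.val := by
  rw [← pow_add, ZMod.val_add, ← pow_eq_pow_mod _ hζ.pow_eq_one]

include hζ in
lemma pow_val_mul (a b : ZMod p) : ζ ^ (a * b).val = (ζ ^ a.val) ^ b.val := by
  rw [← pow_mul, ZMod.val_mul, ← pow_eq_pow_mod _ hζ.pow_eq_one]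

include hζ in
lemma pow_val_injective {a b : ZMod p} (h : ζ ^ a.val = ζ ^ b.val) : a = b := by
  haveI : NeZero p := ⟨(Fact.out : p.Prime).ne_zero⟩
  exact ZMod.val_injective p (hζ.pow_inj (ZMod.val_lt a) (ZMod.val_lt b) h)

include hζ in
lemma exists_pow_val_eq {y : Ω} (hy : y ^ p = 1) : ∃ c : ZMod p, y = ζ ^ c.val := by
  haveI : NeZero p := ⟨(Fact.out : p.Prime).ne_zero⟩
  obtain ⟨i, hi, hiy⟩ := hζ.eq_pow_of_pow_eq_one hy
  exact ⟨(i : ZMod p), by rw [ZMod.val_natCast_of_lt hi, hiy]⟩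

end Log

variable {K Ω : Type} [Field K] [Field Ω] [Algebra K Ω] {p : ℕ} [Fact p.Prime]
  (L : IntermediateField K Ω) [Normal K L]
  {G : Type} [Group G] (r : G →* (Ω ≃ₐ[K] Ω)) (𝒰 : LevelStructure G) (U : Subgroup G) [U.Normal]
  {ζ : Ω} (hζ : IsPrimitiveRoot ζ p) (hζL : ζ ∈ L)

/-! ### the cyclotomic character and the action on `L` -/

/-- the mod `p` cyclotomic character of `G` (through `r`) -/
def cyc : G →* (ZMod p)ˣ :=
  haveI : NeZero p := ⟨(Fact.out : p.Prime).ne_zero⟩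
  (hζ.autToPow K).comp r

lemma cyc_spec (g : G) : r g ζ = ζ ^ ((cyc r hζ g : (ZMod p)ˣ) : ZMod p).val := by
  haveI : NeZero p := ⟨(Fact.out : p.Prime).ne_zero⟩
  exact (hζ.autToPow_spec K (r g)).symm

/-- the action of `G` on `L` through `r` -/
@[reducible] def actL : MulSemiringAction G ↥L :=
  MulSemiringAction.compHom ↥L ((AlgEquiv.restrictNormalHom (F := K) (K₁ := Ω) L).comp r)

lemma coe_actL_smul (g : G) (x : ↥L) :
    (((actL L r).smul g x : ↥L) : Ω) = r g (x : Ω) := by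
  show ((AlgEquiv.restrictNormalHom (F := K) (K₁ := Ω) L (r g)) x : Ω) = r g (x : Ω)
  exact AlgEquiv.restrictNormal_commutes (r g) L x

/-- `Lˣ/p` as a representation of `G` -/
def rhoL : Representation (ZMod p) G (VL ↥L p) := @rhoV ↥L _ p _ G _ (actL L r)

/-! ### Kummer characters -/

section Kummer

variable {L r 𝒰 U}
variable (h : KummerHyp p L r 𝒰 U ζ)

include hζL h in
lemma r_zeta_of_mem {u : G} (hu : u ∈ U) : r u ζ = ζ := h.fixL u hu ζ hζL

include hζ h in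
/-- for `α ≠ 0` with `α ^ p ∈ L` and `u ∈ U`, `u α / α` is a power of `ζ` -/
lemma exists_kum {α : Ω} (hα0 : α ≠ 0) (hαL : α ^ p ∈ L) (u : U) :
    ∃ c : ZMod p, r (u : G) α = ζ ^ c.val * α := by
  have h1 : (r (u : G) α / α) ^ p = 1 := by
    rw [div_pow, ← map_pow, h.fixL u u.2 _ hαL, div_self (pow_ne_zero _ hα0)]
  obtain ⟨c, hc⟩ := exists_pow_val_eq hζ h1
  exact ⟨c, by rw [← hc, div_mul_cancel₀ _ hα0]⟩

/-- the Kummer character of `α` -/
def kumChar {α : Ω} (hα0 : α ≠ 0) (hαL : α ^ p ∈ L) (u : U) : ZMod p :=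
  Classical.choose (exists_kum hζ h hα0 hαL u)

lemma kumChar_spec {α : Ω} (hα0 : α ≠ 0) (hαL : α ^ p ∈ L) (u : U) :
    r (u : G) α = ζ ^ (kumChar hζ h hα0 hαL u).val * α :=
  Classical.choose_spec (exists_kum hζ h hα0 hαL u)

lemma kumChar_unique {α : Ω} (hα0 : α ≠ 0) (hαL : α ^ p ∈ L) (u : U) {c : ZMod p}
    (hc : r (u : G) α = ζ ^ c.val * α) : kumChar hζ h hα0 hαL u = c := by
  have h1 := kumChar_spec hζ h hα0 hαL u
  rw [hc] at h1
  exact (pow_val_injective hζ (mul_right_cancel₀ hα0 h1)).symm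

include hζL in
lemma kumChar_mul {α : Ω} (hα0 : α ≠ 0) (hαL : α ^ p ∈ L) (u v : U) :
    kumChar hζ h hα0 hαL (u * v) = kumChar hζ h hα0 hαL u + kumChar hζ h hα0 hαL v := by
  apply kumChar_unique
  rw [Subgroup.coe_mul, map_mul, AlgEquiv.mul_apply, kumChar_spec hζ h hα0 hαL v, map_mul, map_pow,
    r_zeta_of_mem hζL h u.2, kumChar_spec hζ h hα0 hαL u, pow_val_add hζ]
  ring

lemma kumChar_eq_zero_of_fix {α : Ω} (hα0 : α ≠ 0) (hαL : α ^ p ∈ L) (u : U)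
    (hu : r (u : G) α = α) : kumChar hζ h hα0 hαL u = 0 := by
  apply kumChar_unique
  rw [hu, ZMod.val_zero, pow_zero, one_mul]

include hζL in
lemma kumChar_mem {α : Ω} (hα0 : α ≠ 0) (hαL : α ^ p ∈ L) :
    kumChar hζ h hα0 hαL ∈ HomLev (k := ZMod p) 𝒰 U := by
  refine ⟨fun u v => kumChar_mul hζ hζL h hα0 hαL u v, ?_⟩
  obtain ⟨W, hW, hfix⟩ := h.disc α
  exact ⟨W, hW, fun u hu => kumChar_eq_zero_of_fix hζ h hα0 hαL u (hfix _ hu)⟩

include hζL in
/-- the Kummer character only depends on `α ^ p` -/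
lemma kumChar_congr {α β : Ω} (hα0 : α ≠ 0) (hαL : α ^ p ∈ L) (hβ0 : β ≠ 0) (hβL : β ^ p ∈ L)
    (hαβ : α ^ p = β ^ p) : kumChar hζ h hα0 hαL = kumChar hζ h hβ0 hβL := by
  funext u
  apply kumChar_unique
  have h1 : (α / β) ^ p = 1 := by rw [div_pow, hαβ, div_self (pow_ne_zero _ hβ0)]
  obtain ⟨j, hj⟩ := exists_pow_val_eq hζ h1
  have hα : α = ζ ^ j.val * β := by rw [← hj, div_mul_cancel₀ _ hβ0]
  rw [hα, map_mul, map_pow, r_zeta_of_mem hζL h u.2, kumChar_spec hζ h hβ0 hβL u]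
  ring

include hζL in
lemma kumChar_mul_elt {α β : Ω} (hα0 : α ≠ 0) (hαL : α ^ p ∈ L) (hβ0 : β ≠ 0) (hβL : β ^ p ∈ L)
    (hαβ0 : α * β ≠ 0) (hαβL : (α * β) ^ p ∈ L) (u : U) :
    kumChar hζ h hαβ0 hαβL u = kumChar hζ h hα0 hαL u + kumChar hζ h hβ0 hβL u := by
  apply kumChar_unique
  rw [map_mul, kumChar_spec hζ h hα0 hαL u, kumChar_spec hζ h hβ0 hβL u, pow_val_add hζ]
  ring

lemma kumChar_of_mem {α : Ω} (hα0 : α ≠ 0) (hαL : α ^ p ∈ L) (hα : α ∈ L) (u : U) :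
    kumChar hζ h hα0 hαL u = 0 :=
  kumChar_eq_zero_of_fix hζ h hα0 hαL u (h.fixL u u.2 α hα)

/-! ### the Kummer map on `Lˣ` -/

/-- a `p`-th root in `Ω` of a unit of `L` -/
def root (a : (↥L)ˣ) : Ω := Classical.choose (h.roots (((a : (↥L)ˣ) : ↥L) : Ω))

lemma root_pow (a : (↥L)ˣ) : root h a ^ p = (((a : (↥L)ˣ) : ↥L) : Ω) :=
  Classical.choose_spec (h.roots (((a : (↥L)ˣ) : ↥L) : Ω))

lemma coe_unit_ne_zero (a : (↥L)ˣ) : (((a : (↥L)ˣ) : ↥L) : Ω) ≠ 0 := by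
  intro h0
  exact a.ne_zero (Subtype.ext h0)

lemma root_ne_zero (a : (↥L)ˣ) : root h a ≠ 0 := by
  intro h0
  have h1 := root_pow h a
  rw [h0, zero_pow (Fact.out : p.Prime).ne_zero] at h1
  exact coe_unit_ne_zero a h1.symm

lemma root_pow_mem (a : (↥L)ˣ) : root h a ^ p ∈ L := by
  rw [root_pow]
  exact (a : ↥L).2

/-- the Kummer character of a unit of `L` -/
def kumFun (a : (↥L)ˣ) : HomLev (k := ZMod p) 𝒰 U :=
  ⟨kumChar hζ h (root_ne_zero h a) (root_pow_mem h a),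
    kumChar_mem hζ hζL h (root_ne_zero h a) (root_pow_mem h a)⟩

/-- `kumFun a` is the Kummer character of ANY `p`-th root of `a` -/
lemma kumFun_eq (a : (↥L)ˣ) {α : Ω} (hα : α ^ p = (((a : (↥L)ˣ) : ↥L) : Ω))
    (hα0 : α ≠ 0) (hαL : α ^ p ∈ L) :
    ((kumFun hζ hζL h a : HomLev (k := ZMod p) 𝒰 U) : U → ZMod p) = kumChar hζ h hα0 hαL :=
  kumChar_congr hζ hζL h (root_ne_zero h a) (root_pow_mem h a) hα0 hαL (by rw [root_pow, hα])

lemma ne_zero_of_pow_eq (a : (↥L)ˣ) {α : Ω} (hα : α ^ p = (((a : (↥L)ˣ) : ↥L) : Ω)) : α ≠ 0 := by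
  intro h0
  rw [h0, zero_pow (Fact.out : p.Prime).ne_zero] at hα
  exact coe_unit_ne_zero a hα.symm

lemma pow_mem_of_pow_eq (a : (↥L)ˣ) {α : Ω} (hα : α ^ p = (((a : (↥L)ˣ) : ↥L) : Ω)) :
    α ^ p ∈ L := by
  rw [hα]
  exact (a : ↥L).2

/-- **defining property**: `u α = ζ ^ (κ_a u) · α` for every `p`-th root `α` of `a`. -/
theorem kumFun_spec (a : (↥L)ˣ) {α : Ω} (hα : α ^ p = (((a : (↥L)ˣ) : ↥L) : Ω)) (u : U) :
    r (u : G) α = ζ ^ (((kumFun hζ hζL h a : HomLev (k := ZMod p) 𝒰 U) : U → ZMod p) u).val * α := by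
  rw [kumFun_eq hζ hζL h a hα (ne_zero_of_pow_eq a hα) (pow_mem_of_pow_eq a hα)]
  exact kumChar_spec hζ h _ _ u

/-- uniqueness -/
theorem kumFun_unique (a : (↥L)ˣ) {α : Ω} (hα : α ^ p = (((a : (↥L)ˣ) : ↥L) : Ω))
    (χ : HomLev (k := ZMod p) 𝒰 U)
    (hχ : ∀ u : U, r (u : G) α = ζ ^ ((χ : U → ZMod p) u).val * α) :
    kumFun hζ hζL h a = χ := by
  apply Subtype.ext
  rw [kumFun_eq hζ hζL h a hα (ne_zero_of_pow_eq a hα) (pow_mem_of_pow_eq a hα)]
  funext u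
  exact kumChar_unique hζ h _ _ u (hχ u)

lemma kumFun_one : kumFun hζ hζL h (1 : (↥L)ˣ) = 0 := by
  refine kumFun_unique hζ hζL h 1 (α := 1) (by simp) 0 (fun u => ?_)
  show r (u : G) 1 = ζ ^ (0 : ZMod p).val * 1
  rw [map_one, ZMod.val_zero, pow_zero, one_mul]

lemma kumFun_mul (a b : (↥L)ˣ) :
    kumFun hζ hζL h (a * b) = kumFun hζ hζL h a + kumFun hζ hζL h b := by
  refine kumFun_unique hζ hζL h (a * b) (α := root h a * root h b)
    (by rw [mul_pow, root_pow, root_pow]; rfl) _ (fun u => ?_)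
  show r (u : G) (root h a * root h b) = ζ ^ (((kumFun hζ hζL h a : HomLev (k := ZMod p) 𝒰 U) :
    U → ZMod p) u + ((kumFun hζ hζL h b : HomLev (k := ZMod p) 𝒰 U) : U → ZMod p) u).val * _
  rw [map_mul, kumFun_spec hζ hζL h a (root_pow h a) u, kumFun_spec hζ hζL h b (root_pow h b) u,
    pow_val_add hζ]
  ring

/-- the Kummer map `Lˣ → Hom_lev(U, 𝔽_p)` -/
def kumHom : Additive (↥L)ˣ →+ HomLev (k := ZMod p) 𝒰 U where
  toFun a := kumFun hζ hζL h (Additive.toMul a)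
  map_zero' := kumFun_one hζ hζL h
  map_add' a b := kumFun_mul hζ hζL h (Additive.toMul a) (Additive.toMul b)

lemma kumHom_apply (a : Additive (↥L)ˣ) :
    kumHom hζ hζL h a = kumFun hζ hζL h (Additive.toMul a) := rfl

lemma kumHom_eq_zero_iff (a : Additive (↥L)ˣ) :
    kumHom hζ hζL h a = 0 ↔ a ∈ pthPowers ↥L p := by
  rw [mem_pthPowers, kumHom_apply]
  constructor
  · intro h0
    -- the root is fixed by `U`, hence lies in `L`
    have hfix : ∀ u ∈ U, r u (root h (Additive.toMul a)) = root h (Additive.toMul a) := by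
      intro u hu
      have h1 := kumFun_spec hζ hζL h (Additive.toMul a) (root_pow h _) ⟨u, hu⟩
      rw [h0] at h1
      simpa using h1
    have hmem : root h (Additive.toMul a) ∈ L := h.fixed _ hfix
    have hne : (⟨root h (Additive.toMul a), hmem⟩ : ↥L) ≠ 0 := by
      intro h1
      exact root_ne_zero h _ (congrArg Subtype.val h1)
    refine ⟨Units.mk0 _ hne, ?_⟩
    apply Units.ext
    apply Subtype.ext
    rw [Units.val_pow_eq_pow_val, Units.val_mk0]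
    show root h (Additive.toMul a) ^ p = _
    exact root_pow h _
  · rintro ⟨y, hy⟩
    refine kumFun_unique hζ hζL h _ (α := ((y : ↥L) : Ω)) ?_ 0 (fun u => ?_)
    · rw [← hy]
      simp
    · show r (u : G) ((y : ↥L) : Ω) = ζ ^ (0 : ZMod p).val * _
      rw [ZMod.val_zero, pow_zero, one_mul]
      exact h.fixL u u.2 _ (y : ↥L).2

/-! ### the Kummer isomorphism `Lˣ/p ≃ Hom_lev(U, 𝔽_p)` -/

/-- the Kummer map on `Lˣ/p`, additive form -/
def kummerAdd : VL ↥L p →+ HomLev (k := ZMod p) 𝒰 U :=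
  QuotientAddGroup.lift (pthPowers ↥L p) (kumHom hζ hζL h)
    (fun a ha => (kumHom_eq_zero_iff hζ hζL h a).2 ha)

lemma kummerAdd_mk (a : Additive (↥L)ˣ) :
    kummerAdd hζ hζL h (VL.mk ↥L p a) = kumFun hζ hζL h (Additive.toMul a) := rfl

lemma kummerAdd_injective : Function.Injective (kummerAdd hζ hζL h) := by
  rw [injective_iff_map_eq_zero]
  intro v hv
  obtain ⟨a, rfl⟩ := VL.mk_surjective ↥L p v
  rw [kummerAdd_mk, ← kumHom_apply, kumHom_eq_zero_iff] at hv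
  exact (QuotientAddGroup.eq_zero_iff a).2 hv

lemma kummerAdd_surjective : Function.Surjective (kummerAdd hζ hζL h) := by
  intro χ
  obtain ⟨α, hα0, hαL, hα⟩ := h.surj χ χ.2
  have hne : (⟨α ^ p, hαL⟩ : ↥L) ≠ 0 := by
    intro h1
    exact pow_ne_zero _ hα0 (congrArg Subtype.val h1)
  refine ⟨VL.mk ↥L p (Additive.ofMul (Units.mk0 _ hne)), ?_⟩
  rw [kummerAdd_mk]
  exact kumFun_unique hζ hζL h _ (α := α) rfl χ hα

/-- **the Kummer isomorphism** -/
def kummerEquiv : VL ↥L p ≃ₗ[ZMod p] HomLev (k := ZMod p) 𝒰 U :=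
  LinearEquiv.ofBijective ((kummerAdd hζ hζL h).toZModLinearMap p)
    ⟨kummerAdd_injective hζ hζL h, kummerAdd_surjective hζ hζL h⟩

lemma kummerEquiv_apply (v : VL ↥L p) : kummerEquiv hζ hζL h v = kummerAdd hζ hζL h v := rfl

lemma kummerEquiv_mk (a : Additive (↥L)ˣ) :
    kummerEquiv hζ hζL h (VL.mk ↥L p a) = kumFun hζ hζL h (Additive.toMul a) := rfl

/-- **defining property of the Kummer isomorphism** -/
theorem kummerEquiv_mk_spec (a : (↥L)ˣ) {α : Ω} (hα : α ^ p = (((a : (↥L)ˣ) : ↥L) : Ω)) (u : U) :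
    r (u : G) α = ζ ^ (((kummerEquiv hζ hζL h (VL.mk ↥L p (Additive.ofMul a)) :
      HomLev (k := ZMod p) 𝒰 U) : U → ZMod p) u).val * α :=
  kumFun_spec hζ hζL h a hα u

/-! ### equivariance -/

/-- the core computation: `κ_a (g⁻¹ u g) = ω(g)⁻¹ · κ_{g a} (u)` -/
lemma kumFun_conj (g : G) (a b : (↥L)ˣ)
    (hab : (((b : (↥L)ˣ) : ↥L) : Ω) = r g (((a : (↥L)ˣ) : ↥L) : Ω)) (u : U) :
    ((kumFun hζ hζL h a : HomLev (k := ZMod p) 𝒰 U) : U → ZMod p) (conjU U g⁻¹ u) =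
      (((cyc r hζ g)⁻¹ : (ZMod p)ˣ) : ZMod p) *
        ((kumFun hζ hζL h b : HomLev (k := ZMod p) 𝒰 U) : U → ZMod p) u := by
  set c := ((kumFun hζ hζL h a : HomLev (k := ZMod p) 𝒰 U) : U → ZMod p) (conjU U g⁻¹ u) with hc
  have hβ : (r g (root h a)) ^ p = (((b : (↥L)ˣ) : ↥L) : Ω) := by
    rw [← map_pow, root_pow, hab]
  have h1 := kumFun_spec hζ hζL h a (root_pow h a) (conjU U g⁻¹ u)
  rw [← hc] at h1
  have h2 : r (u : G) (r g (root h a)) =
      ζ ^ ((((cyc r hζ g : (ZMod p)ˣ) : ZMod p)) * c).val * r g (root h a) := by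
    have h3 : (u : G) * g = g * ((conjU U g⁻¹ u : U) : G) := by
      show (u : G) * g = g * (g⁻¹ * (u : G) * g⁻¹⁻¹)
      group
    rw [← AlgEquiv.mul_apply, ← map_mul, h3, map_mul, AlgEquiv.mul_apply, h1, map_mul, map_pow,
      cyc_spec r hζ g, pow_val_mul hζ]
  have h4 := kumFun_spec hζ hζL h b hβ u
  rw [h2] at h4
  have h5 := pow_val_injective hζ (mul_right_cancel₀ (ne_zero_of_pow_eq b hβ) h4)
  rw [← h5, ← mul_assoc, ← Units.val_mul, inv_mul_cancel, Units.val_one, one_mul]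

/-- **twisted equivariance of the Kummer isomorphism**:
`g • κ(v) = ω(g)⁻¹ • κ(g v)` -/
theorem homLevRep_kummerEquiv (g : G) (v : VL ↥L p) :
    homLevRep 𝒰 U g (kummerEquiv hζ hζL h v) =
      (((cyc r hζ g)⁻¹ : (ZMod p)ˣ) : ZMod p) • kummerEquiv hζ hζL h (rhoL L r g v) := by
  obtain ⟨a, rfl⟩ := VL.mk_surjective ↥L p v
  letI := actL L r
  have hρ : rhoL L r g (VL.mk ↥L p a) =
      VL.mk ↥L p (Additive.ofMul (g • Additive.toMul a)) := rhoV_mk ↥L p G g a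
  rw [hρ, kummerEquiv_mk, kummerEquiv_mk]
  apply Subtype.ext
  funext u
  show ((kumFun hζ hζL h (Additive.toMul a) : HomLev (k := ZMod p) 𝒰 U) : U → ZMod p)
      (conjU U g⁻¹ u) = _
  rw [kumFun_conj hζ hζL h g (Additive.toMul a) (g • Additive.toMul a)
    (coe_actL_smul L r g _) u]
  rfl

/-- the same, with `Mult.twist` -/
theorem kummerEquiv_twist (g : G) (v : VL ↥L p) :
    kummerEquiv hζ hζL h (twist (rhoL L r) (cyc r hζ)⁻¹ g v) =
      homLevRep 𝒰 U g (kummerEquiv hζ hζL h v) := by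
  rw [homLevRep_kummerEquiv, twist_apply, map_smul]
  rfl

include hζL h in
/-- ★ **(L5)**: `mult N Hom_lev(U, 𝔽_p) = mult (N ⊗ ω̄⁻¹) (Lˣ/p)`. -/
theorem mult_homLevRep {N : Type*} [AddCommGroup N] [Module (ZMod p) N]
    (ρN : Representation (ZMod p) G N) :
    mult ρN (homLevRep (k := ZMod p) 𝒰 U) = mult (twist ρN (cyc r hζ)⁻¹) (rhoL L r) := by
  rw [← mult_twist]
  exact (mult_congr_right ρN _ _ (kummerEquiv hζ hζL h)
    (fun g v => kummerEquiv_twist hζ hζL h g v)).symm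

end Kummer

end

end Fermat.Agent.S56.Loc.EC.KummerEq
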