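/-
S56 / block E (local terms), E-ECp = "LEC" chain (board #2515), leaf (LEC-T), abstract glue
(helper9).

Setting of `KummerHyp`/`KummerEq`: `Ω/K`, `L` normal over `K`, `ζ ∈ L` a primitive `p`-th root of
unity, `r : G →* Gal(Ω/K)`, `𝒰`, `U ⊴ G` with `h : KummerHyp p L r 𝒰 U ζ` and `U` = the full
stabiliser of `L` (`hker`).  Let `C' := range (restrictNormalHom L ∘ r) ≤ Gal(L/K)`, `π : G ↠ C'`,
`ω : C' →* 𝔽_pˣ` its cyclotomic character.

* `descend π hπ ρ hker` : descent of a representation along a surjection whose kernel acts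
  trivially (`descend_apply`), `invariants_eq_of_surjective`;
* `resL L r`, `imL L r` (`= C'`), `piL L r` (`= π`), `omegaL`, `omegaL_piL : ω (π g) = cyc g`;
* `rhoV_piL : rhoV ↥L p C' (π g) = rhoL L r g`;
* ★ `finrank_H1_eq_of_units` : from the unit count (L6) over `C'` (as a hypothesis `h6`, in the
  shape of helper26's `UnitsCount.mult_twist_rhoV`),
  `h¹(𝒰, A) = h⁰(𝒰, A) + h⁰(𝒰, A.dualTwist χ) + m · dim A` for `A` finite dimensional, trivial
  on `U`, `p ∤ [G : U]`, `χ = cyc`.
-/
import Mathlib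
import Fermat.Agent.S56.Loc.EC.KummerEq
import Fermat.Agent.S56.Loc.EC.LecT

set_option autoImplicit false
set_option linter.unusedSectionVars false
set_option linter.style.haveILetI false

namespace Fermat.Agent.S56.Loc.EC.CharGlue

open Module Fermat.Agent.S55.Level Fermat.Agent.S55.DualTwist
  Fermat.Agent.S56.Loc.EC.InfRes Fermat.Agent.S56.Loc.EC.HomTensorCore
  Fermat.Agent.S56.Loc.EC.UnitsRep Fermat.Agent.S56.GEC.Equivariant.Mult
  Fermat.Agent.S56.Loc.EC.KummerHyp Fermat.Agent.S56.Loc.EC.KummerEq Fermat.Agent.S56.Loc.EC.LecT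

noncomputable section

attribute [local instance] Units.mulDistribMulActionRight

/-! ### descent along a surjection -/

section Descend

variable {k : Type*} [Field k] {G C : Type*} [Group G] [Group C] {N : Type*} [AddCommGroup N]
  [Module k N]

/-- descent of a representation along a surjection whose kernel acts trivially -/
def descend (π : G →* C) (hπ : Function.Surjective π) (ρ : Representation k G N)
    (hker : ∀ g, π g = 1 → ρ g = 1) : Representation k C N :=
  (QuotientGroup.lift π.ker ρ (fun g hg => hker g (MonoidHom.mem_ker.1 hg))).comp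
    (QuotientGroup.quotientKerEquivOfSurjective π hπ).symm.toMonoidHom

lemma descend_apply (π : G →* C) (hπ : Function.Surjective π) (ρ : Representation k G N)
    (hker : ∀ g, π g = 1 → ρ g = 1) (g : G) : descend π hπ ρ hker (π g) = ρ g := by
  have h1 : (QuotientGroup.quotientKerEquivOfSurjective π hπ).symm (π g) =
      (g : G ⧸ π.ker) := by
    rw [MulEquiv.symm_apply_eq]
    rfl
  unfold descend
  rw [MonoidHom.comp_apply, MulEquiv.coe_toMonoidHom, h1]
  rfl

/-- invariants do not change along a surjection -/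
lemma invariants_eq_of_surjective (π : G →* C) (hπ : Function.Surjective π)
    (ρ : Representation k G N) (σ : Representation k C N) (h : ∀ g, σ (π g) = ρ g) :
    σ.invariants = ρ.invariants := by
  ext v
  constructor
  · intro hv g
    rw [← h]
    exact hv (π g)
  · intro hv c
    obtain ⟨g, rfl⟩ := hπ c
    rw [h]
    exact hv g

end Descend

/-! ### the image of `G` in `Gal(L/K)` -/

section Image

variable {K Ω : Type} [Field K] [Field Ω] [Algebra K Ω] {p : ℕ} [Fact p.Prime]
  (L : IntermediateField K Ω) [Normal K L]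
  {G : Type} [Group G] (r : G →* (Ω ≃ₐ[K] Ω))
  {ζ : Ω} (hζ : IsPrimitiveRoot ζ p) (hζL : ζ ∈ L)

/-- restriction to `L` -/
def resL : G →* (↥L ≃ₐ[K] ↥L) := (AlgEquiv.restrictNormalHom (F := K) (K₁ := Ω) L).comp r

lemma coe_resL (g : G) (x : ↥L) : ((resL L r g x : ↥L) : Ω) = r g (x : Ω) :=
  AlgEquiv.restrictNormal_commutes (r g) L x

/-- the image `C'` of `G` in `Gal(L/K)` -/
def imL : Subgroup (↥L ≃ₐ[K] ↥L) := (resL L r).range

/-- `π : G ↠ C'` -/
def piL : G →* ↥(imL L r) := (resL L r).rangeRestrict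

lemma piL_surjective : Function.Surjective (piL L r) := (resL L r).rangeRestrict_surjective

lemma coe_piL (g : G) : ((piL L r g : ↥(imL L r)) : ↥L ≃ₐ[K] ↥L) = resL L r g := rfl

lemma piL_eq_one_iff (g : G) : piL L r g = 1 ↔ ∀ x ∈ L, r g x = x := by
  constructor
  · intro h x hx
    have h1 : resL L r g = 1 := congrArg (Subtype.val) h
    have h2 := coe_resL L r g ⟨x, hx⟩
    rw [h1] at h2
    exact h2.symm
  · intro h
    apply Subtype.ext
    apply AlgEquiv.ext
    intro x
    apply Subtype.ext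
    show ((resL L r g x : ↥L) : Ω) = _
    rw [coe_resL]
    exact h x x.2

/-- `ζ` as an element of `L` -/
def zetaL : ↥L := ⟨ζ, hζL⟩

include hζ in
lemma isPrimitiveRoot_zetaL : IsPrimitiveRoot (zetaL L hζL) p :=
  IsPrimitiveRoot.of_map_of_injective (f := algebraMap ↥L Ω) hζ (algebraMap ↥L Ω).injective

/-- the cyclotomic character of `C'` -/
def omegaL : ↥(imL L r) →* (ZMod p)ˣ :=
  haveI : NeZero p := ⟨(Fact.out : p.Prime).ne_zero⟩
  ((isPrimitiveRoot_zetaL L hζ hζL).autToPow K).comp (imL L r).subtype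

lemma omegaL_spec (c : ↥(imL L r)) :
    (c : ↥L ≃ₐ[K] ↥L) (zetaL L hζL) =
      zetaL L hζL ^ ((omegaL L r hζ hζL c : (ZMod p)ˣ) : ZMod p).val := by
  haveI : NeZero p := ⟨(Fact.out : p.Prime).ne_zero⟩
  exact ((isPrimitiveRoot_zetaL L hζ hζL).autToPow_spec K (c : ↥L ≃ₐ[K] ↥L)).symm

lemma omegaL_piL (g : G) : omegaL L r hζ hζL (piL L r g) = cyc r hζ g := by
  apply Units.ext
  apply pow_val_injective hζ
  rw [← cyc_spec r hζ g]
  have h1 := congrArg (fun x : ↥L => (x : Ω)) (omegaL_spec L r hζ hζL (piL L r g))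
  simp only [coe_piL, coe_resL] at h1
  have h2 : ((zetaL L hζL ^ ((omegaL L r hζ hζL (piL L r g) : (ZMod p)ˣ) : ZMod p).val : ↥L) : Ω) =
      ζ ^ ((omegaL L r hζ hζL (piL L r g) : (ZMod p)ˣ) : ZMod p).val := by
    rw [SubmonoidClass.coe_pow]
    rfl
  rw [← h2, ← h1]
  rfl

lemma rhoV_piL (g : G) : rhoV ↥L p ↥(imL L r) (piL L r g) = rhoL L r g := by
  apply LinearMap.ext
  intro v
  obtain ⟨x, rfl⟩ := VL.mk_surjective ↥L p v
  rfl

end Image

/-! ### the glue -/

section Main

variable {K Ω : Type} [Field K] [Field Ω] [Algebra K Ω] {p : ℕ} [Fact p.Prime]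
  {L : IntermediateField K Ω} [Normal K L]
  {G : Type} [Group G] {r : G →* (Ω ≃ₐ[K] Ω)} {𝒰 : LevelStructure G} {U : Subgroup G} [U.Normal]
  {ζ : Ω} (hζ : IsPrimitiveRoot ζ p) (hζL : ζ ∈ L) (h : KummerHyp p L r 𝒰 U ζ)

include hζL h in
lemma cyc_eq_one_of_mem {u : G} (hu : u ∈ U) : cyc r hζ u = 1 := by
  apply Units.ext
  apply pow_val_injective hζ
  rw [← cyc_spec r hζ u, h.fixL u hu ζ hζL, Units.val_one, ZMod.val_one, pow_one]

include h in
/-- ★ **(LEC-T), abstract form**: from the unit count (L6) over `C' = imL L r` (hypothesis `h6`,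
the shape of `UnitsCount.mult_twist_rhoV`) and Kummer theory (`h : KummerHyp …`). -/
theorem finrank_H1_eq_of_units (hker : ∀ g, (∀ x ∈ L, r g x = x) → g ∈ U)
    [U.FiniteIndex] (A : Rep.{0} (ZMod p) G) [IsDiscrete 𝒰 A] [Module.Finite (ZMod p) A]
    (hUA : ∀ u ∈ U, A.ρ u = 1) (hUo : ∃ W ∈ 𝒰.sets, W ≤ U) (hcop : Nat.Coprime p U.index)
    (χ : G →* (ZMod p)ˣ) (hχ : ∀ g, χ g = cyc r hζ g) [IsDiscrete 𝒰 (A.dualTwist χ)] (m : ℕ)
    (h6 : ∀ ρZ : Representation (ZMod p) ↥(imL L r) A,
      mult ρZ (twist (rhoV ↥L p ↥(imL L r)) (omegaL L r hζ hζL)⁻¹) =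
        finrank (ZMod p) ρZ.invariants +
          finrank (ZMod p) (twist ρZ (omegaL L r hζ hζL)⁻¹).invariants +
          m * finrank (ZMod p) A) :
    finrank (ZMod p) (levelCohomology 𝒰 A 1) =
      finrank (ZMod p) (levelCohomology 𝒰 A 0) +
        finrank (ZMod p) (levelCohomology 𝒰 (A.dualTwist χ) 0) + m * finrank (ZMod p) A := by
  have hχeq : χ = cyc r hζ := MonoidHom.ext hχ
  subst hχeq
  have hχU : ∀ u ∈ U, cyc r hζ u = 1 := fun u hu => cyc_eq_one_of_mem hζ hζL h hu
  have hkerπ : ∀ g, piL L r g = 1 → A.ρ g = 1 :=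
    fun g hg => hUA g (hker g ((piL_eq_one_iff L r g).1 hg))
  set σA : Representation (ZMod p) ↥(imL L r) A :=
    descend (piL L r) (piL_surjective L r) A.ρ hkerπ with hσAdef
  have hσA : ∀ g, σA (piL L r g) = A.ρ g := descend_apply _ _ _ _
  rw [finrank_H1_eq_mult 𝒰 U A hUA hUo hcop, finrank_H0_eq 𝒰 U A hUA,
    finrank_H0_dualTwist_eq 𝒰 U A hUA (cyc r hζ) hχU hcop]
  have e1 : mult A.ρ (homLevRep (k := ZMod p) 𝒰 U) =
      mult A.ρ (twist (rhoL L r) (cyc r hζ)⁻¹) :=
    (mult_congr_right A.ρ _ _ (kummerEquiv hζ hζL h)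
      (fun g v => kummerEquiv_twist hζ hζL h g v)).symm
  have e2 : mult A.ρ (twist (rhoL L r) (cyc r hζ)⁻¹) =
      mult σA (twist (rhoV ↥L p ↥(imL L r)) (omegaL L r hζ hζL)⁻¹) :=
    mult_eq_of_surjective (piL L r) (piL_surjective L r) _ _ _ _ hσA (fun g => by
      apply LinearMap.ext
      intro v
      rw [twist_apply, twist_apply, rhoV_piL, MonoidHom.inv_apply, MonoidHom.inv_apply,
        omegaL_piL])
  rw [e1, e2, h6 σA]
  have i1 : σA.invariants = (quotRep U A.ρ hUA).invariants := by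
    rw [invariants_eq_of_surjective (piL L r) (piL_surjective L r) A.ρ σA hσA, invariants_quotRep]
  have i2 : (twist σA (omegaL L r hζ hζL)⁻¹).invariants =
      (twist (quotRep U A.ρ hUA) (quotChar U (cyc r hζ) hχU)⁻¹).invariants := by
    rw [invariants_eq_of_surjective (piL L r) (piL_surjective L r) (twist A.ρ (cyc r hζ)⁻¹)
        (twist σA (omegaL L r hζ hζL)⁻¹) (fun g => by
          apply LinearMap.ext
          intro v
          rw [twist_apply, twist_apply, hσA, MonoidHom.inv_apply, MonoidHom.inv_apply,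
            omegaL_piL]),
      invariants_eq_of_surjective (QuotientGroup.mk' U) (QuotientGroup.mk'_surjective U)
        (twist A.ρ (cyc r hζ)⁻¹) (twist (quotRep U A.ρ hUA) (quotChar U (cyc r hζ) hχU)⁻¹)
        (fun g => by
          apply LinearMap.ext
          intro v
          rfl)]
  rw [i1, i2]

end Main

end

end Fermat.Agent.S56.Loc.EC.CharGlue
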