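/-
S56 / block (E), leaf LEC (L7), generic part (helper15): **the local Euler characteristic defect of a
coinduced representation**.

Setting: a group `G` with a level structure `𝒰`, a character `χ` with one-sided local duality
(`LocalDuality.MonoDuality 𝒰 χ t`) and finiteness of `H¹` (`LocalDuality.FiniteH1 𝒰`), an OPEN
subgroup `V ≤ G` and a finite dimensional representation `B` of `V`, discrete for `𝒰.restrict V`.

* `coindEvalEquiv V B : Coind_V^G B ≃ₗ (G ⧸ V → B)` (evaluation at inverses of coset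
  representatives), `finrank_coind : dim Coind_V^G B = [G : V] · dim B`;
* `finrank_coind_eq n : hⁿ(G, Coind_V^G B) = hⁿ(V, B)` (S55 Shapiro `levelShIso`);
* `finrank_coind_two : h²(G, Coind_V^G B) = h⁰(V, B')`, `B' = B.dualTwist (χ|_V)` (local duality
  `H² ≅ (H⁰ of the dual)^*` over `G` + S55 `CoindDual.coindDualTwistIso` + Shapiro in degree `0`);
* **`eulerL_coind`** : `eulerL 𝒰 (Coind_V^G B) = h⁰(V,B) − h¹(V,B) + h⁰(V,B') + [G:V]·dim B`;
* **`eulerL_coind_eq_zero`**, **`eulerL_coindRes_eq_zero`** : the consumer form of (LEC-T): if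
  `h¹(V,B) = h⁰(V,B) + h⁰(V,B') + [G:V]·dim B` then `eulerL 𝒰 (Coind_V^G B) = 0`
  (resp. for `coindRes V Z`, `B = Res_V Z`).
-/
import Mathlib
import Fermat.Agent.S55.LevelShapiro
import Fermat.Agent.S55.CoindDual
import Fermat.Agent.S56.Loc.EulerP.Additive

set_option autoImplicit false
set_option linter.unusedSectionVars false

namespace Fermat.Agent.S56.Loc.EC.ShapiroEuler

open CategoryTheory groupCohomology Rep Module Fermat.Agent.S55.Level Fermat.Agent.S55.Cone
  Fermat.Agent.S55.DualTwist Fermat.Agent.S55.LevelDuality Fermat.Agent.S55.CoindPairing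
  Fermat.Agent.S56.PT.LocalDuality Fermat.Agent.S56.Loc.EulerP.Additive

universe u

/-! ### The dimension of a coinduced representation -/

section Dim

variable {k G : Type u} [CommRing k] [Group G] (V : Subgroup G) (B : Rep.{u} k V)

lemma mul_out_mem (x : G) : x * (QuotientGroup.mk x⁻¹ : G ⧸ V).out ∈ V := by
  have h : (QuotientGroup.mk x⁻¹ : G ⧸ V) = QuotientGroup.mk (QuotientGroup.mk x⁻¹ : G ⧸ V).out :=
    (QuotientGroup.out_eq' _).symm
  have := QuotientGroup.eq.1 h
  rwa [inv_inv] at this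

/-- Evaluation of a coinduced function at the inverses of the chosen coset representatives. -/
noncomputable def coindEval : (Rep.coind V.subtype B).V →ₗ[k] (G ⧸ V → B) where
  toFun f q := f.1 (q.out)⁻¹
  map_add' _ _ := rfl
  map_smul' _ _ := rfl

lemma coindEval_apply (f : (Rep.coind V.subtype B).V) (q : G ⧸ V) :
    coindEval V B f q = f.1 (q.out)⁻¹ := rfl

lemma coind_apply_eq (f : (Rep.coind V.subtype B).V) (x : G) :
    f.1 x = B.ρ ⟨x * (QuotientGroup.mk x⁻¹ : G ⧸ V).out, mul_out_mem V x⟩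
      (f.1 ((QuotientGroup.mk x⁻¹ : G ⧸ V).out)⁻¹) := by
  have h := f.2 ⟨x * (QuotientGroup.mk x⁻¹ : G ⧸ V).out, mul_out_mem V x⟩
    ((QuotientGroup.mk x⁻¹ : G ⧸ V).out)⁻¹
  rw [← h]
  simp

lemma coindEval_injective : Function.Injective (coindEval V B) := by
  rw [← LinearMap.ker_eq_bot, LinearMap.ker_eq_bot']
  intro f hf
  refine Subtype.ext (funext fun x => ?_)
  rw [coind_apply_eq V B f x]
  have : f.1 ((QuotientGroup.mk x⁻¹ : G ⧸ V).out)⁻¹ = 0 := congrFun hf _
  rw [this, map_zero]
  rfl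

/-- the coinduced function with prescribed values at the inverses of the representatives -/
noncomputable def coindOfFun (F : G ⧸ V → B) : (Rep.coind V.subtype B).V :=
  ⟨fun x => B.ρ ⟨x * (QuotientGroup.mk x⁻¹ : G ⧸ V).out, mul_out_mem V x⟩
      (F (QuotientGroup.mk x⁻¹)), by
    intro v x
    have hq : (QuotientGroup.mk ((V.subtype v) * x)⁻¹ : G ⧸ V) = QuotientGroup.mk x⁻¹ := by
      rw [QuotientGroup.eq]
      simp
    show B.ρ ⟨(V.subtype v) * x * (QuotientGroup.mk ((V.subtype v) * x)⁻¹ : G ⧸ V).out, _⟩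
        (F (QuotientGroup.mk ((V.subtype v) * x)⁻¹)) =
      B.ρ v (B.ρ ⟨x * (QuotientGroup.mk x⁻¹ : G ⧸ V).out, _⟩ (F (QuotientGroup.mk x⁻¹)))
    rw [← Module.End.mul_apply, ← map_mul]
    have key : ∀ (q q' : G ⧸ V) (hqq : q = q') (h1 : (V.subtype v) * x * q.out ∈ V)
        (h2 : x * q'.out ∈ V),
        B.ρ ⟨(V.subtype v) * x * q.out, h1⟩ (F q) = B.ρ (v * ⟨x * q'.out, h2⟩) (F q') := by
      intro q q' hqq h1 h2
      subst hqq
      congr 2
      apply Subtype.ext
      simp [mul_assoc]
    exact key _ _ hq _ _⟩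

lemma coindEval_coindOfFun (F : G ⧸ V → B) : coindEval V B (coindOfFun V B F) = F := by
  funext q
  show B.ρ ⟨(q.out)⁻¹ * (QuotientGroup.mk ((q.out)⁻¹)⁻¹ : G ⧸ V).out, _⟩
    (F (QuotientGroup.mk ((q.out)⁻¹)⁻¹)) = F q
  have hq : (QuotientGroup.mk ((q.out)⁻¹)⁻¹ : G ⧸ V) = q := by
    rw [inv_inv]; exact QuotientGroup.out_eq' q
  have key : ∀ (q' : G ⧸ V) (hqq : q' = q) (h1 : (q.out)⁻¹ * q'.out ∈ V),
      B.ρ ⟨(q.out)⁻¹ * q'.out, h1⟩ (F q') = F q := by
    intro q' hqq h1
    subst hqq
    have : (⟨(q'.out)⁻¹ * q'.out, h1⟩ : V) = 1 := Subtype.ext (by simp)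
    rw [this, map_one]
    rfl
  exact key _ hq _

lemma coindEval_surjective : Function.Surjective (coindEval V B) :=
  fun F => ⟨coindOfFun V B F, coindEval_coindOfFun V B F⟩

/-- `Coind_V^G B ≃ (G ⧸ V → B)`, evaluation at the inverses of coset representatives. -/
noncomputable def coindEvalEquiv : (Rep.coind V.subtype B).V ≃ₗ[k] (G ⧸ V → B) :=
  LinearEquiv.ofBijective (coindEval V B) ⟨coindEval_injective V B, coindEval_surjective V B⟩

end Dim

section DimField

variable {k G : Type u} [Field k] [Group G] (V : Subgroup G) [V.FiniteIndex] (B : Rep.{u} k V)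
  [FiniteDimensional k B]

/-- **`dim Coind_V^G B = [G : V] · dim B`.** -/
theorem finrank_coind : finrank k (Rep.coind V.subtype B) = V.index * finrank k B := by
  classical
  have : Fintype (G ⧸ V) := Fintype.ofFinite _
  rw [LinearEquiv.finrank_eq (coindEvalEquiv V B), Module.finrank_pi_fintype, Finset.sum_const,
    Finset.card_univ, smul_eq_mul, Subgroup.index, Nat.card_eq_fintype_card]

instance finiteDimensional_coind : FiniteDimensional k (Rep.coind V.subtype B) :=
  haveI : Finite (G ⧸ V) := inferInstance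
  Module.Finite.equiv (coindEvalEquiv V B).symm

end DimField

/-! ### The cohomology of a coinduced representation -/

section Coh

variable {k G : Type u} [Field k] [Group G] (𝒰 : LevelStructure G) (V : Subgroup G)
  [IsOpenSub 𝒰 V] (B : Rep.{u} k V) [IsDiscrete (𝒰.restrict V) B]

/-- **Shapiro, numerically**: `hⁿ(G, Coind_V^G B) = hⁿ(V, B)`. -/
theorem finrank_coind_eq (n : ℕ) :
    finrank k (levelCohomology 𝒰 (Rep.coind V.subtype B) n) =
      finrank k (levelCohomology (𝒰.restrict V) B n) :=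
  LinearEquiv.finrank_eq (levelShIso 𝒰 V B n).toLinearEquiv

variable {𝒰} {χ : G →* kˣ} [IsDiscrete 𝒰 (ofChar χ)]
  {t : levelCohomology 𝒰 (ofChar χ) 2 →ₗ[k] k}

/-- `k(χ|_V)` is discrete for the restricted level structure. -/
theorem isDiscrete_ofChar_restrict :
    IsDiscrete (𝒰.restrict V) (ofChar (χ.comp V.subtype)) :=
  isDiscrete_res_of_refines 𝒰 V.subtype (𝒰.restrict_refines V) (ofChar χ)

variable [FiniteDimensional k B] [IsDiscrete (𝒰.restrict V) (B.dualTwist (χ.comp V.subtype))]

/-- **`h²(G, Coind_V^G B) = h⁰(V, B')`**, `B' = B.dualTwist (χ|_V)`. -/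
theorem finrank_coind_two (hΨ : MonoDuality 𝒰 χ t) :
    finrank k (levelCohomology 𝒰 (Rep.coind V.subtype B) 2) =
      finrank k (levelCohomology (𝒰.restrict V) (B.dualTwist (χ.comp V.subtype)) 0) := by
  have : V.FiniteIndex := IsOpenSub.finiteIndex (𝒰 := 𝒰)
  have : IsDiscrete 𝒰 ((Rep.coind V.subtype B).dualTwist χ) := isDiscrete_dualTwist 𝒰 χ _
  rw [finrank_two_eq_zero hΨ (Rep.coind V.subtype B),
    ← finrank_coind_eq 𝒰 V (B.dualTwist (χ.comp V.subtype)) 0]
  exact (LinearEquiv.finrank_eq (LinearEquiv.ofBijective _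
    (lmap_bijective_of_iso 𝒰 (coindDualTwistIso V χ B) 0))).symm

/-- **The local Euler characteristic defect of a coinduced representation**:
`eulerL(Coind_V^G B) = h⁰(V,B) − h¹(V,B) + h⁰(V,B') + [G:V]·dim B`. -/
theorem eulerL_coind (hΨ : MonoDuality 𝒰 χ t) :
    eulerL 𝒰 (Rep.coind V.subtype B) =
      (finrank k (levelCohomology (𝒰.restrict V) B 0) : ℤ) -
        finrank k (levelCohomology (𝒰.restrict V) B 1) +
        finrank k (levelCohomology (𝒰.restrict V) (B.dualTwist (χ.comp V.subtype)) 0) +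
        V.index * finrank k B := by
  have : V.FiniteIndex := IsOpenSub.finiteIndex (𝒰 := 𝒰)
  unfold eulerL
  rw [finrank_coind_eq 𝒰 V B 0, finrank_coind_eq 𝒰 V B 1, finrank_coind_two V B hΨ,
    finrank_coind V B]
  push_cast
  ring

/-- **Consumer form of (LEC-T)**: the Euler characteristic formula over the open subgroup `V`
(`h¹ = h⁰ + h⁰(dual) + [G:V]·dim`) kills `eulerL` of the coinduced representation. -/
theorem eulerL_coind_eq_zero (hΨ : MonoDuality 𝒰 χ t)
    (h : finrank k (levelCohomology (𝒰.restrict V) B 1) =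
      finrank k (levelCohomology (𝒰.restrict V) B 0) +
        finrank k (levelCohomology (𝒰.restrict V) (B.dualTwist (χ.comp V.subtype)) 0) +
        V.index * finrank k B) :
    eulerL 𝒰 (Rep.coind V.subtype B) = 0 := by
  rw [eulerL_coind V B hΨ, h]
  push_cast
  ring

end Coh

/-! ### The case `B = Res_V Z` (`coindRes V Z`) -/

section CoindRes

variable {k G : Type u} [Field k] [Group G] {𝒰 : LevelStructure G} (V : Subgroup G)
  [IsOpenSub 𝒰 V] {χ : G →* kˣ} [IsDiscrete 𝒰 (ofChar χ)]
  {t : levelCohomology 𝒰 (ofChar χ) 2 →ₗ[k] k} (Z : Rep.{u} k G) [IsDiscrete 𝒰 Z]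
  [FiniteDimensional k Z]

/-- The restriction of a discrete representation to an open subgroup is discrete. -/
theorem isDiscrete_res_restrict : IsDiscrete (𝒰.restrict V) (Rep.res V.subtype Z) :=
  isDiscrete_res_of_refines 𝒰 V.subtype (𝒰.restrict_refines V) Z

/-- The twisted dual of the restriction to an open subgroup is discrete. -/
theorem isDiscrete_res_dualTwist_restrict :
    IsDiscrete (𝒰.restrict V) ((Rep.res V.subtype Z).dualTwist (χ.comp V.subtype)) :=
  have := isDiscrete_ofChar_restrict (𝒰 := 𝒰) (χ := χ) V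
  have := isDiscrete_res_restrict (𝒰 := 𝒰) V Z
  isDiscrete_dualTwist (𝒰.restrict V) (χ.comp V.subtype) _

/-- **Consumer form of (LEC-T) for `coindRes V Z = Coind_V^G Res_V Z`.** -/
theorem eulerL_coindRes_eq_zero (hΨ : MonoDuality 𝒰 χ t)
    [IsDiscrete (𝒰.restrict V) (Rep.res V.subtype Z)]
    [IsDiscrete (𝒰.restrict V) ((Rep.res V.subtype Z).dualTwist (χ.comp V.subtype))]
    (h : finrank k (levelCohomology (𝒰.restrict V) (Rep.res V.subtype Z) 1) =
      finrank k (levelCohomology (𝒰.restrict V) (Rep.res V.subtype Z) 0) +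
        finrank k (levelCohomology (𝒰.restrict V)
          ((Rep.res V.subtype Z).dualTwist (χ.comp V.subtype)) 0) +
        V.index * finrank k Z) :
    eulerL 𝒰 (Rep.coind V.subtype (Rep.res V.subtype Z)) = 0 :=
  haveI : FiniteDimensional k (Rep.res V.subtype Z) := ‹FiniteDimensional k Z›
  eulerL_coind_eq_zero V (Rep.res V.subtype Z) hΨ h

end CoindRes

/-! ### The instance: the local Galois groups -/

section Local

open ExtCitation Fermat.Agent.S55.Assembly

variable {p : ℕ} [Fact p.Prime]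

/-- **(LEC-T) ⇒ `eulerL = 0` on coinduced modules, at the local group `G_q`** (`p` odd). -/
theorem eulerL_coind_eq_zero_local (hp2 : p ≠ 2) (q : Nat.Primes)
    (V : Subgroup (primeLocalGaloisGroup q)) [IsOpenSub (localLevel (primeLocalToGlobal q)) V]
    (B : Rep (ZMod p) V) [IsDiscrete ((localLevel (primeLocalToGlobal q)).restrict V) B]
    [FiniteDimensional (ZMod p) B]
    [IsDiscrete ((localLevel (primeLocalToGlobal q)).restrict V)
      (B.dualTwist (((cycloChar p).comp (primeLocalToGlobal q)).comp V.subtype))]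
    (h : finrank (ZMod p) (levelCohomology ((localLevel (primeLocalToGlobal q)).restrict V) B 1) =
      finrank (ZMod p) (levelCohomology ((localLevel (primeLocalToGlobal q)).restrict V) B 0) +
        finrank (ZMod p) (levelCohomology ((localLevel (primeLocalToGlobal q)).restrict V)
          (B.dualTwist (((cycloChar p).comp (primeLocalToGlobal q)).comp V.subtype)) 0) +
        V.index * finrank (ZMod p) B) :
    eulerL (localLevel (primeLocalToGlobal q)) (Rep.coind V.subtype B) = 0 := by
  obtain ⟨_, t, hΨ, -⟩ := exists_monoDuality_local (p := p) hp2 q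
  exact eulerL_coind_eq_zero V B hΨ h

end Local

end Fermat.Agent.S56.Loc.EC.ShapiroEuler
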