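/-
S56 / E-ECp / (L6-inst) (helper26): the regular representation contains every representation `N`
exactly `dim N` times: `mult_permRep_self : mult ρN (permRep k C C) = finrank k N`
(`(N ⊗ k[C])^C ≅ N`, `f ↦ f(1)`; any field `k`, any finite group `C`, no condition on `|C|`).
-/
import Mathlib
import Fermat.Agent.S56.GEC.Equivariant.Mult

set_option autoImplicit false
set_option linter.unusedSectionVars false
set_option linter.style.haveILetI false

namespace Fermat.Agent.S56.Loc.EC.MultRegular

open Fermat.Agent.S56.GEC.Equivariant.Mult Module TensorProduct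

variable {k : Type*} [Field k] {C : Type*} [Group C] {N : Type*} [AddCommGroup N] [Module k N]

open scoped Classical in
/-- the iso `N ⊗ k[C] ≃ (C →₀ N)` -/
noncomputable def eR (k : Type*) [Field k] (C : Type*) (N : Type*) [AddCommGroup N] [Module k N] :
    N ⊗[k] (C →₀ k) ≃ₗ[k] (C →₀ N) := TensorProduct.finsuppScalarRight k k N C

theorem eR_tmul_apply (n : N) (f : C →₀ k) (c : C) : eR k C N (n ⊗ₜ[k] f) c = f c • n := by
  classical
  rw [eR]
  convert TensorProduct.finsuppScalarRight_apply_tmul_apply (R := k) (S := k) n f c

theorem eR_tprod (ρN : Representation k C N) (h c : C) (t : N ⊗[k] (C →₀ k)) :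
    eR k C N ((ρN.tprod (permRep k C C)) h t) (h * c) = ρN h (eR k C N t c) := by
  classical
  induction t using TensorProduct.induction_on with
  | zero => simp
  | add a b ha hb => simp only [map_add, Finsupp.add_apply, ha, hb]
  | tmul n f =>
    induction f using Finsupp.induction_linear with
    | zero => simp
    | add f g hf hg =>
      simp only [TensorProduct.tmul_add, map_add, Finsupp.add_apply, hf, hg]
    | single c' r =>
      rw [Representation.tprod_apply, TensorProduct.map_tmul, permRep_single, eR_tmul_apply,
        eR_tmul_apply]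
      by_cases hc : c' = c
      · subst hc
        simp
      · have : h * c' ≠ h * c := fun h' => hc (mul_left_cancel h')
        simp [hc, this]

/-- **`mult N k[C] = dim N`**: the regular representation contains every `N` exactly `dim N` times. -/
theorem mult_permRep_self [Fintype C] (ρN : Representation k C N) :
    mult ρN (permRep k C C) = finrank k N := by
  classical
  set ρ := ρN.tprod (permRep k C C) with hρ
  -- evaluation at `1`
  let ψ : ρ.invariants →ₗ[k] N :=
    (Finsupp.lapply (1 : C)) ∘ₗ (eR k C N).toLinearMap ∘ₗ ρ.invariants.subtype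
  have hψ : ∀ t : ρ.invariants, ψ t = eR k C N (t : N ⊗[k] (C →₀ k)) 1 := fun t => rfl
  have hinv : ∀ (t : ρ.invariants) (h : C), eR k C N (t : N ⊗[k] (C →₀ k)) h = ρN h (ψ t) := by
    intro t h
    have h1 := eR_tprod ρN h 1 (t : N ⊗[k] (C →₀ k))
    rw [mul_one, t.2 h] at h1
    exact h1
  have hinj : Function.Injective ψ := by
    rw [injective_iff_map_eq_zero]
    intro t ht
    apply Subtype.ext
    apply (eR k C N).injective
    rw [Submodule.coe_zero, map_zero]
    ext h
    rw [hinv t h, ht, map_zero, Finsupp.zero_apply]
  have hsurj : Function.Surjective ψ := by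
    intro n
    set f : C →₀ N := ∑ g : C, Finsupp.single g (ρN g n) with hf
    have hfa : ∀ c : C, f c = ρN c n := by
      intro c
      rw [hf, Finsupp.finsetSum_apply]
      simp [Finsupp.single_apply]
    set t : N ⊗[k] (C →₀ k) := (eR k C N).symm f with ht
    have hmem : t ∈ ρ.invariants := by
      intro h
      apply (eR k C N).injective
      ext c
      have h1 := eR_tprod ρN h (h⁻¹ * c) t
      rw [mul_inv_cancel_left] at h1
      rw [h1, ht, LinearEquiv.apply_symm_apply, hfa, hfa, ← Module.End.mul_apply, ← map_mul,
        mul_inv_cancel_left]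
    refine ⟨⟨t, hmem⟩, ?_⟩
    rw [hψ]
    show eR k C N t 1 = n
    rw [ht, LinearEquiv.apply_symm_apply, hfa, map_one, Module.End.one_apply]
  exact (LinearEquiv.ofBijective ψ ⟨hinj, hsurj⟩).finrank_eq

end Fermat.Agent.S56.Loc.EC.MultRegular
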