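/-
S56 / E-ECp / (L6-inst) (helper26): the equivariant unit count for a finite Galois extension `L/ℚ_p`
and a subgroup `C' ≤ Gal(L/ℚ_p)` of order prime to `p`, in `mult` form.

Instance of helper5's abstract count `Units.f_units_mod_p` at `B := integralClosure ℤ_[p] L`
(`OL p L`), `K := L`, with the additive invariant `multInv hC ρN` (helper13).  Main results:

* `mult_rhoV` : `mult N (Lˣ/(Lˣ)^p) = dim N^{C'} + mult N 𝔽_p(ω) + (Gal(L/ℚ_p) : C') · dim N`;
* `mult_twist_rhoV` : the same count for the twist `(Lˣ/(Lˣ)^p) ⊗ ω⁻¹`;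
* `finite_VL` : `Lˣ/(Lˣ)^p` is finite;
* `card_fixed_quotient` : `|𝒪_L^{C'} / p| = p ^ (Gal(L/ℚ_p) : C')`;
* `f_triv`, `f_reg`, `f_quot_MK`, `f_ker_MK` : the four terms of the count, evaluated for `multInv`.
-/
import Mathlib
import Fermat.Agent.S55.Local.CompleteDVR
import Fermat.Agent.S55.Local.PowerIndex2
import Fermat.Agent.S55.GL.LocalIndex
import Fermat.Agent.S56.Loc.EC.UnitsRep
import Fermat.Agent.S56.Loc.EC.MultRegular
import Fermat.Agent.S56.Loc.EC.Units.Main
import Fermat.Agent.S56.GEC.Equivariant.MultTorsion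

set_option autoImplicit false
set_option linter.unusedSectionVars false
set_option linter.style.haveILetI false

namespace Fermat.Agent.S56.Loc.EC.UnitsCount

open IsLocalRing Fermat.Agent.S55.Local
open Fermat.Agent.S56.Loc.EC.UnitsRep Fermat.Agent.S56.Loc.EC.Units
  Fermat.Agent.S56.GEC.Equivariant.Mult
  Fermat.Agent.S56.GEC.Equivariant.MultTorsion Fermat.Agent.S56.GEC.Induction

attribute [local instance] Units.mulDistribMulActionRight

section Transport

variable {R : Type} [Ring R] {p : ℕ} (F : AddInv R p)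
variable {M M' : Type} [AddCommGroup M] [Module R M] [AddCommGroup M'] [Module R M']

/-- `M/p ≃ M'/p` from `M ≃ M'`. -/
noncomputable def quotPEquiv (e : M ≃ₗ[R] M') :
    (M ⧸ LinearMap.range (pMul R p M)) ≃ₗ[R] (M' ⧸ LinearMap.range (pMul R p M')) :=
  Submodule.Quotient.equiv _ _ e (by
    ext y
    constructor
    · rintro ⟨_, ⟨x, rfl⟩, rfl⟩
      exact ⟨e x, by simp⟩
    · rintro ⟨x', rfl⟩
      exact ⟨p • e.symm x', ⟨e.symm x', rfl⟩, by simp⟩)

/-- `M[p] ≃ M'[p]` from `M ≃ M'`. -/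
noncomputable def kerPEquiv (e : M ≃ₗ[R] M') :
    LinearMap.ker (pMul R p M) ≃ₗ[R] LinearMap.ker (pMul R p M') :=
  e.ofSubmodules _ _ (by
    ext y
    constructor
    · rintro ⟨x, hx, rfl⟩
      have hx' : p • x = 0 := hx
      show p • e x = 0
      rw [← map_nsmul, hx', map_zero]
    · intro hy
      have hy' : p • y = 0 := hy
      refine ⟨e.symm y, ?_, by simp⟩
      show p • e.symm y = 0
      rw [← map_nsmul, hy', map_zero])

end Transport

section RepModAsModule

variable {C A : Type} [Group C] [AddCommGroup A]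

/-- `RepMod ρ` (helper5) and `ρQ.asModule` (Mathlib) are the same `ℤ[C]`-module when `ρ` and `ρQ` are
the same action. -/
noncomputable def repModEquiv (ρ : C →* AddMonoid.End A) (ρQ : Representation ℤ C A)
    (h : ∀ c a, ρ c a = ρQ c a) : RepMod ρ ≃ₗ[MonoidAlgebra ℤ C] ρQ.asModule :=
  LinearEquiv.ofBijective
    (linOfCommutes ((ρQ.asModuleEquiv.symm.toAddEquiv : A ≃+ ρQ.asModule).toAddMonoidHom.comp
      (RepMod.out ρ).toAddMonoidHom) (fun c m => by
        show ρQ.asModuleEquiv.symm (RepMod.out ρ (MonoidAlgebra.of ℤ C c • m)) =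
          MonoidAlgebra.of ℤ C c • ρQ.asModuleEquiv.symm (RepMod.out ρ m)
        rw [RepMod.of_smul, RepMod.out_mk, h, Representation.asModuleEquiv_symm_map_rho]))
    ⟨fun x y hxy => hxy, fun y => ⟨y, rfl⟩⟩

/-- an `𝔽_p`-representation as a `RepMod` -/
noncomputable def repModEquivInt {p : ℕ} [Fact p.Prime] {X : Type} [AddCommGroup X]
    [Module (ZMod p) X] (ρ : C →* AddMonoid.End X) (ρX : Representation (ZMod p) C X)
    (h : ∀ c a, ρ c a = ρX c a) : RepMod ρ ≃ₗ[MonoidAlgebra ℤ C] (intRep ρX).asModule :=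
  repModEquiv ρ (intRep ρX) h

end RepModAsModule

section Terms

variable {L : Type} [Field L] {p : ℕ} [Fact p.Prime] {G : Type} [Group G] [Fintype G]
  [MulSemiringAction G L] (hG : ¬ p ∣ Fintype.card G)
  {N : Type*} [AddCommGroup N] [Module (ZMod p) N] [FiniteDimensional (ZMod p) N]
  (ρN : Representation (ZMod p) G N)

theorem rhoUnits_eq (c : G) (a : Additive Lˣ) :
    rhoUnits G L c a = Representation.ofMulDistribMulAction G Lˣ c a := by
  apply congrArg Additive.ofMul
  exact Units.ext rfl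

/-- the trivial term -/
theorem f_triv : (multInv hG ρN).f (Triv G (ZMod p)) =
    (Module.finrank (ZMod p) ρN.invariants : ℤ) := by
  haveI : NeZero p := ⟨(Fact.out : p.Prime).ne_zero⟩
  rw [← (multInv hG ρN).iso (repModEquivInt (1 : G →* AddMonoid.End (ZMod p))
    (Representation.trivial (ZMod p) G (ZMod p)) (fun c a => rfl)).symm, multInv_f_asModule,
    mult_trivial_right]

/-- the regular term -/
theorem f_reg (ρreg : G →* AddMonoid.End (G →₀ ZMod p))
    (h : ∀ c f, ρreg c f = permRep (ZMod p) G G c f) :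
    (multInv hG ρN).f (RepMod ρreg) = (Module.finrank (ZMod p) N : ℤ) := by
  haveI : NeZero p := ⟨(Fact.out : p.Prime).ne_zero⟩
  haveI : Finite (G →₀ ZMod p) := Finite.of_equiv _ (Finsupp.equivFunOnFinite (α := G)
    (M := ZMod p)).symm
  rw [← (multInv hG ρN).iso (repModEquivInt ρreg (permRep (ZMod p) G G) h).symm,
    multInv_f_asModule, Fermat.Agent.S56.Loc.EC.MultRegular.mult_permRep_self]

/-- `Lˣ / (Lˣ)^p` with `rhoV` is a model of `Q / pQ` for `Q = Additive Lˣ`. -/
theorem isCotorsOf_rhoV (L : Type) [Field L] (p : ℕ) [Fact p.Prime] (G : Type) [Group G]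
    [MulSemiringAction G L] :
    IsCotorsOf (p := p) (Representation.ofMulDistribMulAction G Lˣ) (rhoV L p G) (VL.mk L p) where
  surj := VL.mk_surjective L p
  ker q hq := by
    obtain ⟨y, hy⟩ := VL.mk_eq_zero_iff.1 hq
    exact ⟨Additive.ofMul y, congrArg Additive.ofMul hy⟩
  comm c q := rfl

/-- `𝔽_p(ω)` is a model of `Q[p]` for `Q = Additive Lˣ`, when `ζ_p ∈ L`. -/
theorem isTorsOf_charRep {ζ : Lˣ} (hζ : IsPrimitiveRoot ζ p) (ω : G →* (ZMod p)ˣ)
    (hω : ∀ g : G, g • ζ = ζ ^ ((ω g : (ZMod p)ˣ) : ZMod p).val) :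
    IsTorsOf (p := p) (Representation.ofMulDistribMulAction G Lˣ) (charRep ω)
      (zetaHom ζ hζ.pow_eq_one) where
  inj := zetaHom_injective hζ
  surj q hq := exists_zetaHom_eq hζ hq
  comm c t := by
    rw [charRep_apply, Representation.ofMulDistribMulAction_apply_apply]
    exact (smul_zetaHom ζ hζ.pow_eq_one c _ (hω c) t).symm

/-- the term `Lˣ / p` -/
theorem f_quot_MK [Finite (VL L p)] :
    (multInv hG ρN).f (MK G L ⧸ LinearMap.range (pMul (MonoidAlgebra ℤ G) p (MK G L))) =
      (mult ρN (rhoV L p G) : ℤ) := by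
  have hK := isCotorsOf_rhoV L p G
  have e₀ := repModEquiv (rhoUnits G L) (Representation.ofMulDistribMulAction G Lˣ) rhoUnits_eq
  rw [← (multInv hG ρN).iso ((quotPEquiv (p := p) e₀).trans hK.equiv).symm, multInv_f_asModule]

/-- the term `Lˣ[p] = μ_p` -/
theorem f_ker_MK {ζ : Lˣ} (hζ : IsPrimitiveRoot ζ p) (ω : G →* (ZMod p)ˣ)
    (hω : ∀ g : G, g • ζ = ζ ^ ((ω g : (ZMod p)ˣ) : ZMod p).val) :
    (multInv hG ρN).f (LinearMap.ker (pMul (MonoidAlgebra ℤ G) p (MK G L))) =
      (mult ρN (charRep ω) : ℤ) := by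
  haveI : NeZero p := ⟨(Fact.out : p.Prime).ne_zero⟩
  have hT := isTorsOf_charRep hζ ω hω
  have e₀ := repModEquiv (rhoUnits G L) (Representation.ofMulDistribMulAction G Lˣ) rhoUnits_eq
  rw [← (multInv hG ρN).iso (hT.equiv.trans (kerPEquiv (p := p) e₀).symm), multInv_f_asModule]

end Terms


/-- `Lˣ / (Lˣ)^p` is finite for a finite extension `L` of `ℚ_p` containing `ζ_p`. -/
theorem finite_VL (p : ℕ) [Fact p.Prime] (L : Type) [Field L] [Algebra ℚ_[p] L]
    [FiniteDimensional ℚ_[p] L] {ζ : L} (hζ : IsPrimitiveRoot ζ p) : Finite (VL L p) := by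
  have h1 := Fermat.Agent.S55.GL.LocalIndex.index_range_pow_units p L (Fact.out : p.Prime) hζ
  have h2 : (pthPowers L p).index ≠ 0 := by
    rw [pthPowers, range_nsmul_additive, Subgroup.index_toAddSubgroup, h1]
    exact pow_ne_zero _ (Fact.out : p.Prime).ne_zero
  haveI : (pthPowers L p).FiniteIndex := ⟨h2⟩
  exact AddSubgroup.finite_quotient_of_finiteIndex


section Package

variable (p : ℕ) [Fact p.Prime] (L : Type) [Field L] [Algebra ℚ_[p] L]

/-- The `ℤ_p`-algebra structure of a `ℚ_p`-algebra. -/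
@[reducible] noncomputable def algInt : Algebra ℤ_[p] L :=
  ((algebraMap ℚ_[p] L).comp (algebraMap ℤ_[p] ℚ_[p])).toAlgebra

attribute [local instance] algInt

theorem isScalarTower_algInt : IsScalarTower ℤ_[p] ℚ_[p] L := IsScalarTower.of_algebraMap_eq' rfl

attribute [local instance] isScalarTower_algInt

/-- The ring of integers of `L`. -/
noncomputable abbrev OL : Subalgebra ℤ_[p] L := integralClosure ℤ_[p] L

variable [FiniteDimensional ℚ_[p] L]

theorem isLocalRing_OL : IsLocalRing (OL p L) :=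
  haveI : CharZero L := charZero_of_injective_algebraMap (algebraMap ℚ_[p] L).injective
  isLocalRing_of_isIntegralClosure ℤ_[p] ℚ_[p] L (OL p L)

attribute [local instance] isLocalRing_OL

theorem isDVR_OL : IsDiscreteValuationRing (OL p L) :=
  haveI : CharZero L := charZero_of_injective_algebraMap (algebraMap ℚ_[p] L).injective
  isDiscreteValuationRing_of_isIntegralClosure ℤ_[p] ℚ_[p] L (OL p L)

attribute [local instance] isDVR_OL

theorem isAdicComplete_OL : IsAdicComplete (maximalIdeal (OL p L)) (OL p L) :=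
  haveI : CharZero L := charZero_of_injective_algebraMap (algebraMap ℚ_[p] L).injective
  isAdicComplete_maximalIdeal_of_isIntegralClosure ℤ_[p] ℚ_[p] L (OL p L)

theorem finite_residueField_OL : Finite (ResidueField (OL p L)) :=
  haveI : CharZero L := charZero_of_injective_algebraMap (algebraMap ℚ_[p] L).injective
  finite_residueField_of_isIntegralClosure ℤ_[p] ℚ_[p] L (OL p L)

theorem isFractionRing_OL : IsFractionRing (OL p L) L :=
  haveI : CharZero L := charZero_of_injective_algebraMap (algebraMap ℚ_[p] L).injective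
  isFractionRing_of_isIntegralClosure ℤ_[p] ℚ_[p] L (OL p L)

attribute [local instance] isAdicComplete_OL finite_residueField_OL isFractionRing_OL

theorem natCast_OL : ((p : ℕ) : OL p L) = algebraMap ℤ_[p] (OL p L) (p : ℤ_[p]) :=
  (map_natCast _ p).symm

/-- `(p) = 𝔪 ^ e` with `e ≠ 0`. -/
theorem exists_span_natCast_eq_pow :
    ∃ e : ℕ, e ≠ 0 ∧ Ideal.span {((p : ℕ) : OL p L)} = maximalIdeal (OL p L) ^ e := by
  haveI : CharZero L := charZero_of_injective_algebraMap (algebraMap ℚ_[p] L).injective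
  obtain ⟨e, he0, he⟩ := exists_map_maximalIdeal_eq_pow ℤ_[p] ℚ_[p] L (OL p L)
  refine ⟨e, he0, ?_⟩
  rw [← he, PadicInt.maximalIdeal_eq_span_p, Ideal.map_span, Set.image_singleton, natCast_OL]

/-- `|𝒪_L / p| = p ^ [L : ℚ_p]`. -/
theorem card_quotient_span_natCast_OL :
    Nat.card (OL p L ⧸ Ideal.span {((p : ℕ) : OL p L)}) = p ^ Module.finrank ℚ_[p] L := by
  haveI : CharZero L := charZero_of_injective_algebraMap (algebraMap ℚ_[p] L).injective
  haveI : Module.Finite ℤ_[p] (OL p L) := finite_of_isIntegralClosure ℤ_[p] ℚ_[p] L (OL p L)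
  haveI : Module.Free ℤ_[p] (OL p L) := free_of_isIntegralClosure ℤ_[p] ℚ_[p] L (OL p L)
  have hrank : Module.finrank ℤ_[p] (OL p L) = Module.finrank ℚ_[p] L :=
    finrank_of_isIntegralClosure ℤ_[p] ℚ_[p] L (OL p L)
  rw [natCast_OL, Fermat.Agent.S55.GL.LocalIndex.card_quotient_span_algebraMap (R := ℤ_[p])
    (S := OL p L) PadicInt.maximalIdeal_eq_span_p,
    Fermat.Agent.S55.GL.LocalIndex.card_quotient_maximalIdeal_padicInt, hrank]

variable (C' : Subgroup (L ≃ₐ[ℚ_[p]] L))

theorem smulCommClass_algInt : SMulCommClass C' ℤ_[p] L where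
  smul_comm c z x := by
    show (c : L ≃ₐ[ℚ_[p]] L) (z • x) = z • (c : L ≃ₐ[ℚ_[p]] L) x
    rw [Algebra.smul_def, Algebra.smul_def, map_mul]
    congr 1
    exact (c : L ≃ₐ[ℚ_[p]] L).commutes _

attribute [local instance] smulCommClass_algInt

variable [IsGalois ℚ_[p] L]

theorem finrank_eq_index_mul_card :
    Module.finrank ℚ_[p] L = C'.index * Nat.card C' := by
  rw [Subgroup.index_mul_card, IsGalois.card_aut_eq_finrank]

/-- `[L^{C'} : ℚ_p] = (Gal(L/ℚ_p) : C')`. -/
theorem finrank_fixedField :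
    Module.finrank ℚ_[p] (IntermediateField.fixedField C') = C'.index := by
  have h1 := Module.finrank_mul_finrank ℚ_[p] (IntermediateField.fixedField C') L
  rw [IntermediateField.finrank_fixedField_eq_card, finrank_eq_index_mul_card p L C'] at h1
  have hpos : 0 < Nat.card C' := Nat.card_pos
  exact Nat.eq_of_mul_eq_mul_right hpos h1

/-- The fixed ring `𝒪_L^{C'}` is the ring of integers of the fixed field. -/
noncomputable def fixedRingEquiv :
    FixedPoints.subring (OL p L) C' ≃+* OL p (IntermediateField.fixedField C') where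
  toFun a := ⟨⟨((a : OL p L) : L), fun c => by
      have h := a.2 c
      exact congrArg (fun x : OL p L => (x : L)) h⟩, by
    have h1 : IsIntegral ℤ_[p] ((a : OL p L) : L) := (a : OL p L).2
    have hinj : Function.Injective (algebraMap (IntermediateField.fixedField C') L) :=
      (algebraMap (IntermediateField.fixedField C') L).injective
    haveI : IsScalarTower ℤ_[p] (IntermediateField.fixedField C') L :=
      IsScalarTower.of_algebraMap_eq' rfl
    exact (isIntegral_algebraMap_iff hinj).1 h1⟩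
  invFun x := ⟨⟨((x : IntermediateField.fixedField C') : L), by
      haveI : IsScalarTower ℤ_[p] (IntermediateField.fixedField C') L :=
        IsScalarTower.of_algebraMap_eq' rfl
      have hinj : Function.Injective (algebraMap (IntermediateField.fixedField C') L) :=
        (algebraMap (IntermediateField.fixedField C') L).injective
      exact (isIntegral_algebraMap_iff hinj).2 x.2⟩, fun c => by
    apply Subtype.ext
    exact (x : IntermediateField.fixedField C').2 c⟩
  left_inv a := rfl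
  right_inv x := rfl
  map_mul' a b := rfl
  map_add' a b := rfl

/-- `|𝒪_L^{C'} / p| = p ^ (Gal(L/ℚ_p) : C')`. -/
theorem card_fixed_quotient :
    Nat.card (FixedPoints.subring (OL p L) C' ⧸
      Ideal.span {((p : ℕ) : FixedPoints.subring (OL p L) C')}) = p ^ C'.index := by
  rw [← finrank_fixedField p L C', ← card_quotient_span_natCast_OL p (IntermediateField.fixedField C')]
  refine Nat.card_congr (Ideal.quotientEquiv _ _ (fixedRingEquiv p L C') ?_).toEquiv
  rw [Ideal.map_span, Set.image_singleton]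
  congr 2


theorem algebraMap_smul_OL (c : C') (b : OL p L) :
    algebraMap (OL p L) L (c • b) = c • algebraMap (OL p L) L b := rfl

theorem faithfulSMul_sub : FaithfulSMul C' L where
  eq_of_smul_eq_smul {c c'} h := by
    apply Subtype.ext
    apply AlgEquiv.ext
    exact h

/-- **(L6-inst) The equivariant unit count in `mult` form.** `L/ℚ_p` finite Galois, `ζ_p ∈ L`,
`C' ≤ Gal(L/ℚ_p)` of order prime to `p`, `ω : C' → 𝔽_pˣ` the cyclotomic character of `C'`: for every
finite-dimensional `𝔽_p`-representation `N` of `C'`,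
`mult N (Lˣ/(Lˣ)^p) = dim N^{C'} + mult N 𝔽_p(ω) + (Gal(L/ℚ_p) : C') · dim N`. -/
theorem mult_rhoV (hC : ¬ p ∣ Nat.card C')
    {N : Type*} [AddCommGroup N] [Module (ZMod p) N] [FiniteDimensional (ZMod p) N]
    (ρN : Representation (ZMod p) C' N) {ζ : L} (hζ : IsPrimitiveRoot ζ p)
    (ω : C' →* (ZMod p)ˣ)
    (hω : ∀ c : C', (c : L ≃ₐ[ℚ_[p]] L) ζ = ζ ^ ((ω c : (ZMod p)ˣ) : ZMod p).val) :
    mult ρN (rhoV L p C') = Module.finrank (ZMod p) ρN.invariants + mult ρN (charRep ω) +
      C'.index * Module.finrank (ZMod p) N := by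
  letI := Fintype.ofFinite C'
  have hC' : ¬ p ∣ Fintype.card C' := by rwa [← Nat.card_eq_fintype_card]
  have hp : p.Prime := Fact.out
  obtain ⟨e, _, hpe⟩ := exists_span_natCast_eq_pow p L
  haveI : Finite (VL L p) := finite_VL p L hζ
  haveI : FaithfulSMul C' L := faithfulSMul_sub p L C'
  have hζ0 : ζ ≠ 0 := hζ.ne_zero hp.ne_zero
  have hζu : IsPrimitiveRoot (Units.mk0 ζ hζ0) p := IsPrimitiveRoot.coe_units_iff.1 hζ
  have hωu : ∀ c : C', c • (Units.mk0 ζ hζ0) =
      (Units.mk0 ζ hζ0) ^ ((ω c : (ZMod p)ˣ) : ZMod p).val := fun c => by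
    apply Units.ext
    rw [Units.val_pow_eq_pow_val]
    exact hω c
  have key := f_units_mod_p (C := C') (B := OL p L) (K := L) (algebraMap_smul_OL p L C') hp hpe
    (multInv hC' ρN) (card_fixed_quotient p L C')
  rw [f_quot_MK hC' ρN, f_triv hC' ρN, f_ker_MK hC' ρN hζu ω hωu,
    f_reg hC' ρN (rhoPerm C' p) (fun c f => rfl)] at key
  exact_mod_cast key

/-- **(LEC-T) count form**: `mult Z ((Lˣ/p) ⊗ ω⁻¹) = dim Z^{C'} + dim (Z ⊗ ω⁻¹)^{C'} + (G : C') · dim Z`. -/
theorem mult_twist_rhoV (hC : ¬ p ∣ Nat.card C')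
    {Z : Type*} [AddCommGroup Z] [Module (ZMod p) Z] [FiniteDimensional (ZMod p) Z]
    (ρZ : Representation (ZMod p) C' Z) {ζ : L} (hζ : IsPrimitiveRoot ζ p)
    (ω : C' →* (ZMod p)ˣ)
    (hω : ∀ c : C', (c : L ≃ₐ[ℚ_[p]] L) ζ = ζ ^ ((ω c : (ZMod p)ˣ) : ZMod p).val) :
    mult ρZ (twist (rhoV L p C') ω⁻¹) = Module.finrank (ZMod p) ρZ.invariants +
      Module.finrank (ZMod p) (twist ρZ ω⁻¹).invariants +
      C'.index * Module.finrank (ZMod p) Z := by
  have h1 : (ω⁻¹ * ω : C' →* (ZMod p)ˣ) = 1 := inv_mul_cancel ω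
  rw [mult_twist, mult_rhoV p L C' hC (twist ρZ ω⁻¹) hζ ω hω, mult_charRep, twist_twist, h1,
    twist_one]
  have h2 : Module.finrank (ZMod p) (twist ρZ ω⁻¹).invariants +
      Module.finrank (ZMod p) ρZ.invariants = Module.finrank (ZMod p) ρZ.invariants +
      Module.finrank (ZMod p) (twist ρZ ω⁻¹).invariants := Nat.add_comm _ _
  rw [h2]

end Package


end Fermat.Agent.S56.Loc.EC.UnitsCount
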