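/-
S56 / block E (local terms), E-ECp = "LEC" chain (board #2515), leaf (LEC-T), concrete form
(helper9).

`K = ℚ_p`, `Ω = PadicAlgCl p`, `L/ℚ_p` finite Galois inside `Ω` containing a primitive `p`-th root
of unity `ζ`, `V ≤ Gal(Ω/ℚ_p)` a subgroup containing `G_L = L.fixingSubgroup` with `p ∤ [V : G_L]`,
`B` a finite dimensional discrete `𝔽_p[V]`-module on which `G_L` acts trivially.  Then

  `h¹(V, B) = h⁰(V, B) + h⁰(V, B.dualTwist χ) + [G : V] · dim B`            (`finrank_H1_eq_krull`)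

(`χ` the mod `p` cyclotomic character), from `CharGlue.finrank_H1_eq_of_units` ((L3) + (L4) + (L5a) +
(L7)), helper26's unit count `UnitsCount.mult_twist_rhoV` (L6) at `C' = ` the image of `V` in
`Gal(L/ℚ_p)`, and the Kummer hypotheses `KummerHyp` for `(V, G_L)` ((L5b), helper19's
`KummerInst.kummerHyp_sub`, here a named hypothesis `hK`).
-/
import Mathlib
import Fermat.Agent.S56.Loc.EC.CharGlue
import Fermat.Agent.S56.Loc.EC.UnitsCount
import Fermat.Agent.S55.GaloisLevel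
import Fermat.Agent.S55.LevelRestrict
import Fermat.Agent.S55.Local.KrullLocal
import Fermat.Agent.S56.Loc.EC.ShapiroEuler

set_option autoImplicit false
set_option linter.unusedSectionVars false
set_option linter.style.haveILetI false

namespace Fermat.Agent.S56.Loc.EC.CharCase

open groupCohomology Module Fermat.Agent.S55.Level Fermat.Agent.S55.DualTwist Fermat.Agent.S55.GaloisLevel
  Fermat.Agent.S56.Loc.EC.InfRes Fermat.Agent.S56.Loc.EC.HomTensorCore
  Fermat.Agent.S56.Loc.EC.UnitsRep Fermat.Agent.S56.GEC.Equivariant.Mult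
  Fermat.Agent.S56.Loc.EC.KummerHyp Fermat.Agent.S56.Loc.EC.KummerEq Fermat.Agent.S56.Loc.EC.LecT
  Fermat.Agent.S56.Loc.EC.CharGlue Fermat.Agent.S56.Loc.EC.UnitsCount

noncomputable section

attribute [local instance] Units.mulDistribMulActionRight

variable {p : ℕ} [Fact p.Prime]
  (L : IntermediateField ℚ_[p] (PadicAlgCl p)) [FiniteDimensional ℚ_[p] L] [IsGalois ℚ_[p] L]
  {ζ : PadicAlgCl p} (hζ : IsPrimitiveRoot ζ p) (hζL : ζ ∈ L)
  (V : Subgroup Gal(PadicAlgCl p/ℚ_[p]))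

/-- `G_L` is normal in `Gal(Ω/ℚ_p)` -/
instance normal_fixingSubgroup : L.fixingSubgroup.Normal :=
  (InfiniteGalois.normal_iff_isGalois L).2 inferInstance

/-- `G_L ∩ V` is normal in `V` -/
instance normal_subgroupOf : (L.fixingSubgroup.subgroupOf V).Normal :=
  Subgroup.normal_subgroupOf

/-- `G_L` has finite index -/
instance finiteIndex_fixingSubgroup : L.fixingSubgroup.FiniteIndex := by
  constructor
  rw [← IntermediateField.finrank_eq_fixingSubgroup_index]
  exact Module.finrank_pos.ne'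

lemma ker_resL : (resL L V.subtype).ker = L.fixingSubgroup.subgroupOf V := by
  ext g
  rw [MonoidHom.mem_ker, Subgroup.mem_subgroupOf, ← IntermediateField.restrictNormalHom_ker L,
    MonoidHom.mem_ker]
  rfl

lemma imL_eq_map : imL L V.subtype = V.map (AlgEquiv.restrictNormalHom (F := ℚ_[p])
    (K₁ := PadicAlgCl p) L) := by
  unfold imL resL
  rw [← MonoidHom.map_range, Subgroup.range_subtype]

lemma index_imL (hLV : L.fixingSubgroup ≤ V) : (imL L V.subtype).index = V.index := by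
  rw [imL_eq_map]
  apply Subgroup.index_map_eq
  · exact AlgEquiv.restrictNormalHom_surjective (PadicAlgCl p)
  · rw [IntermediateField.restrictNormalHom_ker L]
    exact hLV

lemma card_imL : Nat.card (imL L V.subtype) = (L.fixingSubgroup.subgroupOf V).index := by
  rw [← ker_resL, Subgroup.index_ker]
  rfl

include hζ hζL in
/-- ★ **(LEC-T), Krull form.** -/
theorem finrank_H1_eq_krull (hLV : L.fixingSubgroup ≤ V)
    (hK : KummerHyp p L V.subtype ((krullLevel ℚ_[p] (PadicAlgCl p)).restrict V)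
      (L.fixingSubgroup.subgroupOf V) ζ)
    (hcop : Nat.Coprime p (L.fixingSubgroup.subgroupOf V).index)
    (χ : Gal(PadicAlgCl p/ℚ_[p]) →* (ZMod p)ˣ)
    (hχ : ∀ g : Gal(PadicAlgCl p/ℚ_[p]), g ζ = ζ ^ ((χ g : (ZMod p)ˣ) : ZMod p).val)
    (B : Rep.{0} (ZMod p) ↥V) [IsDiscrete ((krullLevel ℚ_[p] (PadicAlgCl p)).restrict V) B]
    [FiniteDimensional (ZMod p) B]
    [IsDiscrete ((krullLevel ℚ_[p] (PadicAlgCl p)).restrict V) (B.dualTwist (χ.comp V.subtype))]
    (hB : ∀ u ∈ L.fixingSubgroup.subgroupOf V, B.ρ u = 1) :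
    finrank (ZMod p) (levelCohomology ((krullLevel ℚ_[p] (PadicAlgCl p)).restrict V) B 1) =
      finrank (ZMod p) (levelCohomology ((krullLevel ℚ_[p] (PadicAlgCl p)).restrict V) B 0) +
        finrank (ZMod p) (levelCohomology ((krullLevel ℚ_[p] (PadicAlgCl p)).restrict V)
          (B.dualTwist (χ.comp V.subtype)) 0) +
        V.index * finrank (ZMod p) B := by
  have hp : p.Prime := Fact.out
  have hC : ¬ p ∣ Nat.card (imL L V.subtype) := by
    rw [card_imL]
    exact (Nat.Prime.coprime_iff_not_dvd hp).1 hcop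
  refine finrank_H1_eq_of_units hζ hζL hK ?_ B hB ?_ hcop (χ.comp V.subtype) ?_ V.index ?_
  · -- `U` is the full stabiliser of `L`
    intro g hg
    rw [Subgroup.mem_subgroupOf, IntermediateField.mem_fixingSubgroup_iff]
    exact hg
  · -- `U` is open
    exact ⟨_, (krullLevel ℚ_[p] (PadicAlgCl p)).mem_restrict_sets V
      (fixingSubgroup_mem_krullLevel L), le_rfl⟩
  · -- `χ` is the cyclotomic character
    intro g
    apply Units.ext
    apply pow_val_injective hζ
    rw [← cyc_spec V.subtype hζ g]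
    exact (hχ (g : Gal(PadicAlgCl p/ℚ_[p]))).symm
  · -- the unit count (L6)
    intro ρZ
    rw [mult_twist_rhoV p ↥L (imL L V.subtype) hC ρZ (isPrimitiveRoot_zetaL L hζ hζL)
      (omegaL L V.subtype hζ hζL) (omegaL_spec L V.subtype hζ hζL), index_imL L V hLV]

include hζ hζL in
/-- (LEC-T) for a level structure equal to the Krull one. -/
theorem finrank_H1_eq_level (𝒲 : LevelStructure Gal(PadicAlgCl p/ℚ_[p]))
    (h𝒲 : 𝒲 = krullLevel ℚ_[p] (PadicAlgCl p)) (hLV : L.fixingSubgroup ≤ V)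
    (hK : KummerHyp p L V.subtype (𝒲.restrict V) (L.fixingSubgroup.subgroupOf V) ζ)
    (hcop : Nat.Coprime p (L.fixingSubgroup.subgroupOf V).index)
    (χ : Gal(PadicAlgCl p/ℚ_[p]) →* (ZMod p)ˣ)
    (hχ : ∀ g : Gal(PadicAlgCl p/ℚ_[p]), g ζ = ζ ^ ((χ g : (ZMod p)ˣ) : ZMod p).val)
    (B : Rep.{0} (ZMod p) ↥V) [IsDiscrete (𝒲.restrict V) B] [FiniteDimensional (ZMod p) B]
    [IsDiscrete (𝒲.restrict V) (B.dualTwist (χ.comp V.subtype))]
    (hB : ∀ u ∈ L.fixingSubgroup.subgroupOf V, B.ρ u = 1) :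
    finrank (ZMod p) (levelCohomology (𝒲.restrict V) B 1) =
      finrank (ZMod p) (levelCohomology (𝒲.restrict V) B 0) +
        finrank (ZMod p) (levelCohomology (𝒲.restrict V) (B.dualTwist (χ.comp V.subtype)) 0) +
        V.index * finrank (ZMod p) B := by
  subst h𝒲
  exact finrank_H1_eq_krull L hζ hζL V hLV hK hcop χ hχ B hB

/-! ### the Euler characteristic of the coinduced module -/

section Euler

open Fermat.Agent.S56.Loc.EulerP.Additive Fermat.Agent.S56.Loc.EC.ShapiroEuler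
  Fermat.Agent.S56.PT.LocalDuality

include hζ hζL in
/-- ★ **(LEC-T) ⇒ `eulerL = 0` on `Coind_V^G Res_V Z`** for `G_L ≤ V`, `p ∤ [V : G_L]`, `Z` trivial
on `G_L` (`G = Gal(Ω/ℚ_p)` with a level structure `𝒲` equal to the Krull one and a duality
character `χ` which is the mod `p` cyclotomic character): the cyclic case of the induction theorem,
in the shape of helper15's `Reduce.CyclicCase`. -/
theorem eulerL_coindRes_eq_zero (𝒲 : LevelStructure Gal(PadicAlgCl p/ℚ_[p]))
    (h𝒲 : 𝒲 = krullLevel ℚ_[p] (PadicAlgCl p))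
    (χ : Gal(PadicAlgCl p/ℚ_[p]) →* (ZMod p)ˣ) [IsDiscrete 𝒲 (ofChar (k := ZMod p) χ)]
    {t : levelCohomology 𝒲 (ofChar (k := ZMod p) χ) 2 →ₗ[ZMod p] ZMod p}
    (hΨ : MonoDuality 𝒲 χ t)
    (hχ : ∀ g : Gal(PadicAlgCl p/ℚ_[p]), g ζ = ζ ^ ((χ g : (ZMod p)ˣ) : ZMod p).val)
    (hLV : L.fixingSubgroup ≤ V)
    (hK : KummerHyp p L V.subtype (𝒲.restrict V) (L.fixingSubgroup.subgroupOf V) ζ)
    (hcop : Nat.Coprime p (L.fixingSubgroup.subgroupOf V).index)
    (Z : Rep.{0} (ZMod p) Gal(PadicAlgCl p/ℚ_[p])) [IsDiscrete 𝒲 Z] [FiniteDimensional (ZMod p) Z]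
    (hZ : ∀ u ∈ L.fixingSubgroup, Z.ρ u = 1)
    [IsDiscrete 𝒲 (Rep.coind V.subtype (Rep.res V.subtype Z))] :
    eulerL 𝒲 (Rep.coind V.subtype (Rep.res V.subtype Z)) = 0 := by
  haveI : IsOpenSub 𝒲 V := by
    refine ⟨⟨L.fixingSubgroup, ?_, hLV⟩⟩
    rw [h𝒲]
    exact fixingSubgroup_mem_krullLevel L
  haveI : IsDiscrete (𝒲.restrict V) (Rep.res V.subtype Z) := isDiscrete_res_restrict V Z
  haveI : IsDiscrete (𝒲.restrict V) ((Rep.res V.subtype Z).dualTwist (χ.comp V.subtype)) :=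
    isDiscrete_res_dualTwist_restrict V Z
  haveI : FiniteDimensional (ZMod p) (Rep.res V.subtype Z) := ‹FiniteDimensional (ZMod p) Z›
  refine ShapiroEuler.eulerL_coindRes_eq_zero V Z hΨ ?_
  exact finrank_H1_eq_level L hζ hζL V 𝒲 h𝒲 hLV hK hcop χ hχ (Rep.res V.subtype Z)
    (fun u hu => hZ u (Subgroup.mem_subgroupOf.1 hu))

end Euler

end

end Fermat.Agent.S56.Loc.EC.CharCase
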