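/-
S56 / block E (local terms), LEC chain, seam between (L4) and (L5) (helper19):
**`Hom_lev(U, 𝔽_p) ≃ H¹(𝒰.restrict U, 𝔽_p)`** — the module `X = HomLev 𝒰 U` of
`EC/HomTensorCore` is the first level cohomology group of the subgroup `U` (with the restricted
level structure) with trivial coefficients `trivRep ↥U p` — the target of the S55 Kummer
isomorphism `Local/KummerCount.kumEquiv`.

* `homLevCocycle 𝒰 U χ : levelCocycles₁ (𝒰.restrict U) (trivRep ↥U p)`;
* **`homLevEquivH1 𝒰 U : HomLev 𝒰 U ≃ₗ[ZMod p] levelCohomology (𝒰.restrict U) (trivRep ↥U p) 1`**,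
  `homLevEquivH1_apply`, `homLevEquivH1_symm_levelH1π`.
-/
import Mathlib
import Fermat.Agent.S56.Loc.EC.HomTensorCore
import Fermat.Agent.S55.LevelRestrict
import Fermat.Agent.S55.Local.Hilbert

set_option autoImplicit false
set_option linter.unusedSectionVars false

namespace Fermat.Agent.S56.Loc.EC.HomLevH1

open CategoryTheory groupCohomology Module Fermat.Agent.S55.Level
  Fermat.Agent.S55.Local.Hilbert Fermat.Agent.S56.Loc.EC.HomTensorCore

noncomputable section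

variable {G : Type} [Group G] (𝒰 : LevelStructure G) (U : Subgroup G) {p : ℕ} [Fact p.Prime]

/-- an additive map of finite level is a level cocycle of the trivial representation -/
lemma mem_levelCocycles₁_of_mem_HomLev {χ : U → ZMod p} (hχ : χ ∈ HomLev (k := ZMod p) 𝒰 U) :
    χ ∈ levelCocycles₁ (𝒰.restrict U) (trivRep ↥U p) := by
  rw [Fermat.Agent.S55.Level.mem_levelCocycles₁_iff]
  obtain ⟨hadd, W, hW, hlev⟩ := hχ
  refine ⟨(mem_cocycles₁_trivRep_iff p χ).2 hadd, W.subgroupOf U,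
    𝒰.mem_restrict_sets U hW, fun g s hs => ?_⟩
  rw [hadd, hlev s (Subgroup.mem_subgroupOf.mp hs), add_zero]

/-- a level cocycle of the trivial representation is an additive map of finite level -/
lemma mem_HomLev_of_mem_levelCocycles₁ {χ : U → ZMod p}
    (hχ : χ ∈ levelCocycles₁ (𝒰.restrict U) (trivRep ↥U p)) : χ ∈ HomLev (k := ZMod p) 𝒰 U := by
  rw [Fermat.Agent.S55.Level.mem_levelCocycles₁_iff] at hχ
  obtain ⟨hcoc, V, ⟨W, hW, rfl⟩, hlev⟩ := hχ
  have hadd := (mem_cocycles₁_trivRep_iff p χ).1 hcoc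
  refine ⟨hadd, W, hW, fun u hu => ?_⟩
  have h1 := hlev 1 u (Subgroup.mem_subgroupOf.mpr hu)
  rw [one_mul] at h1
  have h2 : χ 1 = 0 := by
    have := hadd 1 1
    rw [mul_one] at this
    exact left_eq_add.mp this
  rw [h1, h2]

/-- `Hom_lev(U, 𝔽_p) → Z¹_lev(U, 𝔽_p)` -/
def homLevCocycle : HomLev (k := ZMod p) 𝒰 U →ₗ[ZMod p]
    levelCocycles₁ (𝒰.restrict U) (trivRep ↥U p) where
  toFun χ := ⟨χ.1, mem_levelCocycles₁_of_mem_HomLev 𝒰 U χ.2⟩
  map_add' _ _ := rfl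
  map_smul' _ _ := rfl

@[simp] lemma coe_homLevCocycle (χ : HomLev (k := ZMod p) 𝒰 U) :
    ((homLevCocycle 𝒰 U χ : levelCocycles₁ (𝒰.restrict U) (trivRep ↥U p)) : U → ZMod p) = χ.1 :=
  rfl

/-- coboundaries with trivial coefficients vanish -/
lemma eq_zero_of_mem_coboundaries₁_trivRep {H : Type} [Group H] (f : H → ZMod p)
    (hf : f ∈ coboundaries₁ (trivRep H p)) : f = 0 := by
  obtain ⟨x, rfl⟩ := hf
  funext g
  show (trivRep H p).ρ g x - x = 0
  rw [trivRep_ρ, sub_self]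

/-- **`Hom_lev(U, 𝔽_p) ≃ H¹(𝒰.restrict U, 𝔽_p)`** -/
def homLevEquivH1 : HomLev (k := ZMod p) 𝒰 U ≃ₗ[ZMod p]
    levelCohomology (𝒰.restrict U) (trivRep ↥U p) 1 :=
  LinearEquiv.ofBijective
    ((levelH1π (𝒰.restrict U) (trivRep ↥U p)).comp (homLevCocycle 𝒰 U))
    ⟨by
      rw [← LinearMap.ker_eq_bot, LinearMap.ker_eq_bot']
      intro χ hχ
      rw [LinearMap.comp_apply, levelH1π_eq_zero_iff] at hχ
      exact Subtype.ext (eq_zero_of_mem_coboundaries₁_trivRep _ hχ),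
    fun x => by
      obtain ⟨z, rfl⟩ := levelH1π_surjective (𝒰.restrict U) (trivRep ↥U p) x
      exact ⟨⟨z.1, mem_HomLev_of_mem_levelCocycles₁ 𝒰 U z.2⟩, rfl⟩⟩

lemma homLevEquivH1_apply (χ : HomLev (k := ZMod p) 𝒰 U) :
    homLevEquivH1 𝒰 U χ = levelH1π (𝒰.restrict U) (trivRep ↥U p) (homLevCocycle 𝒰 U χ) := rfl

lemma homLevEquivH1_symm_levelH1π (z : levelCocycles₁ (𝒰.restrict U) (trivRep ↥U p)) :
    (((homLevEquivH1 𝒰 U).symm (levelH1π (𝒰.restrict U) (trivRep ↥U p) z) :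
      HomLev (k := ZMod p) 𝒰 U) : U → ZMod p) = z.1 := by
  have h : (homLevEquivH1 𝒰 U).symm (levelH1π (𝒰.restrict U) (trivRep ↥U p) z) =
      ⟨z.1, mem_HomLev_of_mem_levelCocycles₁ 𝒰 U z.2⟩ := by
    rw [LinearEquiv.symm_apply_eq]
    rfl
  rw [h]

end

end Fermat.Agent.S56.Loc.EC.HomLevH1
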