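/-
S56 / block E (local terms), E-ECp = "LEC" chain (board #2515), leaf (L3) (helper9):
INFLATION–RESTRICTION IN DEGREE 1 FOR A QUOTIENT OF ORDER PRIME TO `p`, in explicit cocycles.

`(G, 𝒰)` a group with a level structure, `U ⊲ G` containing a member of `𝒰`, `A` a discrete
representation over a field `k` of characteristic `p` on which `U` acts trivially, `p ∤ [G : U]`.
Then restriction of cocycles induces an isomorphism

  `H¹(𝒰, A) ≃ EqHom 𝒰 U A := {φ : U → A | additive, of finite level, φ(g u g⁻¹) = g • φ(u)}`.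

* injectivity: a cocycle vanishing on `U` factors through `G/U` and is the coboundary of the
  average of its values (`[G : U]` invertible in `k`);
* surjectivity: `K := ker φ ⊲ G` has finite index, `U/K` is a `p`-group and `[G/K : U/K]` is prime
  to `p`, so Schur–Zassenhaus (Mathlib `Subgroup.exists_right_complement'_of_coprime`) gives
  `T̃ ≤ G` with `G = U · T̃`, `U ∩ T̃ ≤ K`; `z(u t) := φ(u)` is a level cocycle restricting to `φ`.

Main statements: `resEq` (the restriction map on level cocycles), `resEq_surjective`, `ker_resEq`,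
`h1Equiv : H¹(𝒰, A) ≃ₗ[k] EqHom 𝒰 U A`, `finrank_H1_eq`.
-/
import Mathlib
import Fermat.Agent.S55.LevelH1

set_option autoImplicit false
set_option linter.unusedSectionVars false

namespace Fermat.Agent.S56.Loc.EC.InfRes

open CategoryTheory groupCohomology Fermat.Agent.S55.Level

universe u

noncomputable section

variable {k G : Type u} [Field k] [Group G] (𝒰 : LevelStructure G) (U : Subgroup G) [U.Normal]
  (A : Rep.{u} k G)

/-- conjugation of an element of the normal subgroup `U` -/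
def conjU (g : G) (u : U) : U := ⟨g * u * g⁻¹, ‹U.Normal›.conj_mem (u : G) u.2 g⟩

@[simp] lemma coe_conjU (g : G) (u : U) : ((conjU U g u : U) : G) = g * u * g⁻¹ := rfl

/-- **Equivariant homomorphisms of finite level** `U → A`. -/
def EqHom : Submodule k (U → A) where
  carrier := {φ | (∀ u v, φ (u * v) = φ u + φ v) ∧
    (∃ W ∈ 𝒰.sets, ∀ u : U, (u : G) ∈ W → φ u = 0) ∧
    ∀ (g : G) (u : U), φ (conjU U g u) = A.ρ g (φ u)}
  zero_mem' := by
    refine ⟨fun _ _ => by simp, ?_, fun _ _ => by simp⟩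
    obtain ⟨W, hW⟩ := 𝒰.nonempty
    exact ⟨W, hW, fun _ _ => rfl⟩
  add_mem' := by
    rintro φ ψ ⟨h1, ⟨W, hW, h2⟩, h3⟩ ⟨h1', ⟨W', hW', h2'⟩, h3'⟩
    refine ⟨fun u v => ?_, ?_, fun g u => ?_⟩
    · simp only [Pi.add_apply, h1, h1']; abel
    · obtain ⟨W'', hW'', hle⟩ := 𝒰.directed W hW W' hW'
      refine ⟨W'', hW'', fun u hu => ?_⟩
      simp only [Pi.add_apply, h2 u (hle hu).1, h2' u (hle hu).2, add_zero]
    · simp only [Pi.add_apply, h3, h3', map_add]
  smul_mem' := by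
    rintro c φ ⟨h1, ⟨W, hW, h2⟩, h3⟩
    refine ⟨fun u v => ?_, ⟨W, hW, fun u hu => ?_⟩, fun g u => ?_⟩
    · simp only [Pi.smul_apply, h1, smul_add]
    · simp only [Pi.smul_apply, h2 u hu, smul_zero]
    · simp only [Pi.smul_apply, h3, map_smul]

variable {𝒰 U A}

lemma mem_EqHom_iff (φ : U → A) : φ ∈ EqHom 𝒰 U A ↔ (∀ u v, φ (u * v) = φ u + φ v) ∧
    (∃ W ∈ 𝒰.sets, ∀ u : U, (u : G) ∈ W → φ u = 0) ∧
    ∀ (g : G) (u : U), φ (conjU U g u) = A.ρ g (φ u) := Iff.rfl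

/-! ### the restriction map -/

section Res

variable (hUA : ∀ u ∈ U, A.ρ u = 1)

include hUA

lemma cocycle_mul_of_mem (z : G → A) (hz : z ∈ cocycles₁ A) (g : G) {u : G} (hu : u ∈ U) :
    z (u * g) = z u + z g := by
  rw [(mem_cocycles₁_iff z).1 hz u g, hUA u hu, Module.End.one_apply, add_comm]

lemma cocycle_conj (z : G → A) (hz : z ∈ cocycles₁ A) (g : G) {u : G} (hu : u ∈ U) :
    z (g * u * g⁻¹) = A.ρ g (z u) := by
  have h1 := (mem_cocycles₁_iff z).1 hz (g * u) g⁻¹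
  have h2 := (mem_cocycles₁_iff z).1 hz g u
  have h3 : A.ρ g (z g⁻¹) = - z g := cocycles₁_map_inv ⟨z, hz⟩ g
  rw [h1, h2, map_mul, Module.End.mul_apply, hUA u hu, Module.End.one_apply, h3]
  abel

/-- the restriction of a level cocycle to `U` is an equivariant homomorphism of finite level -/
lemma restrict_mem_EqHom (z : G → A) (hz : z ∈ levelCocycles₁ 𝒰 A) :
    (fun u : U => z (u : G)) ∈ EqHom 𝒰 U A := by
  obtain ⟨hz1, W, hW, hz2⟩ := (mem_levelCocycles₁_iff 𝒰 A z).1 hz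
  refine ⟨fun u v => ?_, ⟨W, hW, fun u hu => ?_⟩, fun g u => ?_⟩
  · exact cocycle_mul_of_mem hUA z hz1 (v : G) u.2
  · have h1 := hz2 1 (u : G) hu
    rw [one_mul] at h1
    show z (u : G) = 0
    rw [h1]
    exact cocycles₁_map_one ⟨z, hz1⟩
  · show z (g * (u : G) * g⁻¹) = A.ρ g (z (u : G))
    exact cocycle_conj hUA z hz1 g u.2

/-- **the restriction map** `Z¹_lev(G, A) → EqHom` -/
def resEq : levelCocycles₁ 𝒰 A →ₗ[k] EqHom 𝒰 U A where
  toFun z := ⟨fun u : U => z.1 (u : G), restrict_mem_EqHom hUA z.1 z.2⟩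
  map_add' _ _ := rfl
  map_smul' _ _ := rfl

@[simp] lemma resEq_apply (z : levelCocycles₁ 𝒰 A) (u : U) :
    (resEq hUA z : U → A) u = z.1 (u : G) := rfl

end Res

/-! ### the kernel of the restriction map: coboundaries -/

section Ker

variable [U.FiniteIndex] (hUA : ∀ u ∈ U, A.ρ u = 1)

include hUA

/-- a cocycle vanishing on `U` is right `U`-invariant -/
lemma cocycle_mul_right_of_vanish (z : G → A) (hz : z ∈ cocycles₁ A)
    (h0 : ∀ u ∈ U, z u = 0) (g : G) {u : G} (hu : u ∈ U) : z (g * u) = z g := by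
  rw [(mem_cocycles₁_iff z).1 hz g u, h0 u hu, map_zero, zero_add]

/-- **a cocycle vanishing on `U` is a coboundary** when `[G : U]` is invertible in `k`. -/
lemma mem_coboundaries₁_of_vanish (hn : ((U.index : ℕ) : k) ≠ 0) (z : G → A)
    (hz : z ∈ cocycles₁ A) (h0 : ∀ u ∈ U, z u = 0) : z ∈ coboundaries₁ A := by
  classical
  haveI : Fintype (G ⧸ U) := Subgroup.fintypeQuotientOfFiniteIndex
  -- `z` as a function on `G ⧸ U`
  let zq : G ⧸ U → A := Quotient.lift z (by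
    intro a b hab
    have h1 : a⁻¹ * b ∈ U := QuotientGroup.leftRel_apply.1 hab
    have h2 := cocycle_mul_right_of_vanish hUA z hz h0 a h1
    rw [mul_inv_cancel_left] at h2
    exact h2.symm)
  have hzq : ∀ g : G, zq (g : G ⧸ U) = z g := fun _ => rfl
  let S : A := ∑ t : G ⧸ U, zq t
  -- `∑ z(g t) = n z(g) + g S`
  have hsum : ∀ g : G, S = (U.index : k) • z g + A.ρ g S := by
    intro g
    have h2 : ∀ t : G ⧸ U, zq ((g : G ⧸ U) * t) = z g + A.ρ g (zq t) := by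
      intro t
      induction t using QuotientGroup.induction_on with | H h =>
      rw [← QuotientGroup.mk_mul, hzq, hzq, (mem_cocycles₁_iff z).1 hz g h, add_comm]
    calc S = ∑ t : G ⧸ U, zq ((g : G ⧸ U) * t) :=
          (Fintype.sum_equiv (Equiv.mulLeft (g : G ⧸ U)) _ _ (fun _ => rfl)).symm
      _ = ∑ t : G ⧸ U, (z g + A.ρ g (zq t)) := Finset.sum_congr rfl (fun t _ => h2 t)
      _ = (U.index : k) • z g + A.ρ g S := by
          rw [Finset.sum_add_distrib, Finset.sum_const, Finset.card_univ, ← map_sum,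
            ← Nat.card_eq_fintype_card, ← Subgroup.index_eq_card, Nat.cast_smul_eq_nsmul]
  refine ⟨-((U.index : k)⁻¹ • S), ?_⟩
  funext g
  rw [d₀₁_hom_apply]
  have h3 := hsum g
  have h5 : (U.index : k) • z g = S - A.ρ g S := by
    rw [eq_sub_iff_add_eq]; exact h3.symm
  have h4 : z g = (U.index : k)⁻¹ • (S - A.ρ g S) := by
    rw [← h5, smul_smul, inv_mul_cancel₀ hn, one_smul]
  rw [h4, map_neg, map_smul, smul_sub]
  abel

/-- a coboundary vanishes on `U` -/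
lemma coboundary_vanish (z : G → A) (hz : z ∈ coboundaries₁ A) {u : G} (hu : u ∈ U) :
    z u = 0 := by
  obtain ⟨a, rfl⟩ := hz
  rw [d₀₁_hom_apply, hUA u hu, Module.End.one_apply, sub_self]

/-- **the kernel of the restriction map is the space of coboundaries** -/
theorem mem_ker_resEq_iff (hn : ((U.index : ℕ) : k) ≠ 0) (z : levelCocycles₁ 𝒰 A) :
    resEq hUA z = 0 ↔ z.1 ∈ coboundaries₁ A := by
  constructor
  · intro h
    have hz1 := ((mem_levelCocycles₁_iff 𝒰 A z.1).1 z.2).1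
    refine mem_coboundaries₁_of_vanish hUA hn z.1 hz1 (fun u hu => ?_)
    have := congrFun (congrArg Subtype.val h) ⟨u, hu⟩
    exact this
  · intro h
    apply Subtype.ext
    funext u
    exact coboundary_vanish hUA z.1 h u.2

end Ker

/-! ### surjectivity of the restriction map (Schur–Zassenhaus) -/

section Surj

/-- an element of `EqHom` as a homomorphism `U →* Multiplicative A` -/
def toHom (φ : EqHom 𝒰 U A) : U →* Multiplicative A where
  toFun u := Multiplicative.ofAdd ((φ : U → A) u)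
  map_one' := by
    have h := φ.2.1 1 1
    rw [mul_one] at h
    have h0 : (φ : U → A) 1 = 0 := by
      have := add_eq_left.1 h.symm
      exact this
    rw [h0]; rfl
  map_mul' u v := by rw [φ.2.1 u v]; rfl

lemma toHom_apply (φ : EqHom 𝒰 U A) (u : U) :
    Multiplicative.toAdd (toHom φ u) = (φ : U → A) u := rfl

lemma map_one_eq (φ : EqHom 𝒰 U A) : (φ : U → A) 1 = 0 := by
  have := map_one (toHom φ)
  exact congrArg Multiplicative.toAdd this

lemma map_inv_eq (φ : EqHom 𝒰 U A) (u : U) : (φ : U → A) u⁻¹ = - (φ : U → A) u := by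
  have := map_inv (toHom φ) u
  exact congrArg Multiplicative.toAdd this

lemma map_pow_eq (φ : EqHom 𝒰 U A) (u : U) (n : ℕ) : (φ : U → A) (u ^ n) = n • (φ : U → A) u := by
  have := map_pow (toHom φ) u n
  exact congrArg Multiplicative.toAdd this

/-- the kernel of `φ` as a subgroup of `G` -/
def kerSub (φ : EqHom 𝒰 U A) : Subgroup G := (toHom φ).ker.map U.subtype

lemma mem_kerSub_iff (φ : EqHom 𝒰 U A) (g : G) :
    g ∈ kerSub φ ↔ ∃ h : g ∈ U, (φ : U → A) ⟨g, h⟩ = 0 := by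
  constructor
  · rintro ⟨u, hu, rfl⟩
    refine ⟨u.2, ?_⟩
    have : toHom φ u = 1 := hu
    exact congrArg Multiplicative.toAdd this
  · rintro ⟨h, h0⟩
    refine ⟨⟨g, h⟩, ?_, rfl⟩
    show toHom φ ⟨g, h⟩ = 1
    exact congrArg Multiplicative.ofAdd h0

lemma kerSub_le (φ : EqHom 𝒰 U A) : kerSub φ ≤ U := fun _ hg => ((mem_kerSub_iff φ _).1 hg).1

instance kerSub_normal (φ : EqHom 𝒰 U A) : (kerSub φ).Normal := by
  refine ⟨fun x hx g => ?_⟩
  obtain ⟨h, h0⟩ := (mem_kerSub_iff φ x).1 hx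
  refine (mem_kerSub_iff φ _).2 ⟨‹U.Normal›.conj_mem x h g, ?_⟩
  have := φ.2.2.2 g ⟨x, h⟩
  rw [h0, map_zero] at this
  exact this

lemma exists_le_kerSub (hUo : ∃ W ∈ 𝒰.sets, W ≤ U) (φ : EqHom 𝒰 U A) :
    ∃ W ∈ 𝒰.sets, W ≤ kerSub φ := by
  obtain ⟨W₀, hW₀, hW₀U⟩ := hUo
  obtain ⟨W, hW, hφW⟩ := φ.2.2.1
  obtain ⟨W', hW', hle⟩ := 𝒰.directed W hW W₀ hW₀
  refine ⟨W', hW', fun g hg => ?_⟩
  exact (mem_kerSub_iff φ g).2 ⟨hW₀U (hle hg).2, hφW ⟨g, hW₀U (hle hg).2⟩ (hle hg).1⟩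

variable {p : ℕ} [Fact p.Prime] [CharP k p]

/-- **Schur–Zassenhaus for `U/ker φ ⊲ G/ker φ`**: a subgroup `T̃ ≤ G` with `G = U T̃` and
`U ∩ T̃ ≤ ker φ`. -/
theorem exists_complement (hUo : ∃ W ∈ 𝒰.sets, W ≤ U) (hcop : Nat.Coprime p U.index)
    (φ : EqHom 𝒰 U A) :
    ∃ T : Subgroup G, (∀ g : G, ∃ u : U, (u : G)⁻¹ * g ∈ T) ∧ U ⊓ T ≤ kerSub φ := by
  classical
  set K := kerSub φ with hK
  obtain ⟨W, hW, hWK⟩ := exists_le_kerSub hUo φ
  haveI : W.FiniteIndex := 𝒰.finiteIndex W hW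
  haveI : K.FiniteIndex := Subgroup.finiteIndex_of_le hWK
  haveI : Finite (G ⧸ K) := Subgroup.finite_quotient_of_finiteIndex
  let π : G →* G ⧸ K := QuotientGroup.mk' K
  have hπ : Function.Surjective π := QuotientGroup.mk'_surjective K
  let N : Subgroup (G ⧸ K) := U.map π
  haveI : N.Normal := Subgroup.Normal.map ‹U.Normal› π hπ
  -- `N` is a `p`-group
  have hNp : IsPGroup p N := by
    rintro ⟨n, u, hu, rfl⟩
    refine ⟨1, ?_⟩
    apply Subtype.ext
    rw [pow_one]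
    show (π u) ^ p = 1
    rw [← map_pow]
    refine (QuotientGroup.eq_one_iff _).2 ((mem_kerSub_iff φ _).2 ⟨U.pow_mem hu p, ?_⟩)
    have h1 := map_pow_eq φ ⟨u, hu⟩ p
    have h2 : (p : ℕ) • (φ : U → A) ⟨u, hu⟩ = 0 := by
      rw [← Nat.cast_smul_eq_nsmul k, CharP.cast_eq_zero k p, zero_smul]
    rw [h2] at h1
    exact h1
  obtain ⟨m, hm⟩ := hNp.exists_card_eq
  have hidx : N.index = U.index := by
    have h1 := Subgroup.index_map U π
    rw [QuotientGroup.ker_mk', MonoidHom.range_eq_top.2 hπ, Subgroup.index_top, mul_one,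
      sup_eq_left.2 (kerSub_le φ)] at h1
    exact h1
  have hcop' : Nat.Coprime (Nat.card N) N.index := by
    rw [hm, hidx]
    exact Nat.Coprime.pow_left m hcop
  obtain ⟨T', hT'⟩ := Subgroup.exists_right_complement'_of_coprime hcop'
  refine ⟨T'.comap π, fun g => ?_, fun x hx => ?_⟩
  · obtain ⟨⟨n, t⟩, hnt, -⟩ := Subgroup.isComplement_iff_existsUnique.1 hT' (π g)
    obtain ⟨u, hu, hun⟩ := n.2
    refine ⟨⟨u, hu⟩, ?_⟩
    show π ((u : G)⁻¹ * g) ∈ T'
    have hnt' : (n : G ⧸ K) * (t : G ⧸ K) = π g := hnt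
    rw [map_mul, map_inv, hun, ← hnt', inv_mul_cancel_left]
    exact t.2
  · have h1 : π x ∈ N := ⟨x, hx.1, rfl⟩
    have h2 : π x ∈ T' := hx.2
    have h3 : π x ∈ N ⊓ T' := ⟨h1, h2⟩
    rw [disjoint_iff.1 hT'.disjoint, Subgroup.mem_bot] at h3
    exact (QuotientGroup.eq_one_iff x).1 h3

variable (hUA : ∀ u ∈ U, A.ρ u = 1)

include hUA

/-- **the restriction map is surjective** when `p ∤ [G : U]`. -/
theorem resEq_surjective [IsDiscrete 𝒰 A] (hUo : ∃ W ∈ 𝒰.sets, W ≤ U)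
    (hcop : Nat.Coprime p U.index) :
    Function.Surjective (resEq (𝒰 := 𝒰) hUA) := by
  classical
  intro φ
  obtain ⟨T, hE, hD⟩ := exists_complement hUo hcop φ
  obtain ⟨W, hW, hWK⟩ := exists_le_kerSub hUo φ
  have hK0 : ∀ (x : G) (hx : x ∈ kerSub φ), (φ : U → A) ⟨x, kerSub_le φ hx⟩ = 0 :=
    fun x hx => ((mem_kerSub_iff φ x).1 hx).2
  let z : G → A := fun g => (φ : U → A) (Classical.choose (hE g))
  -- independence of the choice
  have hz : ∀ (g : G) (u : U), (u : G)⁻¹ * g ∈ T → z g = (φ : U → A) u := by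
    intro g u hu
    have h0 := Classical.choose_spec (hE g)
    set u₀ := Classical.choose (hE g) with hu₀
    have h1 : ((u⁻¹ * u₀ : U) : G) ∈ T := by
      have : ((u⁻¹ * u₀ : U) : G) = ((u : G)⁻¹ * g) * ((u₀ : G)⁻¹ * g)⁻¹ := by
        push_cast; group
      rw [this]
      exact T.mul_mem hu (T.inv_mem h0)
    have h2 : ((u⁻¹ * u₀ : U) : G) ∈ kerSub φ := hD ⟨(u⁻¹ * u₀ : U).2, h1⟩
    have h3 := hK0 _ h2
    have h4 : (φ : U → A) u₀ = (φ : U → A) (u * (u⁻¹ * u₀)) := by rw [mul_inv_cancel_left]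
    show (φ : U → A) u₀ = _
    rw [h4, φ.2.1, h3, add_zero]
  have hρ : ∀ (g : G) (u : U), (u : G)⁻¹ * g ∈ T → A.ρ g = A.ρ ((u : G)⁻¹ * g) := by
    intro g u _
    have : g = (u : G) * ((u : G)⁻¹ * g) := by group
    conv_lhs => rw [this, map_mul, hUA u u.2, one_mul]
  -- `z` is a cocycle
  have hz1 : z ∈ cocycles₁ A := by
    rw [mem_cocycles₁_iff]
    intro g h
    obtain ⟨u, hu⟩ := hE g
    obtain ⟨v, hv⟩ := hE h
    set t := (u : G)⁻¹ * g with ht
    have hw : ((u * conjU U t v : U) : G)⁻¹ * (g * h) ∈ T := by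
      have : ((u * conjU U t v : U) : G)⁻¹ * (g * h) = t * ((v : G)⁻¹ * h) := by
        simp only [Subgroup.coe_mul, coe_conjU, ht]; group
      rw [this]
      exact T.mul_mem hu hv
    rw [hz (g * h) _ hw, hz g u hu, hz h v hv, φ.2.1, φ.2.2.2, hρ g u hu, add_comm]
  -- `z` is of finite level
  have hz2 : IsLevel₁ 𝒰 z := by
    refine ⟨W, hW, fun g s hs => ?_⟩
    obtain ⟨u, hu⟩ := hE g
    set t := (u : G)⁻¹ * g with ht
    have hsK : s ∈ kerSub φ := hWK hs
    have hsU : s ∈ U := kerSub_le φ hsK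
    have hw : ((u * conjU U t ⟨s, hsU⟩ : U) : G)⁻¹ * (g * s) ∈ T := by
      have : ((u * conjU U t ⟨s, hsU⟩ : U) : G)⁻¹ * (g * s) = t := by
        simp only [Subgroup.coe_mul, coe_conjU, ht]; group
      rw [this]
      exact hu
    rw [hz (g * s) _ hw, hz g u hu, φ.2.1, φ.2.2.2, hK0 s hsK, map_zero, add_zero]
  refine ⟨⟨z, (mem_levelCocycles₁_iff 𝒰 A z).2 ⟨hz1, hz2⟩⟩, ?_⟩
  apply Subtype.ext
  funext u
  show z (u : G) = (φ : U → A) u
  exact hz (u : G) u (by rw [inv_mul_cancel]; exact T.one_mem)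

omit hUA in
lemma index_ne_zero_of_coprime (hcop : Nat.Coprime p U.index) : ((U.index : ℕ) : k) ≠ 0 := by
  rw [Ne, CharP.cast_eq_zero_iff k p]
  exact fun h => (Fact.out : p.Prime).one_lt.ne' (Nat.Coprime.eq_one_of_dvd hcop h)

lemma ker_levelH1π_eq_ker_resEq [IsDiscrete 𝒰 A] [U.FiniteIndex]
    (hcop : Nat.Coprime p U.index) :
    LinearMap.ker (levelH1π 𝒰 A) = LinearMap.ker (resEq (𝒰 := 𝒰) hUA) := by
  ext z
  rw [LinearMap.mem_ker, LinearMap.mem_ker, levelH1π_eq_zero_iff,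
    mem_ker_resEq_iff hUA (index_ne_zero_of_coprime hcop)]

/-- **Inflation–restriction**: `H¹(𝒰, A) ≃ EqHom 𝒰 U A` for `p ∤ [G : U]`, `U` acting trivially. -/
def h1Equiv [IsDiscrete 𝒰 A] [U.FiniteIndex] (hUo : ∃ W ∈ 𝒰.sets, W ≤ U)
    (hcop : Nat.Coprime p U.index) :
    levelCohomology 𝒰 A 1 ≃ₗ[k] EqHom 𝒰 U A :=
  (LinearMap.quotKerEquivOfSurjective (levelH1π 𝒰 A) (levelH1π_surjective 𝒰 A)).symm ≪≫ₗ
    Submodule.quotEquivOfEq _ _ (ker_levelH1π_eq_ker_resEq hUA hcop) ≪≫ₗ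
    LinearMap.quotKerEquivOfSurjective (resEq (𝒰 := 𝒰) hUA) (resEq_surjective hUA hUo hcop)

/-- the equivalence on cocycle representatives -/
theorem h1Equiv_levelH1π [IsDiscrete 𝒰 A] [U.FiniteIndex] (hUo : ∃ W ∈ 𝒰.sets, W ≤ U)
    (hcop : Nat.Coprime p U.index) (z : levelCocycles₁ 𝒰 A) :
    h1Equiv hUA hUo hcop (levelH1π 𝒰 A z) = resEq hUA z := by
  unfold h1Equiv
  simp only [LinearEquiv.trans_apply]
  have h1 : (LinearMap.quotKerEquivOfSurjective (levelH1π 𝒰 A) (levelH1π_surjective 𝒰 A)).symm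
      (levelH1π 𝒰 A z) = Submodule.Quotient.mk z := by
    rw [LinearEquiv.symm_apply_eq]
    rfl
  rw [h1]
  rfl

/-- **`h¹(𝒰, A) = dim EqHom 𝒰 U A`.** -/
theorem finrank_H1_eq [IsDiscrete 𝒰 A] [U.FiniteIndex] (hUo : ∃ W ∈ 𝒰.sets, W ≤ U)
    (hcop : Nat.Coprime p U.index) :
    Module.finrank k (levelCohomology 𝒰 A 1) = Module.finrank k (EqHom 𝒰 U A) :=
  (h1Equiv hUA hUo hcop).finrank_eq

end Surj

end

end Fermat.Agent.S56.Loc.EC.InfRes
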